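/-
S55 / LG layer (local-global bridge): definitions (sorry-free).

A `q`-adic embedding of a number field `K` is a ring hom `i : K →+* PadicAlgCl q`.
It determines
* the local field `lgField q i = ℚ_q(i K) ⊆ PadicAlgCl q` (a local field in the sense of
  `LocalDefs.lean`: `Algebra ℚ_[q]`, `FiniteDimensional ℚ_[q]`),
* the embedding `lgEmb q i : K →+* lgField q i`,
* the place `lgPlace q i : HeightOneSpectrum (𝓞 K)`, `{x | ‖i x‖ < 1}`.
-/
import Mathlib
import Fermat.Prelude.Def_GaloisRep_CompletionBridge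
import Fermat.Agent.S55.LocalDefs

set_option autoImplicit false
set_option linter.unusedSectionVars false

noncomputable section

namespace Fermat.Agent.S55

open NumberField IsDedekindDomain

section Defs

variable (q : ℕ) [Fact q.Prime] {K : Type*} [Field K] [NumberField K] (i : K →+* PadicAlgCl q)

/-- Elements integral over `ℤ` have norm `≤ 1` in `PadicAlgCl q`. -/
theorem lg_norm_le_one_of_isIntegral {y : PadicAlgCl q} (hy : IsIntegral ℤ y) : ‖y‖ ≤ 1 := by
  have h1 : IsIntegral ((PadicAlgCl.valued q).v.integer) y := hy.tower_top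
  have h2 := (Valuation.integer.integers (PadicAlgCl.valued q).v).mem_of_integral h1
  have h3 : (PadicAlgCl.valued q).v y ≤ 1 := h2
  rw [PadicAlgCl.valuation_def] at h3
  exact_mod_cast h3

theorem lg_norm_le_one (x : 𝓞 K) : ‖i (x : K)‖ ≤ 1 := by
  apply lg_norm_le_one_of_isIntegral
  have h := RingOfIntegers.isIntegral_coe x
  exact h.map (i : K →+* PadicAlgCl q).toIntAlgHom

/-- The prime ideal `{x ∈ 𝓞 K | ‖i x‖ < 1}`. -/
def lgIdeal : Ideal (𝓞 K) where
  carrier := {x | ‖i (x : K)‖ < 1}
  add_mem' := by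
    intro a b ha hb
    change ‖i (algebraMap (𝓞 K) K (a + b))‖ < 1
    rw [map_add, map_add]
    exact lt_of_le_of_lt (PadicAlgCl.isNonarchimedean q _ _) (max_lt ha hb)
  zero_mem' := by simp
  smul_mem' := by
    intro c x hx
    change ‖i (algebraMap (𝓞 K) K (c * x))‖ < 1
    rw [map_mul, map_mul, norm_mul]
    calc ‖i (c : K)‖ * ‖i (x : K)‖ ≤ 1 * ‖i (x : K)‖ :=
          mul_le_mul_of_nonneg_right (lg_norm_le_one q i c) (norm_nonneg _)
      _ < 1 := by rwa [one_mul]

theorem mem_lgIdeal_iff (x : 𝓞 K) : x ∈ lgIdeal q i ↔ ‖i (x : K)‖ < 1 := Iff.rfl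

theorem lgIdeal_isPrime : (lgIdeal q i).IsPrime := by
  refine ⟨?_, ?_⟩
  · intro h
    have : (1 : 𝓞 K) ∈ lgIdeal q i := h ▸ Submodule.mem_top
    rw [mem_lgIdeal_iff] at this
    simp at this
  · intro a b hab
    rw [mem_lgIdeal_iff] at hab ⊢
    rw [mem_lgIdeal_iff]
    change ‖i (algebraMap (𝓞 K) K (a * b))‖ < 1 at hab
    rw [map_mul, map_mul, norm_mul] at hab
    by_contra hcon
    rw [not_or, not_lt, not_lt] at hcon
    have ha : ‖i (a : K)‖ = 1 := le_antisymm (lg_norm_le_one q i a) hcon.1
    have hb : ‖i (b : K)‖ = 1 := le_antisymm (lg_norm_le_one q i b) hcon.2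
    rw [ha, hb, one_mul] at hab
    exact lt_irrefl _ hab

theorem natCast_mem_lgIdeal : ((q : ℕ) : 𝓞 K) ∈ lgIdeal q i := by
  rw [mem_lgIdeal_iff]
  have h1 : i (((q : ℕ) : 𝓞 K) : K) = ((q : ℕ) : PadicAlgCl q) := by simp
  rw [h1]
  have h2 := PadicAlgCl.valuation_p q
  have h3 : ‖((q : ℕ) : PadicAlgCl q)‖₊ = 1 / (q : NNReal) := by
    rw [← PadicAlgCl.valuation_def]; exact h2
  have h4 : ‖((q : ℕ) : PadicAlgCl q)‖ = 1 / (q : ℝ) := by
    have := congrArg (fun t : NNReal => (t : ℝ)) h3
    simpa using this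
  rw [h4]
  have hq : (1 : ℝ) < q := by exact_mod_cast (Fact.out : q.Prime).one_lt
  rw [div_lt_one (by linarith)]
  exact hq

theorem lgIdeal_ne_bot : lgIdeal q i ≠ ⊥ := by
  intro h
  have h1 := natCast_mem_lgIdeal q i
  rw [h, Ideal.mem_bot] at h1
  have h2 : ((q : ℕ) : 𝓞 K) ≠ 0 := by
    exact_mod_cast (Fact.out : q.Prime).ne_zero
  exact h2 h1

/-- The place of `K` determined by the `q`-adic embedding `i`. -/
def lgPlace : HeightOneSpectrum (𝓞 K) :=
  ⟨lgIdeal q i, lgIdeal_isPrime q i, lgIdeal_ne_bot q i⟩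

theorem lgPlace_asIdeal : (lgPlace q i).asIdeal = lgIdeal q i := rfl

/-- The local field `ℚ_q(i K) ⊆ PadicAlgCl q`. -/
def lgField : IntermediateField ℚ_[q] (PadicAlgCl q) :=
  IntermediateField.adjoin ℚ_[q] (Set.range i)

theorem range_le_lgField (x : K) : i x ∈ lgField q i :=
  IntermediateField.subset_adjoin _ _ ⟨x, rfl⟩

/-- The embedding `K → K_i`. -/
def lgEmb : K →+* lgField q i :=
  i.codRestrict (lgField q i).toSubfield.toSubring (fun x => range_le_lgField q i x)

@[simp] theorem lgEmb_coe (x : K) : ((lgEmb q i x : lgField q i) : PadicAlgCl q) = i x := rfl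

theorem lgEmb_injective : Function.Injective (lgEmb q i) := (lgEmb q i).injective

/-- `K_i` as a `K`-algebra through `lgEmb q i` (NOT an instance: use `letI := lgAlgebra q i`). -/
abbrev lgAlgebra : Algebra K (lgField q i) := (lgEmb q i).toAlgebra

theorem lg_map_ratCast (c : ℚ) : i (c : K) = algebraMap ℚ_[q] (PadicAlgCl q) (c : ℚ_[q]) := by
  rw [map_ratCast, map_ratCast]

theorem lgField_eq_adjoin_basis :
    lgField q i = IntermediateField.adjoin ℚ_[q] (i '' Set.range (Module.finBasis ℚ K)) := by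
  apply le_antisymm
  · rw [lgField, IntermediateField.adjoin_le_iff]
    rintro _ ⟨x, rfl⟩
    rw [← (Module.finBasis ℚ K).sum_repr x, map_sum]
    apply sum_mem
    intro k _
    rw [Algebra.smul_def, map_mul]
    apply mul_mem
    · rw [eq_ratCast, lg_map_ratCast]
      exact IntermediateField.algebraMap_mem _ _
    · exact IntermediateField.subset_adjoin _ _ ⟨_, ⟨k, rfl⟩, rfl⟩
  · apply IntermediateField.adjoin.mono
    rintro _ ⟨x, _, rfl⟩
    exact ⟨x, rfl⟩

instance lgField_finiteDimensional : FiniteDimensional ℚ_[q] (lgField q i) := by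
  rw [lgField_eq_adjoin_basis]
  have : Finite (i '' Set.range (Module.finBasis ℚ K)) :=
    Set.Finite.image _ (Set.finite_range _)
  exact IntermediateField.finiteDimensional_adjoin
    (fun x _ => (Algebra.IsAlgebraic.isAlgebraic x).isIntegral)

end Defs

section Relative

variable (q : ℕ) [Fact q.Prime] {K : Type*} [Field K] [NumberField K]
  {L : Type*} [Field L] [NumberField L] [Algebra K L] (j : L →+* PadicAlgCl q)

/-- For `j : L →+* PadicAlgCl q` and `K ⊆ L`, `K_{j|K} ≤ L_j`. -/
theorem lgField_comp_le : lgField q (j.comp (algebraMap K L)) ≤ lgField q j := by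
  rw [lgField, IntermediateField.adjoin_le_iff]
  rintro _ ⟨x, rfl⟩
  exact range_le_lgField q j (algebraMap K L x)

/-- `L_j` as an algebra over `K_{j|K}`. -/
instance lgFieldAlgebra : Algebra (lgField q (j.comp (algebraMap K L))) (lgField q j) :=
  (IntermediateField.inclusion (lgField_comp_le q j)).toRingHom.toAlgebra

theorem lgField_algebraMap_apply (x : lgField q (j.comp (algebraMap K L))) :
    algebraMap (lgField q (j.comp (algebraMap K L))) (lgField q j) x =
      IntermediateField.inclusion (lgField_comp_le q j) x :=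
  rfl


theorem lgField_algebraMap_coe (x : lgField q (j.comp (algebraMap K L))) :
    ((algebraMap (lgField q (j.comp (algebraMap K L))) (lgField q j) x : lgField q j) :
      PadicAlgCl q) = (x : PadicAlgCl q) := by
  rw [lgField_algebraMap_apply]
  exact IntermediateField.coe_inclusion _ x


instance lgField_isScalarTower :
    IsScalarTower ℚ_[q] (lgField q (j.comp (algebraMap K L))) (lgField q j) := by
  refine IsScalarTower.of_algebraMap_eq (fun x => ?_)
  apply Subtype.ext
  rw [lgField_algebraMap_coe]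
  rfl

theorem lgEmb_algebraMap (x : K) :
    lgEmb q j (algebraMap K L x) =
      algebraMap (lgField q (j.comp (algebraMap K L))) (lgField q j)
        (lgEmb q (j.comp (algebraMap K L)) x) := by
  apply Subtype.ext
  rw [lgField_algebraMap_coe, lgEmb_coe, lgEmb_coe, RingHom.comp_apply]

end Relative

section Choice

variable (q : ℕ) [Fact q.Prime] (K : Type*) [Field K] [NumberField K]

/-- The places of `K` above the rational prime `q`. -/
def LgPlacesOver : Type _ :=
  {v : HeightOneSpectrum (𝓞 K) // ((q : ℕ) : 𝓞 K) ∈ v.asIdeal}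

/-- Some `q`-adic embedding of `K` (exists because `PadicAlgCl q` is algebraically closed of
characteristic zero). -/
def lgEmbDefault : K →+* PadicAlgCl q :=
  ((IsAlgClosed.lift : K →ₐ[ℚ] PadicAlgCl q) : K →+* PadicAlgCl q)

variable {K}

open Classical in
/-- A chosen `q`-adic embedding inducing the place `v` (see `lgPlace_lgEmbOf` in the spec). -/
def lgEmbOf (v : LgPlacesOver q K) : K →+* PadicAlgCl q :=
  if h : ∃ i : K →+* PadicAlgCl q, lgPlace q i = v.1 then h.choose else lgEmbDefault q K

/-- The place of `K` above `q` determined by a `q`-adic embedding. -/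
def lgPlaceOver (i : K →+* PadicAlgCl q) : LgPlacesOver q K :=
  ⟨lgPlace q i, natCast_mem_lgIdeal q i⟩

end Choice

section Qbar

variable (q : ℕ) [Fact q.Prime]

/-- The `q`-adic embedding of a subfield of `ℚ̄` induced by the Prelude's `padicEmbedding q`. -/
def lgEmbQbar (F : IntermediateField ℚ (AlgebraicClosure ℚ)) : F →+* PadicAlgCl q :=
  ((padicEmbedding q : AlgebraicClosure ℚ →ₐ[ℚ] PadicAlgCl q) : AlgebraicClosure ℚ →+* PadicAlgCl q).comp
    (F.val : F →+* AlgebraicClosure ℚ)

@[simp] theorem lgEmbQbar_apply (F : IntermediateField ℚ (AlgebraicClosure ℚ)) (x : F) :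
    lgEmbQbar q F x = padicEmbedding q (x : AlgebraicClosure ℚ) := rfl

end Qbar

end Fermat.Agent.S55
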