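/-
S55 / LG layer, leaf LG-A : structure of `K_i = lgField q i` (exact statements of `DenseSpec.lean`).
-/
import Mathlib
import Fermat.Agent.S55.LocalDefs
import Fermat.Agent.S55.LG.Defs

set_option autoImplicit false
set_option linter.unusedSectionVars false

noncomputable section

namespace Fermat.Agent.S55

open NumberField IsDedekindDomain

section LGA

variable (q : ℕ) [Fact q.Prime] {K : Type*} [Field K] [NumberField K] (i : K →+* PadicAlgCl q)

/-- `K_i` is the `ℚ_q`-linear span of `i K` (no closure needed). -/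
theorem lgField_toSubmodule_eq_span :
    (lgField q i).toSubalgebra.toSubmodule = Submodule.span ℚ_[q] (Set.range i) := by
  rw [lgField, IntermediateField.adjoin_toSubalgebra, Algebra.adjoin_eq_span]
  congr 1
  have h : (Set.range i) = ((MonoidHom.mrange (i : K →* PadicAlgCl q) : Submonoid (PadicAlgCl q)) :
      Set (PadicAlgCl q)) := by
    ext x
    simp
  rw [h, Submonoid.closure_eq]

theorem lgdense_mem_span (y : lgField q i) :
    (y : PadicAlgCl q) ∈ Submodule.span ℚ_[q] (Set.range i) := by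
  rw [← lgField_toSubmodule_eq_span]
  exact y.2

/-- The spectral norm of `K_i` is the restriction of the norm of `PadicAlgCl q`. -/
theorem spectralNorm_lgField (y : lgField q i) :
    spectralNorm ℚ_[q] (lgField q i) y = ‖(y : PadicAlgCl q)‖ := by
  rw [spectralNorm.eq_of_tower (K := ℚ_[q]) (E := lgField q i) (L := PadicAlgCl q) y,
    PadicAlgCl.spectralNorm_eq]
  rfl

theorem mem_lfInt_lgField_iff (y : lgField q i) :
    y ∈ lfInt q (lgField q i) ↔ ‖(y : PadicAlgCl q)‖ ≤ 1 := by
  rw [mem_lfInt_iff, spectralNorm_lgField]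

theorem lgdense_norm_sub_le {a b : PadicAlgCl q} {ε : ℝ} (ha : ‖a‖ < ε) (hb : ‖b‖ < ε) :
    ‖a + b‖ < ε :=
  lt_of_le_of_lt (PadicAlgCl.isNonarchimedean q a b) (max_lt ha hb)

theorem lgdense_aux (y : PadicAlgCl q) (hy : y ∈ Submodule.span ℚ_[q] (Set.range i)) :
    ∀ ε : ℝ, 0 < ε → ∃ x : K, ‖y - i x‖ < ε := by
  induction hy using Submodule.span_induction with
  | mem y hy =>
    obtain ⟨x, rfl⟩ := hy
    intro ε hε
    exact ⟨x, by simpa using hε⟩
  | zero =>
    intro ε hε
    exact ⟨0, by simpa using hε⟩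
  | add y₁ y₂ _ _ h₁ h₂ =>
    intro ε hε
    obtain ⟨x₁, hx₁⟩ := h₁ ε hε
    obtain ⟨x₂, hx₂⟩ := h₂ ε hε
    refine ⟨x₁ + x₂, ?_⟩
    have : y₁ + y₂ - i (x₁ + x₂) = (y₁ - i x₁) + (y₂ - i x₂) := by rw [map_add]; ring
    rw [this]
    exact lgdense_norm_sub_le q hx₁ hx₂
  | smul c y _ h =>
    intro ε hε
    obtain ⟨x₁, hx₁⟩ := h (ε / (‖c‖ + 1)) (div_pos hε (by positivity))
    obtain ⟨r, hr⟩ := Padic.rat_dense q c (ε := ε / (‖i x₁‖ + 1)) (div_pos hε (by positivity))
    refine ⟨(r : K) * x₁, ?_⟩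
    have hsplit : c • y - i ((r : K) * x₁) =
        c • (y - i x₁) + (c - (r : ℚ_[q])) • i x₁ := by
      rw [map_mul, map_ratCast, Algebra.smul_def, Algebra.smul_def, Algebra.smul_def, map_sub,
        map_ratCast]
      ring
    rw [hsplit]
    apply lgdense_norm_sub_le
    · rw [norm_smul]
      calc ‖c‖ * ‖y - i x₁‖ ≤ ‖c‖ * (ε / (‖c‖ + 1)) :=
            mul_le_mul_of_nonneg_left hx₁.le (norm_nonneg _)
        _ < ε := by
            rw [mul_div_assoc', div_lt_iff₀ (by positivity)]
            nlinarith [norm_nonneg c]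
    · rw [norm_smul]
      calc ‖c - (r : ℚ_[q])‖ * ‖i x₁‖ ≤ (ε / (‖i x₁‖ + 1)) * ‖i x₁‖ :=
            mul_le_mul_of_nonneg_right hr.le (norm_nonneg _)
        _ < ε := by
            rw [div_mul_eq_mul_div, div_lt_iff₀ (by positivity)]
            nlinarith [norm_nonneg (i x₁)]

/-- `K` is dense in `K_i`. -/
theorem lg_dense (y : lgField q i) {ε : ℝ} (hε : 0 < ε) :
    ∃ x : K, ‖(y : PadicAlgCl q) - i x‖ < ε :=
  lgdense_aux q i y (lgdense_mem_span q i y) ε hε


theorem lgdense_norm_eq_one_of_notMem {d : 𝓞 K} (hd : d ∉ lgIdeal q i) : ‖i (d : K)‖ = 1 := by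
  rw [mem_lgIdeal_iff, not_lt] at hd
  exact le_antisymm (lg_norm_le_one q i d) hd

/-- An element of `K` which is integral at `lgPlace q i` has a denominator prime to the place. -/
theorem lgdense_exists_denominator (x : K) (hx : ‖i x‖ ≤ 1) :
    ∃ a d : 𝓞 K, d ∉ lgIdeal q i ∧ x * (d : K) = (a : K) := by
  obtain ⟨n, d, h | h⟩ := (lgPlace q i).exists_primeCompl_mul_eq_or_mul_eq (K := K) x
  · exact ⟨n, d.1, d.2, h⟩
  · refine ⟨d.1, n, ?_, h⟩
    have hd : ‖i ((d.1 : 𝓞 K) : K)‖ = 1 := lgdense_norm_eq_one_of_notMem q i d.2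
    have h1 : ‖i x‖ * ‖i (n : K)‖ = 1 := by
      have h2 : x * (n : K) = ((d.1 : 𝓞 K) : K) := h
      rw [← norm_mul, ← map_mul, h2, hd]
    intro hn
    rw [mem_lgIdeal_iff] at hn
    have : ‖i x‖ * ‖i (n : K)‖ < 1 := by
      calc ‖i x‖ * ‖i (n : K)‖ ≤ 1 * ‖i (n : K)‖ :=
            mul_le_mul_of_nonneg_right hx (norm_nonneg _)
        _ < 1 := by rwa [one_mul]
    rw [h1] at this
    exact lt_irrefl _ this

/-- Integral version: an integer of `K_i` is approximated by integers of `K`. -/
theorem lg_dense_int (y : lgField q i) (hy : ‖(y : PadicAlgCl q)‖ ≤ 1) {ε : ℝ} (hε : 0 < ε) :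
    ∃ x : 𝓞 K, ‖(y : PadicAlgCl q) - i (x : K)‖ < ε := by
  obtain ⟨x₀, hx₀⟩ := lg_dense q i y (lt_min hε one_pos)
  have hx₀ε : ‖(y : PadicAlgCl q) - i x₀‖ < ε := lt_of_lt_of_le hx₀ (min_le_left _ _)
  have hx₀1 : ‖i x₀‖ ≤ 1 := by
    have h1 : i x₀ = (y : PadicAlgCl q) - ((y : PadicAlgCl q) - i x₀) := by ring
    rw [h1, sub_eq_add_neg]
    refine (PadicAlgCl.isNonarchimedean q _ _).trans (max_le hy ?_)
    rw [norm_neg]
    exact (lt_of_lt_of_le hx₀ (min_le_right _ _)).le
  obtain ⟨a, d, hd, hxd⟩ := lgdense_exists_denominator q i x₀ hx₀1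
  -- `d` is invertible modulo the maximal ideal `lgIdeal q i`
  have : (lgIdeal q i).IsMaximal :=
    (lgIdeal_isPrime q i).isMaximal (lgIdeal_ne_bot q i)
  obtain ⟨d₁, m, hm, hdm⟩ := Ideal.IsMaximal.exists_inv (I := lgIdeal q i) inferInstance hd
  have hmlt : ‖i (m : K)‖ < 1 := (mem_lgIdeal_iff q i m).mp hm
  -- choose `n` with `‖i m‖ ^ n < ε`
  obtain ⟨n, hn⟩ := exists_pow_lt_of_lt_one hε hmlt
  -- `d' = d₁ * ∑_{k<n} m^k`, `1 - d * d' = m ^ n`
  set d' : 𝓞 K := d₁ * ∑ k ∈ Finset.range n, m ^ k with hd'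
  have hgeom : 1 - d * d' = m ^ n := by
    have h1 : d * d₁ = 1 - m := by
      rw [← hdm]; ring
    have h2 : (1 - m) * ∑ k ∈ Finset.range n, m ^ k = 1 - m ^ n := by
      exact mul_neg_geom_sum m n
    rw [hd', ← mul_assoc, h1, h2]
    ring
  refine ⟨d' * a, ?_⟩
  have hkey : i x₀ - i ((d' * a : 𝓞 K) : K) = i x₀ * i ((m ^ n : 𝓞 K) : K) := by
    rw [← hgeom]
    have : ((d' * a : 𝓞 K) : K) = (d' : K) * (x₀ * (d : K)) := by
      rw [hxd]; rfl
    rw [this]
    have h3 : (((1 - d * d' : 𝓞 K)) : K) = 1 - (d : K) * (d' : K) := rfl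
    rw [h3]
    simp only [map_mul, map_sub, map_one]
    ring
  have hnorm : ‖i x₀ - i ((d' * a : 𝓞 K) : K)‖ < ε := by
    rw [hkey, norm_mul]
    have h4 : ((m ^ n : 𝓞 K) : K) = (m : K) ^ n := rfl
    rw [h4, map_pow, norm_pow]
    calc ‖i x₀‖ * ‖i (m : K)‖ ^ n ≤ 1 * ‖i (m : K)‖ ^ n :=
          mul_le_mul_of_nonneg_right hx₀1 (by positivity)
      _ < ε := by rwa [one_mul]
  have hsum : (y : PadicAlgCl q) - i ((d' * a : 𝓞 K) : K) =
      ((y : PadicAlgCl q) - i x₀) + (i x₀ - i ((d' * a : 𝓞 K) : K)) := by ring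
  rw [hsum]
  exact lgdense_norm_sub_le q hx₀ε hnorm

/-- Conjugate embeddings have conjugate local fields. -/
theorem lgField_comp_algEquiv (τ : PadicAlgCl q ≃ₐ[ℚ_[q]] PadicAlgCl q) :
    lgField q ((τ : PadicAlgCl q →+* PadicAlgCl q).comp i) = (lgField q i).map (τ : _ →ₐ[ℚ_[q]] _) := by
  rw [lgField, lgField, IntermediateField.adjoin_map]
  congr 1
  ext x
  simp


section Rel

variable {L : Type*} [Field L] [NumberField L] [Algebra K L] (j : L →+* PadicAlgCl q)

instance lgField_finiteDimensional_rel :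
    FiniteDimensional (lgField q (j.comp (algebraMap K L))) (lgField q j) :=
  FiniteDimensional.right ℚ_[q] _ _

theorem lgdense_comp_eq :
    (algebraMap (lgField q (j.comp (algebraMap K L))) (lgField q j)).comp
      (lgEmb q (j.comp (algebraMap K L))) = (lgEmb q j).comp (algebraMap K L) := by
  ext x
  rw [RingHom.comp_apply, RingHom.comp_apply, lgEmb_algebraMap]

theorem lgdense_aeval_map (β : L) (P : Polynomial K) :
    Polynomial.aeval (lgEmb q j β) (P.map (lgEmb q (j.comp (algebraMap K L)))) =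
      lgEmb q j (Polynomial.aeval β P) := by
  rw [Polynomial.aeval_def, Polynomial.eval₂_map, lgdense_comp_eq, Polynomial.aeval_def,
    Polynomial.hom_eval₂]

/-- Primitive elements stay primitive. -/
theorem lgField_adjoin_eq_top (β : L) (hβ : IntermediateField.adjoin K {β} = ⊤) :
    IntermediateField.adjoin (lgField q (j.comp (algebraMap K L))) {lgEmb q j β} = ⊤ := by
  set M := IntermediateField.adjoin (lgField q (j.comp (algebraMap K L))) {lgEmb q j β} with hM
  -- every `j y` lies in `M`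
  have hrange : ∀ y : L, lgEmb q j y ∈ M := by
    intro y
    have hy : y ∈ (IntermediateField.adjoin K {β}).toSubalgebra := by
      rw [hβ]; exact Algebra.mem_top
    rw [IntermediateField.adjoin_simple_toSubalgebra_of_isAlgebraic
      (Algebra.IsAlgebraic.isAlgebraic β), Algebra.adjoin_singleton_eq_range_aeval] at hy
    obtain ⟨P, rfl⟩ := hy
    change lgEmb q j (Polynomial.aeval β P) ∈ M
    rw [← lgdense_aeval_map]
    exact IntermediateField.algebra_adjoin_le_adjoin _ _
      (Polynomial.aeval_mem_adjoin_singleton _ _)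
  rw [eq_top_iff]
  intro z _
  -- `z ∈ L_j = adjoin ℚ_q (range j)`; the restriction of scalars of `M` contains `range j`
  let M' : IntermediateField ℚ_[q] (PadicAlgCl q) :=
    (M.restrictScalars ℚ_[q]).map (lgField q j).val
  have hle : lgField q j ≤ M' := by
    rw [lgField, IntermediateField.adjoin_le_iff]
    rintro _ ⟨y, rfl⟩
    exact ⟨lgEmb q j y, hrange y, rfl⟩
  obtain ⟨z', hz', hzz'⟩ := hle z.2
  have : z' = z := Subtype.ext hzz'
  rw [← this]
  exact hz'

/-- The minimal polynomial of `j β` over `K_i` divides the image of the minimal polynomial over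
`K`. -/
theorem lg_minpoly_dvd (β : L) :
    minpoly (lgField q (j.comp (algebraMap K L))) (lgEmb q j β) ∣
      (minpoly K β).map (lgEmb q (j.comp (algebraMap K L))) := by
  apply minpoly.dvd
  rw [lgdense_aeval_map, minpoly.aeval, map_zero]

theorem lg_finrank_le :
    Module.finrank (lgField q (j.comp (algebraMap K L))) (lgField q j) ≤ Module.finrank K L := by
  obtain ⟨β, hβ⟩ := Field.exists_primitive_element K L
  have h1 := lgField_adjoin_eq_top q j β hβ
  have hint : IsIntegral (lgField q (j.comp (algebraMap K L))) (lgEmb q j β) :=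
    (Algebra.IsAlgebraic.isAlgebraic _).isIntegral
  have h2 := IntermediateField.adjoin.finrank hint
  rw [h1] at h2
  rw [← IntermediateField.finrank_top', h2]
  have hβint : IsIntegral K β := (Algebra.IsAlgebraic.isAlgebraic β).isIntegral
  have h3 := IntermediateField.adjoin.finrank hβint
  rw [hβ, IntermediateField.finrank_top'] at h3
  rw [h3]
  calc (minpoly (lgField q (j.comp (algebraMap K L))) (lgEmb q j β)).natDegree
      ≤ ((minpoly K β).map (lgEmb q (j.comp (algebraMap K L)))).natDegree :=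
        Polynomial.natDegree_le_of_dvd (lg_minpoly_dvd q j β)
          ((Polynomial.map_ne_zero_iff (lgEmb_injective q _)).mpr (minpoly.ne_zero hβint))
    _ = (minpoly K β).natDegree := Polynomial.natDegree_map _

theorem lgdense_isGalois [IsGalois K L] :
    IsGalois (lgField q (j.comp (algebraMap K L))) (lgField q j) := by
  obtain ⟨β, hβ⟩ := Field.exists_primitive_element K L
  have hβint : IsIntegral K β := (Algebra.IsAlgebraic.isAlgebraic β).isIntegral
  have hsplit : ((minpoly K β).map (algebraMap K L)).Splits :=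
    Normal.splits (inferInstance : Normal K L) β
  have hsplit' : (((minpoly K β).map (lgEmb q (j.comp (algebraMap K L)))).map
      (algebraMap (lgField q (j.comp (algebraMap K L))) (lgField q j))).Splits := by
    rw [Polynomial.map_map, lgdense_comp_eq, ← Polynomial.map_map]
    exact hsplit.map (lgEmb q j)
  have hne : (minpoly K β).map (lgEmb q (j.comp (algebraMap K L))) ≠ 0 :=
    (Polynomial.map_ne_zero_iff (lgEmb_injective q _)).mpr (minpoly.ne_zero hβint)
  have hroot : lgEmb q j β ∈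
      ((minpoly K β).map (lgEmb q (j.comp (algebraMap K L)))).rootSet (lgField q j) := by
    rw [Polynomial.mem_rootSet_of_injective (RingHom.injective _) hne]
    rw [lgdense_aeval_map, minpoly.aeval, map_zero]
  have hadj : Algebra.adjoin (lgField q (j.comp (algebraMap K L)))
      (((minpoly K β).map (lgEmb q (j.comp (algebraMap K L)))).rootSet (lgField q j) :
        Set (lgField q j)) = ⊤ := by
    have h1 := lgField_adjoin_eq_top q j β hβ
    rw [IntermediateField.adjoin_eq_top_iff_of_isAlgebraic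
      (fun x _ => Algebra.IsAlgebraic.isAlgebraic x)] at h1
    rw [eq_top_iff, ← h1]
    exact Algebra.adjoin_mono (Set.singleton_subset_iff.mpr hroot)
  have : Polynomial.IsSplittingField (lgField q (j.comp (algebraMap K L))) (lgField q j)
      ((minpoly K β).map (lgEmb q (j.comp (algebraMap K L)))) := ⟨hsplit', hadj⟩
  have : Normal (lgField q (j.comp (algebraMap K L))) (lgField q j) :=
    Normal.of_isSplittingField ((minpoly K β).map (lgEmb q (j.comp (algebraMap K L))))
  exact IsGalois.mk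

end Rel

/-- `L/K` Galois ⟹ `L_j/K_i` Galois. -/
theorem lg_isGalois {L : Type*} [Field L] [NumberField L] [Algebra K L] [IsGalois K L]
    (j : L →+* PadicAlgCl q) :
    IsGalois (lgField q (j.comp (algebraMap K L))) (lgField q j) :=
  lgdense_isGalois q j

end LGA

end Fermat.Agent.S55
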