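/-
S55 / LG layer, leaf LG-C : every place comes from an embedding; fibres of `lgPlace`
(exact statements of `ExistsSpec.lean`).
-/
import Mathlib
import Fermat.Agent.S55.LG.Dense

set_option autoImplicit false
set_option linter.unusedSectionVars false

noncomputable section

namespace Fermat.Agent.S55

open NumberField IsDedekindDomain Polynomial

section LGC

variable (q : ℕ) [Fact q.Prime] {K : Type*} [Field K] [NumberField K]

/-- `ℚ_q`-automorphisms of `PadicAlgCl q` are isometries. -/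
theorem lgexists_norm_algEquiv (τ : PadicAlgCl q ≃ₐ[ℚ_[q]] PadicAlgCl q) (y : PadicAlgCl q) :
    ‖τ y‖ = ‖y‖ := by
  rw [← PadicAlgCl.spectralNorm_eq, ← PadicAlgCl.spectralNorm_eq]
  exact (spectralNorm_eq_of_equiv τ y).symm

/-- `ℚ_q`-embeddings of intermediate fields into `PadicAlgCl q` are isometries. -/
theorem lgexists_norm_algHom {F : IntermediateField ℚ_[q] (PadicAlgCl q)}
    (ψ : F →ₐ[ℚ_[q]] PadicAlgCl q) (y : F) : ‖ψ y‖ = ‖(y : PadicAlgCl q)‖ := by
  rw [← PadicAlgCl.spectralNorm_eq, ← PadicAlgCl.spectralNorm_eq]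
  unfold spectralNorm
  rw [minpoly.algHom_eq ψ ψ.injective, ← minpoly.algHom_eq F.val F.val.injective]
  rfl

theorem lgPlace_comp_algEquiv (i : K →+* PadicAlgCl q)
    (τ : PadicAlgCl q ≃ₐ[ℚ_[q]] PadicAlgCl q) :
    lgPlace q ((τ : PadicAlgCl q →+* PadicAlgCl q).comp i) = lgPlace q i := by
  apply HeightOneSpectrum.ext
  ext x
  rw [lgPlace_asIdeal, lgPlace_asIdeal, mem_lgIdeal_iff, mem_lgIdeal_iff, RingHom.comp_apply]
  have : ((τ : PadicAlgCl q →+* PadicAlgCl q) (i (x : K))) = τ (i (x : K)) := rfl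
  rw [this, lgexists_norm_algEquiv]

theorem lgexists_norm_natCast_lt_one : ‖((q : ℕ) : PadicAlgCl q)‖ < 1 := by
  have h := natCast_mem_lgIdeal q (lgEmbDefault q ℚ)
  rw [mem_lgIdeal_iff] at h
  simpa using h

theorem lgexists_norm_intCast_le_one (m : ℤ) : ‖((m : ℤ) : PadicAlgCl q)‖ ≤ 1 := by
  apply lg_norm_le_one_of_isIntegral
  have : ((m : ℤ) : PadicAlgCl q) = algebraMap ℤ (PadicAlgCl q) m := by simp
  rw [this]
  exact isIntegral_algebraMap

/-- If an integer `N` has `‖N‖ = 1` in `PadicAlgCl q` then `q ∤ N`. -/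
theorem lgexists_not_dvd_of_norm_eq_one {N : ℤ} (h : ‖((N : ℤ) : PadicAlgCl q)‖ = 1) :
    ¬ (q : ℤ) ∣ N := by
  rintro ⟨m, rfl⟩
  rw [Int.cast_mul, norm_mul] at h
  have h1 : ‖(((q : ℕ) : ℤ) : PadicAlgCl q)‖ < 1 := by
    simpa using lgexists_norm_natCast_lt_one q
  have h2 := lgexists_norm_intCast_le_one q m
  have : ‖(((q : ℕ) : ℤ) : PadicAlgCl q)‖ * ‖((m : ℤ) : PadicAlgCl q)‖ < 1 := by
    calc _ ≤ ‖(((q : ℕ) : ℤ) : PadicAlgCl q)‖ * 1 :=
          mul_le_mul_of_nonneg_left h2 (norm_nonneg _)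
      _ < 1 := by rwa [mul_one]
  rw [h] at this
  exact lt_irrefl _ this

theorem exists_lgEmb (v : HeightOneSpectrum (𝓞 K)) (hv : ((q : ℕ) : 𝓞 K) ∈ v.asIdeal) :
    ∃ i : K →+* PadicAlgCl q, lgPlace q i = v := by
  classical
  by_contra hcon
  push Not at hcon
  -- no `lgIdeal` contains `v`
  have h1 : ∀ σ : K →ₐ[ℚ] PadicAlgCl q,
      ¬ v.asIdeal ≤ lgIdeal q (σ : K →+* PadicAlgCl q) := by
    intro σ hle
    apply hcon (σ : K →+* PadicAlgCl q)
    apply HeightOneSpectrum.ext
    have hmax : v.asIdeal.IsMaximal := v.isMaximal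
    exact (hmax.eq_of_le (lgIdeal_isPrime q _).ne_top hle).symm
  have σ₀ : K →ₐ[ℚ] PadicAlgCl q := IsAlgClosed.lift
  have h2 : ¬ ((v.asIdeal : Set (𝓞 K)) ⊆
      ⋃ σ ∈ ((Finset.univ : Finset (K →ₐ[ℚ] PadicAlgCl q)) : Set (K →ₐ[ℚ] PadicAlgCl q)),
        ((lgIdeal q (σ : K →+* PadicAlgCl q) : Ideal (𝓞 K)) : Set (𝓞 K))) := by
    rw [Ideal.subset_union_prime σ₀ σ₀ (fun σ _ _ _ => lgIdeal_isPrime q _)]
    rintro ⟨σ, _, hσ⟩
    exact h1 σ hσ
  rw [Set.not_subset] at h2
  obtain ⟨x, hxv, hx⟩ := h2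
  have hx' : ∀ σ : K →ₐ[ℚ] PadicAlgCl q, ‖σ (x : K)‖ = 1 := by
    intro σ
    have : x ∉ lgIdeal q (σ : K →+* PadicAlgCl q) := by
      intro hmem
      apply hx
      simp only [Finset.coe_univ, Set.mem_univ, Set.iUnion_true, Set.mem_iUnion, SetLike.mem_coe]
      exact ⟨σ, hmem⟩
    exact lgdense_norm_eq_one_of_notMem q _ this
  -- the norm of `x` is a `q`-adic unit
  have hN : ‖((Algebra.norm ℤ x : ℤ) : PadicAlgCl q)‖ = 1 := by
    have h3 := Algebra.norm_eq_prod_embeddings ℚ (PadicAlgCl q) (x : K)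
    rw [← Algebra.coe_norm_int] at h3
    have h4 : algebraMap ℚ (PadicAlgCl q) ((Algebra.norm ℤ x : ℤ) : ℚ) =
        ((Algebra.norm ℤ x : ℤ) : PadicAlgCl q) := by simp
    rw [h4] at h3
    rw [h3, norm_prod]
    exact Finset.prod_eq_one (fun σ _ => hx' σ)
  have hnd := lgexists_not_dvd_of_norm_eq_one q hN
  -- but `N x ∈ v ∩ ℤ = q ℤ`
  have hmem : (((Algebra.norm ℤ x).natAbs : ℕ) : 𝓞 K) ∈ v.asIdeal := by
    have h5 := Ideal.absNorm_mem (Ideal.span ({x} : Set (𝓞 K)))
    rw [Ideal.absNorm_span_singleton] at h5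
    exact ((Ideal.span_singleton_le_iff_mem _).mpr hxv) h5
  have hcop : Nat.Coprime q (Algebra.norm ℤ x).natAbs := by
    rw [Nat.Prime.coprime_iff_not_dvd (Fact.out : q.Prime)]
    intro hdvd
    apply hnd
    rwa [← Int.natCast_dvd_natCast, Int.natCast_natAbs, dvd_abs] at hdvd
  have hone : ((1 : ℕ) : 𝓞 K) ∈ v.asIdeal := by
    have h6 := Nat.Coprime.gcd_eq_one hcop
    have h7 := Nat.gcd_eq_gcd_ab q (Algebra.norm ℤ x).natAbs
    rw [h6] at h7
    have h8 : (((1 : ℕ) : ℤ) : 𝓞 K) =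
        ((q : ℕ) : 𝓞 K) * ((Nat.gcdA q (Algebra.norm ℤ x).natAbs : ℤ) : 𝓞 K) +
        (((Algebra.norm ℤ x).natAbs : ℕ) : 𝓞 K) *
          ((Nat.gcdB q (Algebra.norm ℤ x).natAbs : ℤ) : 𝓞 K) := by
      rw [h7]
      simp only [Int.cast_add, Int.cast_mul, Int.cast_natCast]
    have h9 : (((1 : ℕ) : ℤ) : 𝓞 K) = ((1 : ℕ) : 𝓞 K) := by simp
    rw [← h9, h8]
    exact Ideal.add_mem _ (Ideal.mul_mem_right _ _ hv) (Ideal.mul_mem_right _ _ hmem)
  have : (1 : 𝓞 K) ∈ v.asIdeal := by simpa using hone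
  exact v.isPrime.ne_top ((Ideal.eq_top_iff_one _).mpr this)

theorem lgPlace_lgEmbOf (v : LgPlacesOver q K) : lgPlace q (lgEmbOf q v) = v.1 := by
  have h := exists_lgEmb q v.1 v.2
  unfold lgEmbOf
  rw [dif_pos h]
  exact h.choose_spec

theorem lgexists_lgPlaceOver_surjective :
    Function.Surjective (fun σ : K →ₐ[ℚ] PadicAlgCl q =>
      lgPlaceOver q (σ : K →+* PadicAlgCl q)) := by
  intro v
  obtain ⟨i, hi⟩ := exists_lgEmb q v.1 v.2
  refine ⟨i.toRatAlgHom, ?_⟩
  apply Subtype.ext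
  exact hi

instance lgPlacesOver_finite : Finite (LgPlacesOver q K) :=
  Finite.of_surjective _ (lgexists_lgPlaceOver_surjective q)

/-- Elements of valuation one at `lgPlace q i` have norm one. -/
theorem lgexists_norm_eq_one_of_valuation (i : K →+* PadicAlgCl q) (y : K)
    (hy : (lgPlace q i).valuation K y = 1) : ‖i y‖ = 1 := by
  have key : ∀ a d : 𝓞 K, d ∉ lgIdeal q i → y * (d : K) = (a : K) → ‖i y‖ = 1 := by
    intro a d hd h
    have hd1 : ‖i (d : K)‖ = 1 := lgdense_norm_eq_one_of_notMem q i hd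
    have hvd : (lgPlace q i).valuation K (d : K) = 1 := by
      apply le_antisymm ((lgPlace q i).valuation_le_one d)
      rw [← not_lt, HeightOneSpectrum.valuation_lt_one_iff_mem]
      exact hd
    have hva : (lgPlace q i).valuation K (a : K) = 1 := by
      rw [← h, map_mul, hy, hvd, one_mul]
    have ha : a ∉ lgIdeal q i := by
      intro hmem
      have := ((lgPlace q i).valuation_lt_one_iff_mem (K := K) a).mpr hmem
      rw [hva] at this
      exact lt_irrefl _ this
    have ha1 : ‖i (a : K)‖ = 1 := lgdense_norm_eq_one_of_notMem q i ha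
    have h2 : ‖i y‖ * ‖i (d : K)‖ = ‖i (a : K)‖ := by
      rw [← norm_mul, ← map_mul, h]
    rw [hd1, ha1, mul_one] at h2
    exact h2
  obtain ⟨n, d, h | h⟩ := (lgPlace q i).exists_primeCompl_mul_eq_or_mul_eq (K := K) y
  · exact key n d.1 d.2 h
  · -- `y * n = d`, so `y⁻¹ * d = n`
    have hy0 : y ≠ 0 := by
      rintro rfl
      simp at hy
    have h' : y⁻¹ * ((d.1 : 𝓞 K) : K) = (n : K) := by
      have h2 : y * (n : K) = ((d.1 : 𝓞 K) : K) := h
      rw [← h2]
      field_simp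
    have hy' : (lgPlace q i).valuation K y⁻¹ = 1 := by
      rw [map_inv₀, hy, inv_one]
    -- apply the first case to `y⁻¹`
    have key' : ‖i y⁻¹‖ = 1 := by
      have hd1 : ‖i ((d.1 : 𝓞 K) : K)‖ = 1 := lgdense_norm_eq_one_of_notMem q i d.2
      have hvd : (lgPlace q i).valuation K ((d.1 : 𝓞 K) : K) = 1 := by
        apply le_antisymm ((lgPlace q i).valuation_le_one d.1)
        rw [← not_lt, HeightOneSpectrum.valuation_lt_one_iff_mem]
        exact d.2
      have hva : (lgPlace q i).valuation K (n : K) = 1 := by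
        rw [← h', map_mul, hy', hvd, one_mul]
      have ha : n ∉ lgIdeal q i := by
        intro hmem
        have := ((lgPlace q i).valuation_lt_one_iff_mem (K := K) n).mpr hmem
        rw [hva] at this
        exact lt_irrefl _ this
      have ha1 : ‖i (n : K)‖ = 1 := lgdense_norm_eq_one_of_notMem q i ha
      have h2 : ‖i y⁻¹‖ * ‖i ((d.1 : 𝓞 K) : K)‖ = ‖i (n : K)‖ := by
        rw [← norm_mul, ← map_mul, h']
      rw [hd1, ha1, mul_one] at h2
      exact h2
    rw [map_inv₀, norm_inv, inv_eq_one] at key'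
    exact key'

/-- The norm `‖i x‖` is determined by the place: `‖i x‖ ^ m * ‖q‖ ^ (-n) = 1` where
`m = log v(q)`, `n = log v(x)`. -/
theorem lgexists_norm_zpow (i : K →+* PadicAlgCl q) (x : K) (hx : x ≠ 0) :
    ‖i x‖ ^ (WithZero.log ((lgPlace q i).valuation K ((q : ℕ) : K))) *
      ‖((q : ℕ) : PadicAlgCl q)‖ ^ (-(WithZero.log ((lgPlace q i).valuation K x))) = 1 := by
  set v := lgPlace q i
  have hq0 : ((q : ℕ) : K) ≠ 0 := by
    exact_mod_cast (Fact.out : q.Prime).ne_zero
  have hvx : v.valuation K x ≠ 0 := (Valuation.ne_zero_iff _).mpr hx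
  have hvq : v.valuation K ((q : ℕ) : K) ≠ 0 := (Valuation.ne_zero_iff _).mpr hq0
  set m := WithZero.log (v.valuation K ((q : ℕ) : K)) with hm
  set n := WithZero.log (v.valuation K x) with hn
  have hval : v.valuation K (x ^ m * ((q : ℕ) : K) ^ (-n)) = 1 := by
    rw [map_mul, map_zpow₀, map_zpow₀, ← WithZero.exp_log hvx, ← WithZero.exp_log hvq, ← hm, ← hn,
      ← WithZero.exp_zsmul, ← WithZero.exp_zsmul, ← WithZero.exp_add]
    have : m • n + -n • m = 0 := by
      simp only [smul_eq_mul]; ring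
    rw [this, WithZero.exp_zero]
  have h1 := lgexists_norm_eq_one_of_valuation q i _ hval
  rw [map_mul, map_zpow₀, map_zpow₀, norm_mul, norm_zpow, norm_zpow, map_natCast] at h1
  exact h1

theorem lgexists_log_valuation_natCast_ne_zero (i : K →+* PadicAlgCl q) :
    WithZero.log ((lgPlace q i).valuation K ((q : ℕ) : K)) ≠ 0 := by
  intro h
  have hq0 : ((q : ℕ) : K) ≠ 0 := by
    exact_mod_cast (Fact.out : q.Prime).ne_zero
  have hvq : (lgPlace q i).valuation K ((q : ℕ) : K) ≠ 0 := (Valuation.ne_zero_iff _).mpr hq0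
  have h1 : (lgPlace q i).valuation K ((q : ℕ) : K) = 1 := by
    rw [← WithZero.exp_log hvq, h, WithZero.exp_zero]
  have h2 : (lgPlace q i).valuation K (((q : ℕ) : 𝓞 K) : K) < 1 :=
    ((lgPlace q i).valuation_lt_one_iff_mem (K := K) _).mpr (natCast_mem_lgIdeal q i)
  have h3 : (((q : ℕ) : 𝓞 K) : K) = ((q : ℕ) : K) := by simp
  rw [h3, h1] at h2
  exact lt_irrefl _ h2

/-- Embeddings with the same place induce the same absolute value on `K`. -/
theorem lgexists_norm_eq_of_lgPlace_eq (i i' : K →+* PadicAlgCl q)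
    (h : lgPlace q i = lgPlace q i') (x : K) : ‖i x‖ = ‖i' x‖ := by
  by_cases hx : x = 0
  · rw [hx, map_zero, map_zero]
  have h1 := lgexists_norm_zpow q i x hx
  have h2 := lgexists_norm_zpow q i' x hx
  rw [← h] at h2
  have hq : ‖((q : ℕ) : PadicAlgCl q)‖ ≠ 0 := by
    rw [norm_ne_zero_iff]
    exact_mod_cast (Fact.out : q.Prime).ne_zero
  have h3 : ‖i x‖ ^ (WithZero.log ((lgPlace q i).valuation K ((q : ℕ) : K))) =
      ‖i' x‖ ^ (WithZero.log ((lgPlace q i).valuation K ((q : ℕ) : K))) := by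
    have hne : ‖((q : ℕ) : PadicAlgCl q)‖ ^ (-(WithZero.log ((lgPlace q i).valuation K x))) ≠ 0 :=
      zpow_ne_zero _ hq
    exact mul_right_cancel₀ hne (h1.trans h2.symm)
  exact (zpow_left_inj₀ (norm_nonneg _) (norm_nonneg _)
    (lgexists_log_valuation_natCast_ne_zero q i)).mp h3

/-- Rational approximation of a polynomial over `ℚ_q`, simultaneously at two points. -/
theorem lgexists_approx_poly (β β' : PadicAlgCl q) (g : Polynomial ℚ_[q]) :
    ∀ ε : ℝ, 0 < ε → ∃ g' : Polynomial ℚ,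
      ‖aeval β g - aeval β g'‖ < ε ∧ ‖aeval β' g - aeval β' g'‖ < ε := by
  induction g using Polynomial.induction_on' with
  | add g₁ g₂ h₁ h₂ =>
    intro ε hε
    obtain ⟨g₁', h11, h12⟩ := h₁ ε hε
    obtain ⟨g₂', h21, h22⟩ := h₂ ε hε
    refine ⟨g₁' + g₂', ?_, ?_⟩
    · have : aeval β (g₁ + g₂) - aeval β (g₁' + g₂') =
          (aeval β g₁ - aeval β g₁') + (aeval β g₂ - aeval β g₂') := by
        rw [map_add, map_add]; ring
      rw [this]
      exact lgdense_norm_sub_le q h11 h21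
    · have : aeval β' (g₁ + g₂) - aeval β' (g₁' + g₂') =
          (aeval β' g₁ - aeval β' g₁') + (aeval β' g₂ - aeval β' g₂') := by
        rw [map_add, map_add]; ring
      rw [this]
      exact lgdense_norm_sub_le q h12 h22
  | monomial n c =>
    intro ε hε
    obtain ⟨r, hr⟩ := Padic.rat_dense q c (ε := ε / (‖β‖ ^ n + ‖β'‖ ^ n + 1))
      (div_pos hε (by positivity))
    refine ⟨monomial n r, ?_, ?_⟩
    · rw [aeval_monomial, aeval_monomial]
      have : algebraMap ℚ_[q] (PadicAlgCl q) c * β ^ n - algebraMap ℚ (PadicAlgCl q) r * β ^ n =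
          (c - (r : ℚ_[q])) • β ^ n := by
        rw [Algebra.smul_def, map_sub, map_ratCast, eq_ratCast]
        ring
      rw [this, norm_smul, norm_pow]
      calc ‖c - (r : ℚ_[q])‖ * ‖β‖ ^ n ≤ (ε / (‖β‖ ^ n + ‖β'‖ ^ n + 1)) * ‖β‖ ^ n :=
            mul_le_mul_of_nonneg_right hr.le (by positivity)
        _ < ε := by
            rw [div_mul_eq_mul_div, div_lt_iff₀ (by positivity)]
            have h1 : 0 ≤ ‖β‖ ^ n := by positivity
            have h2 : 0 ≤ ‖β'‖ ^ n := by positivity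
            nlinarith
    · rw [aeval_monomial, aeval_monomial]
      have : algebraMap ℚ_[q] (PadicAlgCl q) c * β' ^ n - algebraMap ℚ (PadicAlgCl q) r * β' ^ n =
          (c - (r : ℚ_[q])) • β' ^ n := by
        rw [Algebra.smul_def, map_sub, map_ratCast, eq_ratCast]
        ring
      rw [this, norm_smul, norm_pow]
      calc ‖c - (r : ℚ_[q])‖ * ‖β'‖ ^ n ≤ (ε / (‖β‖ ^ n + ‖β'‖ ^ n + 1)) * ‖β'‖ ^ n :=
            mul_le_mul_of_nonneg_right hr.le (by positivity)
        _ < ε := by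
            rw [div_mul_eq_mul_div, div_lt_iff₀ (by positivity)]
            have h1 : 0 ≤ ‖β‖ ^ n := by positivity
            have h2 : 0 ≤ ‖β'‖ ^ n := by positivity
            nlinarith

/-- If `i` and `i'` induce the same absolute value on `K`, every polynomial relation over `ℚ_q`
satisfied by `i α` is satisfied by `i' α`. -/
theorem lgexists_aeval_eq_zero (i i' : K →+* PadicAlgCl q) (h : ∀ x : K, ‖i x‖ = ‖i' x‖)
    (α : K) (g : Polynomial ℚ_[q]) (hg : aeval (i α) g = 0) : aeval (i' α) g = 0 := by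
  rw [← norm_le_zero_iff]
  apply le_of_forall_pos_lt_add
  intro ε hε
  rw [zero_add]
  obtain ⟨g', h1, h2⟩ := lgexists_approx_poly q (i α) (i' α) g ε hε
  have e1 : aeval (i α) g' = i (aeval α g') := by
    have := Polynomial.aeval_algHom_apply i.toRatAlgHom α g'
    simpa using this
  have e2 : aeval (i' α) g' = i' (aeval α g') := by
    have := Polynomial.aeval_algHom_apply i'.toRatAlgHom α g'
    simpa using this
  have h3 : ‖aeval (i' α) g'‖ < ε := by
    rw [e2, ← h, ← e1]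
    rw [hg, zero_sub, norm_neg] at h1
    exact h1
  have : aeval (i' α) g = (aeval (i' α) g - aeval (i' α) g') + aeval (i' α) g' := by ring
  rw [this]
  exact lgdense_norm_sub_le q h2 h3

/-- Two embeddings induce the same place iff they are conjugate under `Gal(ℚ̄_q/ℚ_q)`. -/
theorem lgPlace_eq_iff (i i' : K →+* PadicAlgCl q) :
    lgPlace q i = lgPlace q i' ↔
      ∃ τ : PadicAlgCl q ≃ₐ[ℚ_[q]] PadicAlgCl q,
        i' = (τ : PadicAlgCl q →+* PadicAlgCl q).comp i := by
  constructor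
  · intro h
    have hnorm := lgexists_norm_eq_of_lgPlace_eq q i i' h
    set pb := Field.powerBasisOfFiniteOfSeparable ℚ K with hpb
    have halg : IsAlgebraic ℚ_[q] (i pb.gen) := Algebra.IsAlgebraic.isAlgebraic _
    have hroot : aeval (i' pb.gen) (minpoly ℚ_[q] (i pb.gen)) = 0 :=
      lgexists_aeval_eq_zero q i i' hnorm pb.gen _ (minpoly.aeval _ _)
    obtain ⟨τ, hτ⟩ := minpoly.exists_algEquiv_of_root' halg hroot
    refine ⟨τ, ?_⟩
    have h2 : i'.toRatAlgHom =
        (((τ : PadicAlgCl q →+* PadicAlgCl q).comp i)).toRatAlgHom := by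
      apply pb.algHom_ext
      simp [hτ]
    ext x
    have := congrArg (fun f : K →ₐ[ℚ] PadicAlgCl q => f x) h2
    simpa using this
  · rintro ⟨τ, rfl⟩
    exact (lgPlace_comp_algEquiv q i τ).symm

/-- `K_i` is spanned over `ℚ_q` by the image of `K`. -/
theorem lgexists_span_range_lgEmb (i : K →+* PadicAlgCl q) :
    Submodule.span ℚ_[q] (Set.range (lgEmb q i)) = ⊤ := by
  rw [eq_top_iff]
  rintro y -
  have hy := lgdense_mem_span q i y
  have hmap : Submodule.span ℚ_[q] (Set.range i) =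
      (Submodule.span ℚ_[q] (Set.range (lgEmb q i))).map
        ((lgField q i).val.toLinearMap) := by
    rw [Submodule.map_span]
    congr 1
    ext z
    constructor
    · rintro ⟨x, rfl⟩
      exact ⟨lgEmb q i x, ⟨x, rfl⟩, rfl⟩
    · rintro ⟨_, ⟨x, rfl⟩, rfl⟩
      exact ⟨x, rfl⟩
  rw [hmap] at hy
  obtain ⟨y', hy', hyy'⟩ := hy
  have : y' = y := Subtype.ext hyy'
  rwa [← this]

/-- The embedding attached to a `ℚ_q`-embedding of `K_i`. -/
def lgexistsFiberMap (i : K →+* PadicAlgCl q) (ψ : lgField q i →ₐ[ℚ_[q]] PadicAlgCl q) :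
    {i' : K →+* PadicAlgCl q // lgPlace q i' = lgPlace q i} :=
  ⟨(ψ : lgField q i →+* PadicAlgCl q).comp (lgEmb q i), by
    apply HeightOneSpectrum.ext
    ext x
    rw [lgPlace_asIdeal, lgPlace_asIdeal, mem_lgIdeal_iff, mem_lgIdeal_iff, RingHom.comp_apply]
    have : ((ψ : lgField q i →+* PadicAlgCl q) (lgEmb q i (x : K))) = ψ (lgEmb q i (x : K)) := rfl
    rw [this, lgexists_norm_algHom, lgEmb_coe]⟩

theorem lgexistsFiberMap_bijective (i : K →+* PadicAlgCl q) :
    Function.Bijective (lgexistsFiberMap q i) := by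
  constructor
  · intro ψ₁ ψ₂ h
    have h' : ∀ x : K, ψ₁ (lgEmb q i x) = ψ₂ (lgEmb q i x) := by
      intro x
      have := congrArg (fun f : {i' : K →+* PadicAlgCl q // lgPlace q i' = lgPlace q i} =>
        f.1 x) h
      exact this
    have : ψ₁.toLinearMap = ψ₂.toLinearMap := by
      apply LinearMap.ext_on (lgexists_span_range_lgEmb q i)
      rintro _ ⟨x, rfl⟩
      exact h' x
    ext y
    exact congrArg (fun f : lgField q i →ₗ[ℚ_[q]] PadicAlgCl q => f y) this
  · rintro ⟨i', hi'⟩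
    obtain ⟨τ, hτ⟩ := (lgPlace_eq_iff q i i').mp hi'.symm
    refine ⟨(τ : PadicAlgCl q →ₐ[ℚ_[q]] PadicAlgCl q).comp (lgField q i).val, ?_⟩
    apply Subtype.ext
    change _ = i'
    rw [hτ]
    ext x
    rfl

/-- Embeddings with the same place as `i` = `ℚ_q`-embeddings of `K_i`; there are `[K_i : ℚ_q]`. -/
theorem lg_card_fiber (i : K →+* PadicAlgCl q) :
    Nat.card {i' : K →+* PadicAlgCl q // lgPlace q i' = lgPlace q i} =
      Module.finrank ℚ_[q] (lgField q i) := by
  rw [← Nat.card_congr (Equiv.ofBijective _ (lgexistsFiberMap_bijective q i))]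
  exact AlgHom.natCard_of_splits ℚ_[q] (lgField q i) (PadicAlgCl q)
    (fun _ => IsAlgClosed.splits _)

/-- `∑_{v ∣ q} [K_v : ℚ_q] = [K : ℚ]`. -/
theorem lg_sum_finrank [Fintype (LgPlacesOver q K)] :
    ∑ v : LgPlacesOver q K, Module.finrank ℚ_[q] (lgField q (lgEmbOf q v)) = Module.finrank ℚ K := by
  have h1 : ∀ v : LgPlacesOver q K, Module.finrank ℚ_[q] (lgField q (lgEmbOf q v)) =
      Nat.card {i' : K →+* PadicAlgCl q // lgPlaceOver q i' = v} := by
    intro v
    rw [← lg_card_fiber q (lgEmbOf q v)]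
    apply Nat.card_congr
    apply Equiv.subtypeEquivRight
    intro i'
    rw [lgPlace_lgEmbOf]
    constructor
    · intro h; exact Subtype.ext h
    · intro h; exact congrArg Subtype.val h
  have : Finite (K →+* PadicAlgCl q) :=
    Finite.of_equiv _ (RingHom.equivRatAlgHom (R := K) (S := PadicAlgCl q)).symm
  rw [Finset.sum_congr rfl (fun v _ => h1 v), ← Nat.card_sigma,
    Nat.card_congr (Equiv.sigmaFiberEquiv (lgPlaceOver q (K := K))),
    Nat.card_congr (RingHom.equivRatAlgHom (R := K) (S := PadicAlgCl q))]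
  exact AlgHom.natCard_of_splits ℚ K (PadicAlgCl q) (fun _ => IsAlgClosed.splits _)

variable {L : Type*} [Field L] [NumberField L] [Algebra K L]

/-- The place of `j` lies over the place of `j|_K`. -/
theorem lgexists_comap_lgIdeal (j : L →+* PadicAlgCl q) :
    (lgIdeal q j).comap (algebraMap (𝓞 K) (𝓞 L)) = lgIdeal q (j.comp (algebraMap K L)) := by
  ext x
  rw [Ideal.mem_comap, mem_lgIdeal_iff, mem_lgIdeal_iff, RingHom.comp_apply]
  rfl

/-- Relative version: every place of `L` above `lgPlace q i` comes from an extension of `i`. -/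
theorem exists_lgEmb_extends (i : K →+* PadicAlgCl q) (w : HeightOneSpectrum (𝓞 L))
    (hw : w.asIdeal.comap (algebraMap (𝓞 K) (𝓞 L)) = (lgPlace q i).asIdeal) :
    ∃ j : L →+* PadicAlgCl q, j.comp (algebraMap K L) = i ∧ lgPlace q j = w := by
  have hqw : ((q : ℕ) : 𝓞 L) ∈ w.asIdeal := by
    have h1 : ((q : ℕ) : 𝓞 K) ∈ w.asIdeal.comap (algebraMap (𝓞 K) (𝓞 L)) := by
      rw [hw]
      exact natCast_mem_lgIdeal q i
    rw [Ideal.mem_comap, map_natCast] at h1
    exact h1
  obtain ⟨j₀, hj₀⟩ := exists_lgEmb q w hqw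
  have h2 : lgPlace q (j₀.comp (algebraMap K L)) = lgPlace q i := by
    apply HeightOneSpectrum.ext
    rw [← hw, ← hj₀, lgPlace_asIdeal, lgPlace_asIdeal, lgexists_comap_lgIdeal]
  obtain ⟨τ, hτ⟩ := (lgPlace_eq_iff q _ _).mp h2
  refine ⟨(τ : PadicAlgCl q →+* PadicAlgCl q).comp j₀, ?_, ?_⟩
  · rw [hτ, RingHom.comp_assoc]
  · rw [lgPlace_comp_algEquiv, hj₀]

/-- Two extensions of `i` induce the same place of `L` iff they are conjugate over `K_i`. -/
theorem lgPlace_eq_iff_of_extends (j j' : L →+* PadicAlgCl q)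
    (h : j'.comp (algebraMap K L) = j.comp (algebraMap K L)) :
    lgPlace q j = lgPlace q j' ↔
      ∃ τ : PadicAlgCl q ≃ₐ[ℚ_[q]] PadicAlgCl q,
        (∀ y ∈ lgField q (j.comp (algebraMap K L)), τ y = y) ∧
        j' = (τ : PadicAlgCl q →+* PadicAlgCl q).comp j := by
  constructor
  · intro hpl
    obtain ⟨τ, hτ⟩ := (lgPlace_eq_iff q j j').mp hpl
    refine ⟨τ, ?_, hτ⟩
    -- `τ` fixes `j (K)` pointwise, hence the field it generates
    have hfix : ∀ x : K, τ (j (algebraMap K L x)) = j (algebraMap K L x) := by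
      intro x
      have h1 := congrArg (fun f : K →+* PadicAlgCl q => f x) h
      simp only [RingHom.comp_apply] at h1
      have h2 : τ (j (algebraMap K L x)) = j' (algebraMap K L x) := by
        rw [hτ]; rfl
      rw [h2]
      exact h1
    have hle : lgField q (j.comp (algebraMap K L)) ≤
        IntermediateField.fixedField (Subgroup.zpowers τ) := by
      rw [lgField, IntermediateField.adjoin_le_iff]
      rintro _ ⟨x, rfl⟩
      rw [SetLike.mem_coe, IntermediateField.mem_fixedField_iff]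
      rintro σ hσ
      obtain ⟨k, rfl⟩ := Subgroup.mem_zpowers_iff.mp hσ
      have hk : ∀ k : ℕ, (τ ^ k) (j (algebraMap K L x)) = j (algebraMap K L x) := by
        intro k
        induction k with
        | zero => simp
        | succ n ih => rw [pow_succ, AlgEquiv.mul_apply, hfix x, ih]
      have hk' : ∀ k : ℕ, (τ ^ k)⁻¹ (j (algebraMap K L x)) = j (algebraMap K L x) := by
        intro k
        have := hk k
        rw [AlgEquiv.aut_inv]
        exact (AlgEquiv.symm_apply_eq _).mpr this.symm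
      cases k with
      | ofNat n => simpa using hk n
      | negSucc n => simpa using hk' (n + 1)
    intro y hy
    have := hle hy
    rw [IntermediateField.mem_fixedField_iff] at this
    exact this τ (Subgroup.mem_zpowers τ)
  · rintro ⟨τ, -, rfl⟩
    exact (lgPlace_comp_algEquiv q j τ).symm

end LGC

end Fermat.Agent.S55
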