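/-
S55 / LG layer, leaf LG-A: DONE — this spec file is now a shim for `Fermat/Agent/S55/LG/Dense.lean`.
-/
import Fermat.Agent.S55.LG.Dense
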