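/-
S55 / LG layer (local-global bridge), leaf LG-B (row 201): the place `lgPlace q i` and the
normalised valuation of the local field `lgField q i`.

Exact statements of `LG/PlaceSpec.lean` (origin/helper2 d517e83).  Black boxes: LG-A (Dense)
spec, `LocalValSpec`, `LocalRingSpec` (helper22).  All auxiliary declarations carry the prefix
`lgp`.
-/
import Mathlib
import Fermat.Agent.S55.LG.DenseSpec
import Fermat.Agent.S55.LocalRingSpec

set_option autoImplicit false
set_option linter.unusedSectionVars false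
set_option linter.unusedVariables false
set_option linter.style.haveILetI false

noncomputable section

namespace Fermat.Agent.S55

open NumberField IsDedekindDomain TensorProduct
open scoped Pointwise

section LGB

variable (q : ℕ) [Fact q.Prime] {K : Type*} [Field K] [NumberField K] (i : K →+* PadicAlgCl q)

/-! ### The valuation ring -/

theorem lgp_norm_eq_one (d : 𝓞 K) (hd : d ∉ (lgPlace q i).asIdeal) : ‖i (d : K)‖ = 1 := by
  rw [lgPlace_asIdeal, mem_lgIdeal_iff, not_lt] at hd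
  exact le_antisymm (lg_norm_le_one q i d) hd

theorem lgp_norm_le_one_of_valuation (x : K) (h : (lgPlace q i).valuation K x ≤ 1) :
    ‖i x‖ ≤ 1 := by
  obtain ⟨n, d, hnd⟩ := (lgPlace q i).exists_primeCompl_mul_eq_of_integer x h
  have h1 : ‖i x‖ * ‖i ((d : 𝓞 K) : K)‖ = ‖i (n : K)‖ := by
    rw [← norm_mul, ← map_mul]
    exact congrArg (fun z => ‖i z‖) hnd
  rw [lgp_norm_eq_one q i d d.2, mul_one] at h1
  rw [h1]
  exact lg_norm_le_one q i n

theorem lgp_norm_lt_one_of_valuation (x : K) (h : (lgPlace q i).valuation K x < 1) :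
    ‖i x‖ < 1 := by
  obtain ⟨n, d, hnd⟩ := (lgPlace q i).exists_primeCompl_mul_eq_of_integer x h.le
  have h1 : ‖i x‖ * ‖i ((d : 𝓞 K) : K)‖ = ‖i (n : K)‖ := by
    rw [← norm_mul, ← map_mul]
    exact congrArg (fun z => ‖i z‖) hnd
  rw [lgp_norm_eq_one q i d d.2, mul_one] at h1
  rw [h1]
  have hd1 : (lgPlace q i).valuation K (algebraMap (𝓞 K) K (d : 𝓞 K)) = 1 :=
    ((lgPlace q i).valuation_eq_one_iff_notMem (K := K)).2 d.2
  have hn : (lgPlace q i).valuation K (algebraMap (𝓞 K) K n) < 1 := by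
    rw [← hnd, map_mul, hd1, mul_one]
    exact h
  have := ((lgPlace q i).valuation_lt_one_iff_mem (K := K) n).1 hn
  rwa [lgPlace_asIdeal, mem_lgIdeal_iff] at this

theorem lg_valuation_le_one_iff (x : K) :
    (lgPlace q i).valuation K x ≤ 1 ↔ ‖i x‖ ≤ 1 := by
  refine ⟨lgp_norm_le_one_of_valuation q i x, fun h => ?_⟩
  by_contra hcon
  rw [not_le] at hcon
  have hx0 : x ≠ 0 := by
    rintro rfl
    rw [map_zero] at hcon
    exact not_lt.2 zero_le_one hcon
  have hv0 : (lgPlace q i).valuation K x ≠ 0 := (Valuation.ne_zero_iff _).2 hx0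
  have hinv : (lgPlace q i).valuation K x⁻¹ < 1 := by
    rw [map_inv₀]
    exact (inv_lt_one₀ (zero_lt_iff.2 hv0)).2 hcon
  have h2 := lgp_norm_lt_one_of_valuation q i x⁻¹ hinv
  rw [map_inv₀, norm_inv] at h2
  have hpos : 0 < ‖i x‖ := norm_pos_iff.2 ((map_ne_zero i).2 hx0)
  have h3 : 1 < ‖i x‖ := (inv_lt_one₀ hpos).1 h2
  exact not_lt.2 h h3

theorem lg_valuation_lt_one_iff (x : K) :
    (lgPlace q i).valuation K x < 1 ↔ ‖i x‖ < 1 := by
  refine ⟨lgp_norm_lt_one_of_valuation q i x, fun h => ?_⟩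
  by_cases hx0 : x = 0
  · rw [hx0, map_zero]
    exact zero_lt_one
  have hv0 : (lgPlace q i).valuation K x ≠ 0 := (Valuation.ne_zero_iff _).2 hx0
  have hpos : 0 < ‖i x‖ := norm_pos_iff.2 ((map_ne_zero i).2 hx0)
  by_contra hcon
  rw [not_lt] at hcon
  have hinv : (lgPlace q i).valuation K x⁻¹ ≤ 1 := by
    rw [map_inv₀]
    exact (inv_le_one₀ (zero_lt_iff.2 hv0)).2 hcon
  have h2 := (lg_valuation_le_one_iff q i x⁻¹).1 hinv
  rw [map_inv₀, norm_inv, inv_le_one₀ hpos] at h2
  exact not_lt.2 h2 h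

/-! ### Normalisation -/

theorem lgp_spectralNorm_lgEmb (x : K) :
    spectralNorm ℚ_[q] (lgField q i) (lgEmb q i x) = ‖i x‖ := by
  rw [spectralNorm_lgField]
  rfl

theorem lgp_lgEmb_ne_zero {x : K} (hx : x ≠ 0) : lgEmb q i x ≠ 0 :=
  (map_ne_zero (lgEmb q i)).2 hx

/-- Elements of valuation `1` have order `0`. -/
theorem lgp_ord_eq_zero (x : K) (h : (lgPlace q i).valuation K x = 1) :
    lfOrd q (lgField q i) (lgEmb q i x) = 0 := by
  have hx : x ≠ 0 := by
    rintro rfl
    rw [map_zero] at h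
    exact zero_ne_one h
  have hx' := lgp_lgEmb_ne_zero q i hx
  have hxi' := lgp_lgEmb_ne_zero q i (inv_ne_zero hx)
  have h1 : 0 ≤ lfOrd q (lgField q i) (lgEmb q i x) := by
    rw [← mem_lfInt_iff_lfOrd q _ hx', mem_lfInt_iff, lgp_spectralNorm_lgEmb]
    exact (lg_valuation_le_one_iff q i x).1 h.le
  have h2 : 0 ≤ lfOrd q (lgField q i) (lgEmb q i x⁻¹) := by
    rw [← mem_lfInt_iff_lfOrd q _ hxi', mem_lfInt_iff, lgp_spectralNorm_lgEmb]
    refine (lg_valuation_le_one_iff q i x⁻¹).1 ?_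
    rw [map_inv₀, h, inv_one]
  rw [map_inv₀, lfOrd_inv] at h2
  omega

theorem lgp_ord_pos (x : K) (hx : x ≠ 0) (h : (lgPlace q i).valuation K x < 1) :
    0 < lfOrd q (lgField q i) (lgEmb q i x) := by
  rw [← spectralNorm_lt_one_iff_lfOrd q _ (lgp_lgEmb_ne_zero q i hx), lgp_spectralNorm_lgEmb]
  exact (lg_valuation_lt_one_iff q i x).1 h

/-- The order is proportional to the logarithm of the valuation. -/
theorem lgp_ord_eq_mul (π : K) (hπ : (lgPlace q i).valuation K π = WithZero.exp (-1 : ℤ))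
    (x : K) (hx : x ≠ 0) :
    lfOrd q (lgField q i) (lgEmb q i x) =
      -(WithZero.log ((lgPlace q i).valuation K x)) * lfOrd q (lgField q i) (lgEmb q i π) := by
  have hπ0 : π ≠ 0 := by
    rintro rfl
    rw [map_zero] at hπ
    exact WithZero.exp_ne_zero hπ.symm
  have hv0 : (lgPlace q i).valuation K x ≠ 0 := (Valuation.ne_zero_iff _).2 hx
  set ℓ : ℤ := WithZero.log ((lgPlace q i).valuation K x) with hℓ
  have hvx : (lgPlace q i).valuation K x = WithZero.exp ℓ := (WithZero.exp_log hv0).symm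
  have hy : (lgPlace q i).valuation K (x * π ^ ℓ) = 1 := by
    rw [map_mul, map_zpow₀, hπ, hvx, ← WithZero.exp_zsmul, ← WithZero.exp_add, smul_eq_mul,
      mul_neg, mul_one, add_neg_cancel, WithZero.exp_zero]
  have h0 := lgp_ord_eq_zero q i _ hy
  rw [map_mul, map_zpow₀,
    lfOrd_mul q _ (lgp_lgEmb_ne_zero q i hx) (zpow_ne_zero _ (lgp_lgEmb_ne_zero q i hπ0)),
    lfOrd_zpow] at h0
  linarith

/-- A uniformizer of the place is a uniformizer of the local field. -/
theorem lgp_ord_uniformizer (π : K) (hπ : (lgPlace q i).valuation K π = WithZero.exp (-1 : ℤ)) :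
    lfOrd q (lgField q i) (lgEmb q i π) = 1 := by
  have hπ0 : π ≠ 0 := by
    rintro rfl
    rw [map_zero] at hπ
    exact WithZero.exp_ne_zero hπ.symm
  have hπlt : (lgPlace q i).valuation K π < 1 := by
    rw [hπ, ← WithZero.exp_zero, WithZero.exp_lt_exp]
    norm_num
  have htpos := lgp_ord_pos q i π hπ0 hπlt
  obtain ⟨ϖ, hϖ⟩ := exists_isLfUniformizer q (lgField q i)
  have hϖ0 : ϖ ≠ 0 := hϖ.ne_zero
  have hϖ1 : lfOrd q (lgField q i) ϖ = 1 := hϖ
  have hpos : 0 < ‖(ϖ : PadicAlgCl q)‖ := by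
    rw [norm_pos_iff]
    exact fun h => hϖ0 (Subtype.ext h)
  obtain ⟨x, hx⟩ := lg_dense q i ϖ hpos
  -- `ord x = 1`
  have hordx : lfOrd q (lgField q i) (lgEmb q i x) = 1 := by
    by_cases hz : lgEmb q i x - ϖ = 0
    · rw [sub_eq_zero] at hz
      rw [hz, hϖ1]
    · have hlt : lfOrd q (lgField q i) ϖ < lfOrd q (lgField q i) (lgEmb q i x - ϖ) := by
        rw [← not_le, lfOrd_le_iff_spectralNorm q _ hz hϖ0, not_le, spectralNorm_lgField,
          spectralNorm_lgField]
        have : ((lgEmb q i x - ϖ : lgField q i) : PadicAlgCl q) = -((ϖ : PadicAlgCl q) - i x) := by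
          rw [neg_sub]
          rfl
        rw [this, norm_neg]
        exact hx
      have := lfOrd_add_eq_of_lt q _ hϖ0 hz hlt
      rwa [add_sub_cancel, hϖ1] at this
  have hx0 : x ≠ 0 := by
    rintro rfl
    rw [map_zero, lfOrd_zero] at hordx
    exact zero_ne_one hordx
  have hmul := lgp_ord_eq_mul q i π hπ x hx0
  rw [hordx] at hmul
  exact Int.eq_one_of_mul_eq_one_left htpos.le hmul.symm

/-- The `v`-adic valuation of `K` is the normalised valuation of `K_i`. -/
theorem lg_valuation_eq (x : K) (hx : x ≠ 0) :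
    (lgPlace q i).valuation K x = WithZero.exp (-(lfOrd q (lgField q i) (lgEmb q i x))) := by
  obtain ⟨π, hπ⟩ := (lgPlace q i).valuation_exists_uniformizer K
  have hv0 : (lgPlace q i).valuation K x ≠ 0 := (Valuation.ne_zero_iff _).2 hx
  rw [lgp_ord_eq_mul q i π hπ x hx, lgp_ord_uniformizer q i π hπ, mul_one, neg_neg,
    WithZero.exp_log hv0]

theorem lg_mem_pow_iff (x : 𝓞 K) (hx : x ≠ 0) (n : ℕ) :
    x ∈ (lgPlace q i).asIdeal ^ n ↔ (n : ℤ) ≤ lfOrd q (lgField q i) (lgEmb q i (x : K)) := by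
  have hx' : (x : K) ≠ 0 := by
    intro h
    exact hx (RingOfIntegers.coe_eq_zero_iff.1 h)
  rw [← HeightOneSpectrum.intValuation_le_pow_iff_mem,
    ← HeightOneSpectrum.valuation_of_algebraMap (K := K)]
  have h1 := lg_valuation_eq q i (x : K) hx'
  have h2 : (lgPlace q i).valuation K (algebraMap (𝓞 K) K x) =
      WithZero.exp (-(lfOrd q (lgField q i) (lgEmb q i (x : K)))) := h1
  rw [h2, WithZero.exp_le_exp, neg_le_neg_iff]

/-- A uniformizer of `K_i` can be taken in `𝓞 K`. -/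
theorem lg_exists_uniformizer : ∃ π : 𝓞 K, IsLfUniformizer q (lgField q i) (lgEmb q i (π : K)) := by
  obtain ⟨π, hπ⟩ := (lgPlace q i).intValuation_exists_uniformizer
  refine ⟨π, ?_⟩
  have h1 : (lgPlace q i).valuation K (algebraMap (𝓞 K) K π) = WithZero.exp (-1 : ℤ) := by
    rw [HeightOneSpectrum.valuation_of_algebraMap]
    exact hπ
  exact lgp_ord_uniformizer q i (π : K) h1

/-! ### Residue fields -/

theorem lgp_lgEmb_mem_lfInt (x : 𝓞 K) : lgEmb q i (x : K) ∈ lfInt q (lgField q i) := by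
  rw [mem_lfInt_lgField_iff]
  exact lg_norm_le_one q i x

/-- The ring hom `𝓞 K → 𝒪_{K_i}`. -/
def lgpIntHom : 𝓞 K →+* lfInt q (lgField q i) :=
  ((lgEmb q i).comp (algebraMap (𝓞 K) K)).codRestrict (lfInt q (lgField q i))
    (fun x => lgp_lgEmb_mem_lfInt q i x)

theorem lgpIntHom_coe (x : 𝓞 K) :
    ((lgpIntHom q i x : lfInt q (lgField q i)) : lgField q i) = lgEmb q i (x : K) := rfl

/-- The ring hom `𝓞 K → k(K_i)`. -/
def lgpResHom : 𝓞 K →+* IsLocalRing.ResidueField (lfInt q (lgField q i)) :=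
  (IsLocalRing.residue (lfInt q (lgField q i))).comp (lgpIntHom q i)

theorem lgpResHom_ker : RingHom.ker (lgpResHom q i) = (lgPlace q i).asIdeal := by
  ext x
  rw [RingHom.mem_ker, lgpResHom, RingHom.comp_apply, IsLocalRing.residue_eq_zero_iff,
    mem_maximalIdeal_lfInt_iff, lgpIntHom_coe, lgp_spectralNorm_lgEmb, lgPlace_asIdeal,
    mem_lgIdeal_iff]

theorem lgpResHom_surjective : Function.Surjective (lgpResHom q i) := by
  intro z
  obtain ⟨y, rfl⟩ := IsLocalRing.residue_surjective z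
  have hy : ‖((y : lgField q i) : PadicAlgCl q)‖ ≤ 1 := (mem_lfInt_lgField_iff q i _).1 y.2
  obtain ⟨x, hx⟩ := lg_dense_int q i (y : lgField q i) hy zero_lt_one
  refine ⟨x, ?_⟩
  rw [lgpResHom, RingHom.comp_apply, eq_comm, ← sub_eq_zero, ← map_sub,
    IsLocalRing.residue_eq_zero_iff, mem_maximalIdeal_lfInt_iff, spectralNorm_lgField]
  exact hx

/-- The residue fields agree. -/
theorem lg_exists_residue_equiv :
    ∃ e : (𝓞 K ⧸ (lgPlace q i).asIdeal) ≃+* IsLocalRing.ResidueField (lfInt q (lgField q i)),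
      ∀ (x : 𝓞 K) (hx : lgEmb q i (x : K) ∈ lfInt q (lgField q i)),
        e (Ideal.Quotient.mk _ x) = IsLocalRing.residue _ ⟨lgEmb q i (x : K), hx⟩ := by
  refine ⟨(Ideal.quotEquivOfEq (lgpResHom_ker q i).symm).trans
    (RingHom.quotientKerEquivOfSurjective (lgpResHom_surjective q i)), fun x hx => ?_⟩
  rfl

theorem lfResCard_lgField : lfResCard q (lgField q i) = Ideal.absNorm (lgPlace q i).asIdeal := by
  obtain ⟨e, -⟩ := lg_exists_residue_equiv q i
  rw [Ideal.absNorm_apply, Submodule.cardQuot_apply, lfResCard]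
  exact Nat.card_congr e.toEquiv.symm

variable {L : Type*} [Field L] [NumberField L] [Algebra K L] (j : L →+* PadicAlgCl q)

theorem lgPlace_under :
    (lgPlace q j).asIdeal.comap (algebraMap (𝓞 K) (𝓞 L)) =
      (lgPlace q (j.comp (algebraMap K L))).asIdeal := by
  ext x
  rw [Ideal.mem_comap, lgPlace_asIdeal, lgPlace_asIdeal, mem_lgIdeal_iff, mem_lgIdeal_iff]
  rfl

theorem lgp_liesOver :
    (lgPlace q j).asIdeal.LiesOver (lgPlace q (j.comp (algebraMap K L))).asIdeal :=
  ⟨(lgPlace_under q j).symm⟩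

/-- `v_{L_j}(x) = e · v_{K_i}(x)` for `x ∈ K`. -/
theorem lgp_ord_algebraMap (x : K) :
    lfOrd q (lgField q j) (lgEmb q j (algebraMap K L x)) =
      lfRamIdx q (lgField q (j.comp (algebraMap K L))) (lgField q j) *
        lfOrd q (lgField q (j.comp (algebraMap K L))) (lgEmb q (j.comp (algebraMap K L)) x) := by
  rw [lgEmb_algebraMap, lfOrd_algebraMap]

theorem lfRamIdx_lgField :
    lfRamIdx q (lgField q (j.comp (algebraMap K L))) (lgField q j) =
      Ideal.ramificationIdx (lgPlace q j).asIdeal (𝓞 K) := by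
  haveI := lgp_liesOver (K := K) q j
  rw [← Ideal.ramificationIdx'_eq_ramificationIdx
    (lgPlace q (j.comp (algebraMap K L))).asIdeal (lgPlace q j).asIdeal
    (lgPlace q (j.comp (algebraMap K L))).ne_bot]
  symm
  apply Ideal.ramificationIdx'_spec
  · rw [Ideal.map_le_iff_le_comap]
    intro x hx
    rw [Ideal.mem_comap]
    by_cases hx0 : x = 0
    · rw [hx0, map_zero]
      exact Ideal.zero_mem _
    have hfx0 : algebraMap (𝓞 K) (𝓞 L) x ≠ 0 := by
      intro h
      exact hx0 ((FaithfulSMul.algebraMap_injective (𝓞 K) (𝓞 L)) (by rw [h, map_zero]))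
    rw [lg_mem_pow_iff q j _ hfx0]
    have h1 : (1 : ℤ) ≤ lfOrd q (lgField q (j.comp (algebraMap K L)))
        (lgEmb q (j.comp (algebraMap K L)) (x : K)) := by
      have := (lg_mem_pow_iff q (j.comp (algebraMap K L)) x hx0 1).1 (by rwa [pow_one])
      exact_mod_cast this
    have h2 := lgp_ord_algebraMap q j (x : K)
    have h3 : ((algebraMap (𝓞 K) (𝓞 L) x : 𝓞 L) : L) = algebraMap K L (x : K) := rfl
    rw [h3, h2]
    nlinarith [Int.natCast_nonneg (lfRamIdx q (lgField q (j.comp (algebraMap K L))) (lgField q j))]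
  · intro hle
    obtain ⟨π, hπ⟩ := lg_exists_uniformizer q (j.comp (algebraMap K L))
    have hπ1 : lfOrd q (lgField q (j.comp (algebraMap K L)))
        (lgEmb q (j.comp (algebraMap K L)) (π : K)) = 1 := hπ
    have hπ0 : π ≠ 0 := by
      rintro rfl
      have := hπ.ne_zero
      exact this (by simp)
    have hπmem : π ∈ (lgPlace q (j.comp (algebraMap K L))).asIdeal := by
      have := (lg_mem_pow_iff q (j.comp (algebraMap K L)) π hπ0 1).2 (by rw [hπ1]; norm_num)
      rwa [pow_one] at this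
    have hfπ0 : algebraMap (𝓞 K) (𝓞 L) π ≠ 0 := by
      intro h
      exact hπ0 ((FaithfulSMul.algebraMap_injective (𝓞 K) (𝓞 L)) (by rw [h, map_zero]))
    have hmem := hle (Ideal.mem_map_of_mem (algebraMap (𝓞 K) (𝓞 L)) hπmem)
    rw [lg_mem_pow_iff q j _ hfπ0] at hmem
    have h2 := lgp_ord_algebraMap q j (π : K)
    have h3 : ((algebraMap (𝓞 K) (𝓞 L) π : 𝓞 L) : L) = algebraMap K L (π : K) := rfl
    rw [h3, h2, hπ1, mul_one] at hmem
    push_cast at hmem
    omega

theorem lgp_one_lt_absNorm : 1 < Ideal.absNorm (lgPlace q i).asIdeal := by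
  haveI := Ideal.finiteQuotientOfFreeOfNeBot (lgPlace q i).asIdeal (lgPlace q i).ne_bot
  letI : Field (𝓞 K ⧸ (lgPlace q i).asIdeal) := Ideal.Quotient.field _
  rw [Ideal.absNorm_apply, Submodule.cardQuot_apply]
  exact Finite.one_lt_card

theorem lfInertiaDeg_lgField :
    lfInertiaDeg q (lgField q (j.comp (algebraMap K L))) (lgField q j) =
      Ideal.inertiaDeg (lgPlace q j).asIdeal (𝓞 K) := by
  haveI := lgp_liesOver (K := K) q j
  have h1 : Ideal.absNorm (lgPlace q j).asIdeal =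
      Ideal.absNorm (lgPlace q (j.comp (algebraMap K L))).asIdeal ^
        lfInertiaDeg q (lgField q (j.comp (algebraMap K L))) (lgField q j) := by
    rw [← lfResCard_lgField, ← lfResCard_lgField,
      lfResCard_eq_pow q (lgField q (j.comp (algebraMap K L))) (lgField q j)]
  have h2 : Ideal.absNorm (lgPlace q j).asIdeal =
      Ideal.absNorm (lgPlace q (j.comp (algebraMap K L))).asIdeal ^
        Ideal.inertiaDeg (lgPlace q j).asIdeal (𝓞 K) := by
    haveI := Ideal.finiteQuotientOfFreeOfNeBot (lgPlace q j).asIdeal (lgPlace q j).ne_bot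
    letI : Field (𝓞 K ⧸ (lgPlace q (j.comp (algebraMap K L))).asIdeal) := Ideal.Quotient.field _
    rw [Ideal.inertiaDeg_eq_of_isMaximal (lgPlace q (j.comp (algebraMap K L))).asIdeal
      (lgPlace q j).asIdeal, Ideal.absNorm_apply, Submodule.cardQuot_apply, Ideal.absNorm_apply,
      Submodule.cardQuot_apply]
    exact Module.natCard_eq_pow_finrank
  exact Nat.pow_right_injective (lgp_one_lt_absNorm q (j.comp (algebraMap K L)))
    (h1.symm.trans h2)

end LGB

end Fermat.Agent.S55
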