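/-
S55 / LG layer: leaf LG-C is DONE, see `Fermat/Agent/S55/LG/Exists.lean` (sorry-free).
This file is a shim kept for the import chain of the later leaf specs.
-/
import Fermat.Agent.S55.LG.Exists
import Fermat.Agent.S55.LG.PlaceSpec
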