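/-
S55 / LG layer (local-global bridge), leaf LG-D (row 203): `Gal(L_j/K_i)` is the decomposition
group of `lgPlace q j`.

Exact statements of `LG/DecompSpec.lean` (origin/helper2 d517e83).  Black boxes: LG-A (Dense),
LG-B (Place) specs, `LocalValSpec` (`lfRamIdx_mul_lfInertiaDeg`), `LocalUnramSpec`
(`isLfFrob_lfFrob`).  All auxiliary declarations carry the prefix `lgd`.
-/
import Mathlib
import Fermat.Agent.S55.LG.ExistsSpec
import Fermat.Agent.S55.LocalUnramSpec

set_option autoImplicit false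
set_option linter.unusedSectionVars false
set_option linter.unusedVariables false
set_option linter.style.haveILetI false

noncomputable section

namespace Fermat.Agent.S55

open NumberField IsDedekindDomain TensorProduct
open scoped Pointwise

section LGD

variable (q : ℕ) [Fact q.Prime] {K : Type*} [Field K] [NumberField K]
  {L : Type*} [Field L] [NumberField L] [Algebra K L]

/-! ### The algebra structures (not instances) -/

/-- `L_j` as an `L`-algebra. -/
abbrev lgdAlgL (j : L →+* PadicAlgCl q) : Algebra L (lgField q j) := lgAlgebra q j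

/-- `K_i` as a `K`-algebra, `i = j|K`. -/
abbrev lgdAlgK (j : L →+* PadicAlgCl q) : Algebra K (lgField q (j.comp (algebraMap K L))) :=
  lgAlgebra q (j.comp (algebraMap K L))

/-- `L_j` as a `K`-algebra. -/
abbrev lgdAlgKL (j : L →+* PadicAlgCl q) : Algebra K (lgField q j) :=
  ((lgEmb q j).comp (algebraMap K L)).toAlgebra

theorem lgd_tower_KLLj (j : L →+* PadicAlgCl q) :
    letI := lgdAlgL q j
    letI := lgdAlgKL (K := K) q j
    IsScalarTower K L (lgField q j) :=
  letI := lgdAlgL q j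
  letI := lgdAlgKL (K := K) q j
  IsScalarTower.of_algebraMap_eq (fun x => rfl)

theorem lgd_tower_KKiLj (j : L →+* PadicAlgCl q) :
    letI := lgdAlgK (K := K) q j
    letI := lgdAlgKL (K := K) q j
    IsScalarTower K (lgField q (j.comp (algebraMap K L))) (lgField q j) :=
  letI := lgdAlgK (K := K) q j
  letI := lgdAlgKL (K := K) q j
  IsScalarTower.of_algebraMap_eq (fun x => lgEmb_algebraMap q j x)

/-- The restriction map `Gal(L_j/K_i) → Gal(L/K)`. -/
def lgdRes [Normal K L] (j : L →+* PadicAlgCl q) :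
    (lgField q j ≃ₐ[lgField q (j.comp (algebraMap K L))] lgField q j) →* (L ≃ₐ[K] L) :=
  letI := lgdAlgL q j
  letI := lgdAlgK (K := K) q j
  letI := lgdAlgKL (K := K) q j
  haveI := lgd_tower_KLLj (K := K) q j
  haveI := lgd_tower_KKiLj (K := K) q j
  (AlgEquiv.restrictNormalHom L).comp (AlgEquiv.restrictScalarsHom K)

theorem lgdRes_commutes [Normal K L] (j : L →+* PadicAlgCl q)
    (σ : lgField q j ≃ₐ[lgField q (j.comp (algebraMap K L))] lgField q j) (x : L) :
    lgEmb q j (lgdRes q j σ x) = σ (lgEmb q j x) := by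
  letI := lgdAlgL q j
  letI := lgdAlgK (K := K) q j
  letI := lgdAlgKL (K := K) q j
  haveI := lgd_tower_KLLj (K := K) q j
  haveI := lgd_tower_KKiLj (K := K) q j
  exact AlgEquiv.restrictNormal_commutes (AlgEquiv.restrictScalarsHom K σ) L x

/-- Automorphisms of `L_j` over `K_i` agreeing on `j L` are equal. -/
theorem lgd_eq_of_eqOn (j : L →+* PadicAlgCl q)
    (σ τ : lgField q j ≃ₐ[lgField q (j.comp (algebraMap K L))] lgField q j)
    (h : ∀ x : L, σ (lgEmb q j x) = τ (lgEmb q j x)) : σ = τ := by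
  have key : ∀ (y : PadicAlgCl q) (hy : y ∈ IntermediateField.adjoin ℚ_[q] (Set.range j)),
      σ (⟨y, hy⟩ : lgField q j) = τ (⟨y, hy⟩ : lgField q j) := by
    intro y hy
    refine IntermediateField.adjoin_induction ℚ_[q]
      (p := fun y hy => σ (⟨y, hy⟩ : lgField q j) = τ (⟨y, hy⟩ : lgField q j)) ?_ ?_ ?_ ?_ ?_ hy
    · rintro _ ⟨x, rfl⟩
      exact h x
    · intro c
      have hc : (⟨algebraMap ℚ_[q] (PadicAlgCl q) c, IntermediateField.algebraMap_mem _ c⟩ :
          lgField q j) = algebraMap (lgField q (j.comp (algebraMap K L))) (lgField q j)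
            (algebraMap ℚ_[q] (lgField q (j.comp (algebraMap K L))) c) := by
        apply Subtype.ext
        rw [lgField_algebraMap_coe]
        rfl
      rw [hc, AlgEquiv.commutes, AlgEquiv.commutes]
    · intro x y hx hy ihx ihy
      have : (⟨x + y, add_mem hx hy⟩ : lgField q j) = ⟨x, hx⟩ + ⟨y, hy⟩ := rfl
      rw [this, map_add, map_add, ihx, ihy]
    · intro x hx ihx
      have : (⟨x⁻¹, inv_mem hx⟩ : lgField q j) = (⟨x, hx⟩ : lgField q j)⁻¹ := rfl
      rw [this, map_inv₀, map_inv₀, ihx]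
    · intro x y hx hy ihx ihy
      have : (⟨x * y, mul_mem hx hy⟩ : lgField q j) = ⟨x, hx⟩ * ⟨y, hy⟩ := rfl
      rw [this, map_mul, map_mul, ihx, ihy]
  ext ⟨y, hy⟩
  exact congrArg Subtype.val (key y hy)

theorem lgdRes_injective [Normal K L] (j : L →+* PadicAlgCl q) :
    Function.Injective (lgdRes (K := K) q j) := by
  intro σ τ hστ
  apply lgd_eq_of_eqOn q j
  intro x
  rw [← lgdRes_commutes, ← lgdRes_commutes, hστ]

/-- Elements of the range of `lgdRes` are `j`-isometries. -/
theorem lgdRes_norm [Normal K L] (j : L →+* PadicAlgCl q)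
    (σ : lgField q j ≃ₐ[lgField q (j.comp (algebraMap K L))] lgField q j) (x : L) :
    ‖j (lgdRes q j σ x)‖ = ‖j x‖ := by
  have h1 : j (lgdRes q j σ x) = ((σ (lgEmb q j x) : lgField q j) : PadicAlgCl q) := by
    rw [← lgdRes_commutes]
    rfl
  rw [h1, ← spectralNorm_lgField, spectralNorm_algEquiv, spectralNorm_lgField]
  rfl

/-- `[L_j : K_i] = e · f`. -/
theorem lg_finrank_eq (j : L →+* PadicAlgCl q) :
    Module.finrank (lgField q (j.comp (algebraMap K L))) (lgField q j) =
      Ideal.ramificationIdx (lgPlace q j).asIdeal (𝓞 K) *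
        Ideal.inertiaDeg (lgPlace q j).asIdeal (𝓞 K) := by
  rw [← lfRamIdx_lgField q j, ← lfInertiaDeg_lgField q j, lfRamIdx_mul_lfInertiaDeg]

theorem lgd_smul_coe (g : L ≃ₐ[K] L) (x : 𝓞 L) : ((g • x : 𝓞 L) : L) = g (x : L) := rfl

/-- An automorphism mapping the prime `lgPlace q j` into itself lies in the decomposition group. -/
theorem lgd_mem_stabilizer [IsGalois K L] (j : L →+* PadicAlgCl q) (g : L ≃ₐ[K] L)
    (hg : ∀ x : 𝓞 L, x ∈ (lgPlace q j).asIdeal → g • x ∈ (lgPlace q j).asIdeal) :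
    g ∈ MulAction.stabilizer (L ≃ₐ[K] L) (lgPlace q j).asIdeal := by
  have hpow : ∀ k : ℕ, ∀ x : 𝓞 L, x ∈ (lgPlace q j).asIdeal →
      g ^ k • x ∈ (lgPlace q j).asIdeal := by
    intro k
    induction k with
    | zero => intro x hx; rwa [pow_zero, one_smul]
    | succ k ih =>
      intro x hx
      rw [pow_succ', mul_smul]
      exact hg _ (ih x hx)
  have hinv : g⁻¹ = g ^ (orderOf g - 1) := by
    symm
    apply eq_inv_of_mul_eq_one_right
    rw [← pow_succ', Nat.sub_add_cancel (orderOf_pos g), pow_orderOf_eq_one]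
  rw [MulAction.mem_stabilizer_iff]
  ext y
  rw [Ideal.mem_pointwise_smul_iff_inv_smul_mem]
  constructor
  · intro h
    have := hg _ h
    rwa [smul_inv_smul] at this
  · intro h
    rw [hinv]
    exact hpow _ y h

theorem lgd_card_stabilizer [IsGalois K L] (j : L →+* PadicAlgCl q) :
    Nat.card (MulAction.stabilizer (L ≃ₐ[K] L) (lgPlace q j).asIdeal) =
      Ideal.ramificationIdx (lgPlace q j).asIdeal (𝓞 K) *
        Ideal.inertiaDeg (lgPlace q j).asIdeal (𝓞 K) := by
  have : (lgPlace q j).asIdeal.LiesOver ((lgPlace q j).asIdeal.under (𝓞 K)) := ⟨rfl⟩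
  rw [Ideal.card_stabilizer_eq ((lgPlace q j).asIdeal.under (𝓞 K)) (lgPlace q j).asIdeal,
    Ideal.ramificationIdxIn_eq_ramificationIdx ((lgPlace q j).asIdeal.under (𝓞 K))
      (lgPlace q j).asIdeal (L ≃ₐ[K] L),
    Ideal.inertiaDegIn_eq_inertiaDeg ((lgPlace q j).asIdeal.under (𝓞 K))
      (lgPlace q j).asIdeal (L ≃ₐ[K] L)]

theorem lgd_smul_mem_of_isom (j : L →+* PadicAlgCl q) (g : L ≃ₐ[K] L)
    (h : ∀ x : L, ‖j (g x)‖ = ‖j x‖) (x : 𝓞 L) (hx : x ∈ (lgPlace q j).asIdeal) :
    g • x ∈ (lgPlace q j).asIdeal := by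
  rw [lgPlace_asIdeal, mem_lgIdeal_iff] at hx ⊢
  rw [lgd_smul_coe, h]
  exact hx

theorem lgd_finiteDimensional (j : L →+* PadicAlgCl q) :
    FiniteDimensional (lgField q (j.comp (algebraMap K L))) (lgField q j) :=
  FiniteDimensional.right ℚ_[q] _ _

/-- The range of the restriction map is the decomposition group. -/
theorem lgdRes_range [IsGalois K L] (j : L →+* PadicAlgCl q) :
    (lgdRes (K := K) q j).range = MulAction.stabilizer (L ≃ₐ[K] L) (lgPlace q j).asIdeal := by
  have hle : (lgdRes (K := K) q j).range ≤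
      MulAction.stabilizer (L ≃ₐ[K] L) (lgPlace q j).asIdeal := by
    rintro _ ⟨σ, rfl⟩
    exact lgd_mem_stabilizer q j _
      (lgd_smul_mem_of_isom q j _ (lgdRes_norm q j σ))
  have := lgd_finiteDimensional (K := K) q j
  have := lg_isGalois (K := K) q j
  have hcard : Nat.card (lgdRes (K := K) q j).range =
      Nat.card (MulAction.stabilizer (L ≃ₐ[K] L) (lgPlace q j).asIdeal) := by
    rw [lgd_card_stabilizer, ← lg_finrank_eq, ← IsGalois.card_aut_eq_finrank]
    exact Nat.card_congr (MonoidHom.ofInjective (lgdRes_injective q j)).toEquiv.symm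
  exact Subgroup.eq_of_le_of_card_ge hle hcard.ge

/-- Restriction of local automorphisms to the global field. -/
theorem lg_exists_res [IsGalois K L] (j : L →+* PadicAlgCl q) :
    ∃ r : (lgField q j ≃ₐ[lgField q (j.comp (algebraMap K L))] lgField q j) →* (L ≃ₐ[K] L),
      (∀ σ x, lgEmb q j (r σ x) = σ (lgEmb q j x)) ∧ Function.Injective r ∧
      (∀ g : L ≃ₐ[K] L, g ∈ r.range ↔ ∀ x : L, ‖j (g x)‖ = ‖j x‖) ∧
      (∀ g : L ≃ₐ[K] L, g ∈ r.range ↔
        ∀ x : 𝓞 L, x ∈ (lgPlace q j).asIdeal →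
          (⟨g x, map_isIntegral_int g.toAlgHom.toRingHom.toIntAlgHom x.2⟩ : 𝓞 L) ∈
            (lgPlace q j).asIdeal) := by
  refine ⟨lgdRes q j, lgdRes_commutes q j, lgdRes_injective q j, fun g => ⟨?_, ?_⟩,
    fun g => ⟨?_, ?_⟩⟩
  · rintro ⟨σ, rfl⟩
    exact lgdRes_norm q j σ
  · intro h
    rw [lgdRes_range]
    exact lgd_mem_stabilizer q j g (lgd_smul_mem_of_isom q j g h)
  · rintro ⟨σ, rfl⟩ x hx
    exact lgd_smul_mem_of_isom q j _ (lgdRes_norm q j σ) x hx
  · intro h
    rw [lgdRes_range]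
    exact lgd_mem_stabilizer q j g h

/-- Other embeddings over the same `i`: `j ∘ g` for `g ∈ Gal(L/K)`; same local field. -/
theorem lgField_comp_galois [IsGalois K L] (j : L →+* PadicAlgCl q) (g : L ≃ₐ[K] L) :
    lgField q (j.comp (g : L →+* L)) = lgField q j := by
  unfold lgField
  congr 1
  ext y
  constructor
  · rintro ⟨x, rfl⟩
    exact ⟨g x, rfl⟩
  · rintro ⟨x, rfl⟩
    refine ⟨g.symm x, ?_⟩
    show j (g (g.symm x)) = j x
    rw [AlgEquiv.apply_symm_apply]

theorem lg_exists_galois_of_extends [IsGalois K L] (j j' : L →+* PadicAlgCl q)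
    (h : j'.comp (algebraMap K L) = j.comp (algebraMap K L)) :
    ∃ g : L ≃ₐ[K] L, j' = j.comp (g : L →+* L) := by
  letI : Algebra L (PadicAlgCl q) := j.toAlgebra
  letI : Algebra K (PadicAlgCl q) := (j.comp (algebraMap K L)).toAlgebra
  haveI : IsScalarTower K L (PadicAlgCl q) := IsScalarTower.of_algebraMap_eq (fun x => rfl)
  let J' : L →ₐ[K] PadicAlgCl q :=
    { j' with commutes' := fun x => RingHom.congr_fun h x }
  refine ⟨Normal.algHomEquivAut K (PadicAlgCl q) L J', ?_⟩
  have h1 := (Normal.algHomEquivAut K (PadicAlgCl q) L).left_inv J'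
  ext x
  have h2 := AlgHom.congr_fun h1 x
  exact h2.symm

/-- In the unramified case the local Frobenius restricts to the arithmetic Frobenius. -/
theorem lg_res_frob [IsGalois K L] (j : L →+* PadicAlgCl q)
    (hur : LfUnramified q (lgField q (j.comp (algebraMap K L))) (lgField q j))
    (r : (lgField q j ≃ₐ[lgField q (j.comp (algebraMap K L))] lgField q j) →* (L ≃ₐ[K] L))
    (hr : ∀ σ x, lgEmb q j (r σ x) = σ (lgEmb q j x)) (x : 𝓞 L) :
    ‖j (r (lfFrob q (lgField q (j.comp (algebraMap K L))) (lgField q j)) (x : L)) -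
      j (x : L) ^ Ideal.absNorm (lgPlace q (j.comp (algebraMap K L))).asIdeal‖ < 1 := by
  have hfrob := isLfFrob_lfFrob q (lgField q (j.comp (algebraMap K L))) (lgField q j) hur
  have hx : lgEmb q j (x : L) ∈ lfInt q (lgField q j) := by
    rw [mem_lfInt_lgField_iff]
    exact lg_norm_le_one q j x
  have h1 := hfrob _ hx
  rw [spectralNorm_lgField, lfResCard_lgField, ← hr] at h1
  exact h1

end LGD

end Fermat.Agent.S55
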