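/-
S55 / LG layer (local-global bridge), leaf LG-P (row 206), first half: Krasner cofinality.
Every finite extension of `ℚ_q` inside `PadicAlgCl q` is `ℚ_q · F` for a number field `F ⊆ ℚ̄`.
Helper declarations carry the prefix `lgq`.
-/
import Mathlib
import Fermat.Agent.S55.LG.Defs

set_option autoImplicit false
set_option linter.unusedSectionVars false
set_option linter.unusedVariables false
set_option linter.style.haveILetI false

noncomputable section

namespace Fermat.Agent.S55

open NumberField IsDedekindDomain Polynomial IntermediateField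

section LGQK

variable (q : ℕ) [Fact q.Prime]

local instance lgq_isAlgebraicQbar : Algebra.IsAlgebraic ℚ (AlgebraicClosure ℚ) :=
  AlgebraicClosure.isAlgebraic ℚ
local instance lgq_isAlgClosureQbar : IsAlgClosure ℚ (AlgebraicClosure ℚ) :=
  ⟨inferInstance, inferInstance⟩
local instance lgq_normalQbar : Normal ℚ (AlgebraicClosure ℚ) :=
  IsAlgClosure.normal ℚ (AlgebraicClosure ℚ)
local instance lgq_towerQqPadic : IsScalarTower ℚ ℚ_[q] (PadicAlgCl q) :=
  IsScalarTower.of_algebraMap_eq' (Subsingleton.elim _ _)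

theorem lgq_padicEmbedding_injective : Function.Injective (padicEmbedding q) :=
  (padicEmbedding q).toRingHom.injective

/-- Every element of `PadicAlgCl q` which is algebraic over `ℚ` lies in the range of
`padicEmbedding q`. -/
theorem lgq_exists_of_isAlgebraic (β : PadicAlgCl q) (hβ : IsAlgebraic ℚ β) :
    ∃ b : AlgebraicClosure ℚ, padicEmbedding q b = β := by
  set p := minpoly ℚ β with hp
  have hp0 : p ≠ 0 := minpoly.ne_zero hβ.isIntegral
  have hsp : (p.map (algebraMap ℚ (AlgebraicClosure ℚ))).Splits := IsAlgClosed.splits _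
  have hmap : (p.map (algebraMap ℚ (AlgebraicClosure ℚ))).map
      ((padicEmbedding q : AlgebraicClosure ℚ →ₐ[ℚ] PadicAlgCl q) : AlgebraicClosure ℚ →+* PadicAlgCl q) =
      p.map (algebraMap ℚ (PadicAlgCl q)) := by
    rw [Polynomial.map_map]
    congr 1
    exact (padicEmbedding q).comp_algebraMap
  have hroot : β ∈ (p.map (algebraMap ℚ (PadicAlgCl q))).roots := by
    rw [Polynomial.mem_roots (Polynomial.map_ne_zero hp0), Polynomial.IsRoot.def,
      Polynomial.eval_map_algebraMap]
    exact minpoly.aeval ℚ β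
  rw [← hmap, Splits.roots_map hsp, Multiset.mem_map] at hroot
  obtain ⟨b, -, hb⟩ := hroot
  exact ⟨b, hb⟩

/-- The conjugates of `α` over `ℚ_q` stay away from `α`. -/
theorem lgq_exists_delta (α : PadicAlgCl q) :
    ∃ δ : ℝ, 0 < δ ∧ ∀ α' : PadicAlgCl q, IsConjRoot ℚ_[q] α α' → α ≠ α' → δ ≤ ‖α - α'‖ := by
  classical
  have hαint : IsIntegral ℚ_[q] α := (Algebra.IsAlgebraic.isAlgebraic α).isIntegral
  set S : Finset (PadicAlgCl q) :=
    {x ∈ ((minpoly ℚ_[q] α).rootSet (PadicAlgCl q)).toFinset | x ≠ α} with hS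
  by_cases hne : S.Nonempty
  · obtain ⟨x₀, hx₀S, hx₀⟩ := Finset.exists_min_image S (fun x => ‖α - x‖) hne
    refine ⟨‖α - x₀‖, ?_, ?_⟩
    · rw [norm_pos_iff, sub_ne_zero]
      have := (Finset.mem_filter.mp hx₀S).2
      exact this.symm
    · intro α' hconj hα'
      apply hx₀
      rw [hS, Finset.mem_filter, Set.mem_toFinset]
      exact ⟨(isConjRoot_iff_mem_minpoly_rootSet hαint).mp hconj, hα'.symm⟩
  · refine ⟨1, one_pos, ?_⟩
    intro α' hconj hα'
    exfalso
    apply hne
    refine ⟨α', ?_⟩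
    rw [hS, Finset.mem_filter, Set.mem_toFinset]
    exact ⟨(isConjRoot_iff_mem_minpoly_rootSet hαint).mp hconj, hα'.symm⟩

/-- **Krasner approximation**: every `α ∈ PadicAlgCl q` generates over `ℚ_q` the same field as
some `β` algebraic over `ℚ`. -/
theorem lgq_krasner_approx (α : PadicAlgCl q) :
    ∃ β : PadicAlgCl q, IsAlgebraic ℚ β ∧ ℚ_[q]⟮α⟯ = ℚ_[q]⟮β⟯ := by
  have hαint : IsIntegral ℚ_[q] α := (Algebra.IsAlgebraic.isAlgebraic α).isIntegral
  set f := minpoly ℚ_[q] α with hf
  have fmon : f.Monic := minpoly.monic hαint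
  have firr : Irreducible f := minpoly.irreducible hαint
  have fa0 : Polynomial.aeval α f = 0 := minpoly.aeval ℚ_[q] α
  have fnatdeg0 : f.natDegree ≠ 0 := (Irreducible.natDegree_pos firr).ne'
  obtain ⟨δ, δpos, norm_sub_le⟩ := lgq_exists_delta q α
  have hε : (δ / (max ‖α‖ 1)) ^ f.natDegree / (f.natDegree + 1) > 0 := by positivity
  have hi : DenseRange (algebraMap ℚ ℚ_[q]) := by
    have : (algebraMap ℚ ℚ_[q] : ℚ → ℚ_[q]) = ((↑) : ℚ → ℚ_[q]) := by
      ext x; simp
    rw [this]
    exact Padic.denseRange_ratCast q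
  obtain ⟨g, gmon, gdeg, gcoeff⟩ :=
    exists_monic_and_natDegree_eq_and_norm_map_algebraMap_coeff_sub_lt hi fmon hε
  obtain ⟨b, hb, hab⟩ := exists_aroots_norm_sub_lt_of_norm_coeff_sub_lt (L := PadicAlgCl q)
      hε fa0 fmon (gmon.map _) (gdeg ▸ (g.natDegree_map _)) gcoeff (IsAlgClosed.splits _)
  have hab : ‖α - b‖ < δ := by
    rw [← Real.rpow_natCast, ← mul_comm_div, div_self, one_mul,
        ← Real.rpow_mul (div_pos δpos (by positivity)).le, mul_inv_cancel₀] at hab
    · simpa [mul_assoc, div_mul_cancel₀ _ (by positivity : (max ‖α‖ 1) > 0).ne'] using hab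
    · simp [fnatdeg0]
    · positivity
  rw [Polynomial.mem_aroots] at hb
  have hbg : Polynomial.aeval b g = 0 := by
    have := hb.2
    rwa [Polynomial.aeval_map_algebraMap] at this
  have hbint : IsIntegral ℚ_[q] b := ⟨g.map _, gmon.map _, hb.2⟩
  refine ⟨b, ⟨g, gmon.ne_zero, hbg⟩, ?_⟩
  have hle : ℚ_[q]⟮α⟯ ≤ ℚ_[q]⟮b⟯ := by
    rw [IntermediateField.adjoin_simple_le_iff]
    exact IsKrasner.krasner firr.separable (IsAlgClosed.splits _) hbint
      fun a' h1 h2 ↦ lt_of_lt_of_le hab (norm_sub_le a' h1 h2)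
  haveI : FiniteDimensional ℚ_[q] ℚ_[q]⟮b⟯ := IntermediateField.adjoin.finiteDimensional hbint
  apply IntermediateField.eq_of_le_of_finrank_le hle
  rw [IntermediateField.adjoin.finrank hαint, IntermediateField.adjoin.finrank hbint]
  calc (minpoly ℚ_[q] b).natDegree ≤ (g.map (algebraMap ℚ ℚ_[q])).natDegree :=
        Polynomial.natDegree_le_of_dvd (minpoly.dvd ℚ_[q] b hb.2) hb.1
    _ = f.natDegree := by rw [Polynomial.natDegree_map, gdeg]

/-! ### `lgField` of subfields of `ℚ̄` -/

theorem lgq_numberField_adjoin_simple (b : AlgebraicClosure ℚ) : NumberField ℚ⟮b⟯ :=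
  haveI : FiniteDimensional ℚ ℚ⟮b⟯ :=
    IntermediateField.adjoin.finiteDimensional (Algebra.IsAlgebraic.isAlgebraic b).isIntegral
  { to_charZero := inferInstance, to_finiteDimensional := inferInstance }

local instance lgq_numberField_adjoin_simple_inst (b : AlgebraicClosure ℚ) : NumberField ℚ⟮b⟯ :=
  lgq_numberField_adjoin_simple b

theorem lgq_lgField_lgEmbQbar (F : IntermediateField ℚ (AlgebraicClosure ℚ)) [NumberField F] :
    lgField q (lgEmbQbar q F) =
      IntermediateField.adjoin ℚ_[q] (padicEmbedding q '' (F : Set (AlgebraicClosure ℚ))) := by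
  rw [lgField]
  congr 1
  ext y
  constructor
  · rintro ⟨x, rfl⟩
    exact ⟨x, x.2, rfl⟩
  · rintro ⟨x, hx, rfl⟩
    exact ⟨⟨x, hx⟩, rfl⟩

theorem lgq_lgField_mono {F F' : IntermediateField ℚ (AlgebraicClosure ℚ)} [NumberField F]
    [NumberField F'] (h : F ≤ F') :
    lgField q (lgEmbQbar q F) ≤ lgField q (lgEmbQbar q F') := by
  rw [lgq_lgField_lgEmbQbar, lgq_lgField_lgEmbQbar]
  exact IntermediateField.adjoin.mono _ _ _ (Set.image_mono h)

theorem lgq_mem_lgField (F : IntermediateField ℚ (AlgebraicClosure ℚ)) [NumberField F]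
    {x : AlgebraicClosure ℚ}
    (hx : x ∈ F) : padicEmbedding q x ∈ lgField q (lgEmbQbar q F) :=
  range_le_lgField q (lgEmbQbar q F) ⟨x, hx⟩

theorem lgq_lgField_adjoin_simple (b : AlgebraicClosure ℚ) :
    lgField q (lgEmbQbar q ℚ⟮b⟯) = ℚ_[q]⟮padicEmbedding q b⟯ := by
  apply le_antisymm
  · rw [lgq_lgField_lgEmbQbar, IntermediateField.adjoin_le_iff]
    rintro _ ⟨x, hx, rfl⟩
    have hle : ℚ⟮b⟯ ≤ ((ℚ_[q]⟮padicEmbedding q b⟯).restrictScalars ℚ).comap (padicEmbedding q) := by
      rw [IntermediateField.adjoin_simple_le_iff]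
      exact IntermediateField.mem_adjoin_simple_self ℚ_[q] (padicEmbedding q b)
    exact hle hx
  · rw [IntermediateField.adjoin_simple_le_iff]
    exact lgq_mem_lgField q _ (IntermediateField.mem_adjoin_simple_self ℚ b)

/-! ### The statements of the spec (Krasner half) -/

theorem lg_exists_numberField_eq (E : IntermediateField ℚ_[q] (PadicAlgCl q))
    [FiniteDimensional ℚ_[q] E] :
    ∃ (F : IntermediateField ℚ (AlgebraicClosure ℚ)) (_ : NumberField F),
      E = lgField q (lgEmbQbar q F) := by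
  obtain ⟨α, hα⟩ := Field.exists_primitive_element ℚ_[q] E
  have hE : E = ℚ_[q]⟮(α : PadicAlgCl q)⟯ := by
    rw [← IntermediateField.lift_adjoin_simple, hα, IntermediateField.lift_top]
  obtain ⟨β, hβalg, hβ⟩ := lgq_krasner_approx q (α : PadicAlgCl q)
  obtain ⟨b, rfl⟩ := lgq_exists_of_isAlgebraic q β hβalg
  exact ⟨ℚ⟮b⟯, lgq_numberField_adjoin_simple b, by rw [hE, hβ, lgq_lgField_adjoin_simple]⟩

/-- Krasner cofinality: every finite extension of `ℚ_q` inside `PadicAlgCl q` is `F_i` for some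
number field `F ⊆ ℚ̄` (which can be taken Galois over `ℚ`). -/
theorem lg_exists_numberField_of_finite (E : IntermediateField ℚ_[q] (PadicAlgCl q))
    [FiniteDimensional ℚ_[q] E] :
    ∃ (F : IntermediateField ℚ (AlgebraicClosure ℚ)) (_ : NumberField F), IsGalois ℚ F ∧
      E ≤ lgField q (lgEmbQbar q F) := by
  obtain ⟨F₀, hF₀, hE⟩ := lg_exists_numberField_eq q E
  haveI : FiniteDimensional ℚ (IntermediateField.normalClosure ℚ F₀ (AlgebraicClosure ℚ)) :=
    normalClosure.is_finiteDimensional ℚ F₀ _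
  haveI : Normal ℚ (IntermediateField.normalClosure ℚ F₀ (AlgebraicClosure ℚ)) :=
    normalClosure.normal ℚ F₀ _
  haveI hnf : NumberField (IntermediateField.normalClosure ℚ F₀ (AlgebraicClosure ℚ)) :=
    { to_charZero := inferInstance, to_finiteDimensional := inferInstance }
  refine ⟨IntermediateField.normalClosure ℚ F₀ (AlgebraicClosure ℚ), hnf, ⟨⟩, ?_⟩
  rw [hE]
  exact lgq_lgField_mono q (IntermediateField.le_normalClosure F₀)

/-- The levels of the local Galois group pulled back from a number field `F ⊆ ℚ̄` are the open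
subgroups `Gal(ℚ̄_q / F_i)`. -/
theorem localGaloisToGlobal_mem_fixingSubgroup_iff (F : IntermediateField ℚ (AlgebraicClosure ℚ))
    [NumberField F] (τ : PadicAlgCl q ≃ₐ[ℚ_[q]] PadicAlgCl q) :
    localGaloisToGlobal q τ ∈ F.fixingSubgroup ↔ ∀ y ∈ lgField q (lgEmbQbar q F), τ y = y := by
  rw [IntermediateField.mem_fixingSubgroup_iff]
  constructor
  · intro h y hy
    rw [lgField] at hy
    induction hy using IntermediateField.adjoin_induction with
    | mem y hy =>
      obtain ⟨x, rfl⟩ := hy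
      rw [lgEmbQbar_apply, ← padicEmbedding_localGaloisToGlobal, h _ x.2]
    | algebraMap c => exact τ.commutes c
    | add x y _ _ hx hy => rw [map_add, hx, hy]
    | inv x _ hx => rw [map_inv₀, hx]
    | mul x y _ _ hx hy => rw [map_mul, hx, hy]
  · intro h x hx
    apply lgq_padicEmbedding_injective q
    rw [padicEmbedding_localGaloisToGlobal]
    exact h _ (lgq_mem_lgField q F hx)

theorem localGaloisToGlobal_injective : Function.Injective (localGaloisToGlobal q) := by
  rw [injective_iff_map_eq_one]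
  intro τ hτ
  ext y
  have hyint : IsIntegral ℚ_[q] y := (Algebra.IsAlgebraic.isAlgebraic y).isIntegral
  haveI : FiniteDimensional ℚ_[q] ℚ_[q]⟮y⟯ := IntermediateField.adjoin.finiteDimensional hyint
  obtain ⟨F, hF, hE⟩ := lg_exists_numberField_eq q ℚ_[q]⟮y⟯
  have h1 : localGaloisToGlobal q τ ∈ F.fixingSubgroup := by
    rw [hτ]
    exact one_mem _
  have hy : y ∈ lgField q (lgEmbQbar q F) := by
    rw [← hE]
    exact IntermediateField.mem_adjoin_simple_self ℚ_[q] y
  exact (localGaloisToGlobal_mem_fixingSubgroup_iff q F τ).mp h1 y hy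

end LGQK

end Fermat.Agent.S55
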