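/-
S55 / LG layer (local-global bridge), leaf LG-P, INERTIA half (`206-inertia`):
`exists_smul_padicPlace_eq`, `padicPlace_liesOverPrime`, `lgPlace_lgEmbQbar`,
`inertiaSubgroupIn_padicPlace_le_iff`, `localGaloisToGlobal_mem_inertiaSubgroupIn_iff`,
`isUnramifiedOutside_iff`, `isUnramifiedOutside_iff_local` (exact statements of `QbarSpec.lean`).
Helper lemmas are prefixed `lgqi`.
-/
import Mathlib
import Fermat.Agent.S55.LG.QbarKrasner
import Fermat.Agent.S55.LG.DecompSpec
import Fermat.Prelude.Def_GroupCohomology_ContinuousUnramified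
import Fermat.Agent.S55.LocalValSpec
import Fermat.Agent.S13.MinkTwo
import Fermat.Agent.S14.PlumbInertia

set_option autoImplicit false
set_option linter.unusedSectionVars false
set_option linter.unusedVariables false

noncomputable section

namespace Fermat.Agent.S55

open NumberField IsDedekindDomain
open scoped Pointwise

section LGPI

variable (q : ℕ) [Fact q.Prime]

/-! ### Generalities on `padicPlace q` -/

theorem lgqi_norm_natCast_lt_one : ‖((q : ℕ) : PadicAlgCl q)‖ < 1 := by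
  have h2 := PadicAlgCl.valuation_p q
  have h3 : ‖((q : ℕ) : PadicAlgCl q)‖₊ = 1 / (q : NNReal) := by
    rw [← PadicAlgCl.valuation_def]; exact h2
  have h4 : ‖((q : ℕ) : PadicAlgCl q)‖ = 1 / (q : ℝ) := by
    have := congrArg (fun t : NNReal => (t : ℝ)) h3
    simpa using this
  rw [h4]
  have hq : (1 : ℝ) < q := by exact_mod_cast (Fact.out : q.Prime).one_lt
  rw [div_lt_one (by linarith)]
  exact hq

theorem lgqi_mem_padicPlace_iff (x : AlgebraicClosure ℚ) :
    x ∈ padicPlace q ↔ ‖padicEmbedding q x‖ ≤ 1 := by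
  rw [mem_padicPlace_iff, ← NNReal.coe_le_coe]
  rfl

theorem lgqi_mem_nonunits_padicPlace_iff (x : AlgebraicClosure ℚ) :
    x ∈ (padicPlace q).nonunits ↔ ‖padicEmbedding q x‖ < 1 := by
  rw [Fermat.Agent.S13.mink_mem_nonunits_iff, lgqi_mem_padicPlace_iff,
    lgqi_mem_padicPlace_iff]
  by_cases hx : x = 0
  · subst hx
    simp
  · have h0 : padicEmbedding q x ≠ 0 := (_root_.map_ne_zero (padicEmbedding q)).mpr hx
    have hpos : 0 < ‖padicEmbedding q x‖ := norm_pos_iff.mpr h0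
    rw [map_inv₀, norm_inv, inv_le_one₀ hpos]
    constructor
    · rintro ⟨-, h | h⟩
      · exact absurd h hx
      · exact not_le.mp h
    · intro h
      exact ⟨h.le, Or.inr (not_le.mpr h)⟩

theorem padicPlace_liesOverPrime : (padicPlace q).LiesOverPrime q := by
  show ((q : ℕ) : AlgebraicClosure ℚ) ∈ (padicPlace q).nonunits
  rw [lgqi_mem_nonunits_padicPlace_iff, map_natCast]
  exact lgqi_norm_natCast_lt_one q

/-- All valuation subrings of `ℚ̄` above `q` are conjugate to `padicPlace q`. -/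
theorem exists_smul_padicPlace_eq (A : ValuationSubring (AlgebraicClosure ℚ))
    (hA : A.LiesOverPrime q) :
    ∃ g : AlgebraicClosure ℚ ≃ₐ[ℚ] AlgebraicClosure ℚ, g • padicPlace q = A :=
  Fermat.Agent.S13.mink_exists_smul_eq q (Fact.out : q.Prime) (padicPlace q) A
    (padicPlace_liesOverPrime q) hA

/-- The place of `F` cut out by `padicPlace q`. -/
theorem lgPlace_lgEmbQbar (F : IntermediateField ℚ (AlgebraicClosure ℚ)) [NumberField F] (x : 𝓞 F) :
    x ∈ (lgPlace q (lgEmbQbar q F)).asIdeal ↔ ((x : F) : AlgebraicClosure ℚ) ∈ (padicPlace q).nonunits := by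
  rw [lgqi_mem_nonunits_padicPlace_iff, lgPlace_asIdeal, mem_lgIdeal_iff, lgEmbQbar_apply]

/-! ### The image of the local inertia group -/

theorem lgqi_norm_algEquiv (τ : PadicAlgCl q ≃ₐ[ℚ_[q]] PadicAlgCl q) (y : PadicAlgCl q) :
    ‖τ y‖ = ‖y‖ := by
  have h := nnnorm_padicAlgCl_algEquiv q τ y
  exact congrArg (fun t : NNReal => (t : ℝ)) h

/-- `ℚ̄` is dense in `PadicAlgCl q` (from Krasner cofinality and the density of `F` in `F_i`). -/
theorem lgqi_exists_approx (y : PadicAlgCl q) {ε : ℝ} (hε : 0 < ε) :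
    ∃ x : AlgebraicClosure ℚ, ‖y - padicEmbedding q x‖ < ε := by
  have hy : IsIntegral ℚ_[q] y := (Algebra.IsAlgebraic.isAlgebraic y).isIntegral
  have : FiniteDimensional ℚ_[q] (IntermediateField.adjoin ℚ_[q] {y}) :=
    IntermediateField.adjoin.finiteDimensional hy
  obtain ⟨F, hF, -, hle⟩ := lg_exists_numberField_of_finite q (IntermediateField.adjoin ℚ_[q] {y})
  have hyF : y ∈ lgField q (lgEmbQbar q F) :=
    hle (IntermediateField.mem_adjoin_simple_self ℚ_[q] y)
  obtain ⟨x, hx⟩ := lg_dense q (lgEmbQbar q F) ⟨y, hyF⟩ hε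
  exact ⟨(x : AlgebraicClosure ℚ), hx⟩

/-- The image of the local inertia group. -/
theorem localGaloisToGlobal_mem_inertiaSubgroupIn_iff (τ : PadicAlgCl q ≃ₐ[ℚ_[q]] PadicAlgCl q) :
    localGaloisToGlobal q τ ∈ (padicPlace q).inertiaSubgroupIn ℚ ↔
      ∀ y : PadicAlgCl q, ‖y‖ ≤ 1 → ‖τ y - y‖ < 1 := by
  constructor
  · intro h y hy
    have hin := Fermat.Agent.S05.isInertial_of_mem_inertiaSubgroupIn _ _ h
    obtain ⟨x, hx⟩ := lgqi_exists_approx q y one_pos
    have hx1 : ‖padicEmbedding q x‖ ≤ 1 := by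
      have h1 : padicEmbedding q x = y + -(y - padicEmbedding q x) := by ring
      rw [h1]
      refine (PadicAlgCl.isNonarchimedean q _ _).trans (max_le hy ?_)
      rw [norm_neg]
      exact hx.le
    have h2 := hin.sub_mem x ((lgqi_mem_padicPlace_iff q x).mpr hx1)
    rw [lgqi_mem_nonunits_padicPlace_iff, map_sub, padicEmbedding_localGaloisToGlobal] at h2
    have h3 : τ y - y = (τ (y - padicEmbedding q x) + -(y - padicEmbedding q x)) +
        (τ (padicEmbedding q x) - padicEmbedding q x) := by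
      rw [map_sub]; ring
    rw [h3]
    refine lt_of_le_of_lt (PadicAlgCl.isNonarchimedean q _ _) (max_lt ?_ h2)
    refine lt_of_le_of_lt (PadicAlgCl.isNonarchimedean q _ _) (max_lt ?_ ?_)
    · rw [lgqi_norm_algEquiv]; exact hx
    · rw [norm_neg]; exact hx
  · intro h
    apply Fermat.Agent.S13.mink_mem_inertiaSubgroupIn_of_isInertial
    constructor
    · intro x
      rw [lgqi_mem_padicPlace_iff, lgqi_mem_padicPlace_iff, padicEmbedding_localGaloisToGlobal,
        lgqi_norm_algEquiv]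
    · intro x hx
      rw [lgqi_mem_nonunits_padicPlace_iff, map_sub, padicEmbedding_localGaloisToGlobal]
      exact h _ ((lgqi_mem_padicPlace_iff q x).mp hx)

end LGPI

/-! ### Global inertia groups -/

section Global

local instance lgqi_isAlgebraic : Algebra.IsAlgebraic ℚ (AlgebraicClosure ℚ) :=
  AlgebraicClosure.isAlgebraic ℚ
local instance lgqi_isAlgClosure : IsAlgClosure ℚ (AlgebraicClosure ℚ) :=
  ⟨inferInstance, inferInstance⟩
local instance lgqi_normal : Normal ℚ (AlgebraicClosure ℚ) :=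
  IsAlgClosure.normal ℚ (AlgebraicClosure ℚ)

theorem lgqi_inertia_eq_bot_iff (F : IntermediateField ℚ (AlgebraicClosure ℚ)) [NumberField F]
    [IsGalois ℚ F] (P : Ideal (𝓞 F)) [P.IsPrime] :
    Ideal.inertia (F ≃ₐ[ℚ] F) P = ⊥ ↔ Ideal.ramificationIdx P ℤ = 1 := by
  have h1 := Ideal.card_inertia_eq_ramificationIdxIn (G := (F ≃ₐ[ℚ] F)) (P.under ℤ) P
  have h2 := Ideal.ramificationIdxIn_eq_ramificationIdx (P.under ℤ) P (F ≃ₐ[ℚ] F)
  rw [← h2, ← h1, Subgroup.card_eq_one]

variable (F : IntermediateField ℚ (AlgebraicClosure ℚ)) [NumberField F]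

/-- The prime of `𝓞 F` below a valuation subring of `ℚ̄`. -/
def lgqiCenter (A : ValuationSubring (AlgebraicClosure ℚ)) : Ideal (𝓞 F) :=
  (Fermat.Agent.S54.primeBelow A).comap (Fermat.Agent.S14.plumbU_toZb F)

theorem mem_lgqiCenter_iff (A : ValuationSubring (AlgebraicClosure ℚ)) (x : 𝓞 F) :
    x ∈ lgqiCenter F A ↔ ((x : F) : AlgebraicClosure ℚ) ∈ A.nonunits := by
  rw [lgqiCenter, Ideal.mem_comap, Fermat.Agent.S54.mem_primeBelow_iff,
    Fermat.Agent.S14.plumbU_toZb_coe]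

instance lgqiCenter_isPrime (A : ValuationSubring (AlgebraicClosure ℚ)) :
    (lgqiCenter F A).IsPrime := by
  unfold lgqiCenter
  infer_instance

theorem natCast_mem_lgqiCenter (A : ValuationSubring (AlgebraicClosure ℚ)) {ℓ : ℕ}
    (hA : A.LiesOverPrime ℓ) : ((ℓ : ℕ) : 𝓞 F) ∈ lgqiCenter F A := by
  rw [mem_lgqiCenter_iff]
  have h : ((((ℓ : ℕ) : 𝓞 F) : F) : AlgebraicClosure ℚ) = ((ℓ : ℕ) : AlgebraicClosure ℚ) := by
    simp
  rw [h]
  exact hA

theorem lgqiCenter_ne_bot (A : ValuationSubring (AlgebraicClosure ℚ)) {ℓ : ℕ} (hℓ : ℓ.Prime)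
    (hA : A.LiesOverPrime ℓ) : lgqiCenter F A ≠ ⊥ := by
  intro h
  have h1 := natCast_mem_lgqiCenter F A hA
  rw [h, Ideal.mem_bot] at h1
  have h2 : ((ℓ : ℕ) : 𝓞 F) ≠ 0 := by exact_mod_cast hℓ.ne_zero
  exact h2 h1

theorem lgqiCenter_padicPlace (q : ℕ) [Fact q.Prime] :
    lgqiCenter F (padicPlace q) = (lgPlace q (lgEmbQbar q F)).asIdeal := by
  ext x
  rw [mem_lgqiCenter_iff, lgPlace_lgEmbQbar]

/-- two primes in a proper ideal are equal -/
theorem lgqi_prime_eq_of_mem {R : Type*} [CommRing R] (P : Ideal R) (hP : P ≠ ⊤) {ℓ ℓ' : ℕ}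
    (hℓ : ℓ.Prime) (hℓ' : ℓ'.Prime) (h : ((ℓ : ℕ) : R) ∈ P) (h' : ((ℓ' : ℕ) : R) ∈ P) : ℓ = ℓ' := by
  by_contra hne
  have hcop : Nat.Coprime ℓ ℓ' := (Nat.coprime_primes hℓ hℓ').mpr hne
  have hcop' : IsCoprime (ℓ : ℤ) (ℓ' : ℤ) := Nat.isCoprime_iff_coprime.mpr hcop
  obtain ⟨a, b, hab⟩ := hcop'
  apply hP
  rw [Ideal.eq_top_iff_one]
  have h1 : ((a * (ℓ : ℤ) + b * (ℓ' : ℤ) : ℤ) : R) = 1 := by rw [hab]; simp
  rw [← h1]
  push_cast
  exact P.add_mem (P.mul_mem_left _ h) (P.mul_mem_left _ h')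

variable [IsGalois ℚ F]

theorem lgqi_restrictNormal_eq_one_iff (σ : AlgebraicClosure ℚ ≃ₐ[ℚ] AlgebraicClosure ℚ) :
    σ.restrictNormal F = 1 ↔ σ ∈ F.fixingSubgroup := by
  rw [IntermediateField.mem_fixingSubgroup_iff]
  constructor
  · intro h x hx
    have h1 := AlgEquiv.restrictNormal_commutes σ F ⟨x, hx⟩
    rw [h] at h1
    exact h1.symm
  · intro h
    ext x
    have h1 : ((σ.restrictNormal F x : F) : AlgebraicClosure ℚ) = σ (x : AlgebraicClosure ℚ) :=
      AlgEquiv.restrictNormal_commutes σ F x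
    rw [h _ x.2] at h1
    exact h1

/-- K2: restriction maps the inertia group of `A` into the inertia group of its center. -/
theorem lgqi_restrictNormal_mem_inertia (A : ValuationSubring (AlgebraicClosure ℚ))
    (σ : AlgebraicClosure ℚ ≃ₐ[ℚ] AlgebraicClosure ℚ) (hσ : σ ∈ A.inertiaSubgroupIn ℚ) :
    σ.restrictNormal F ∈ Ideal.inertia (F ≃ₐ[ℚ] F) (lgqiCenter F A) := by
  have hin := Fermat.Agent.S05.isInertial_of_mem_inertiaSubgroupIn _ _ hσ
  intro x
  show (σ.restrictNormal F) • x - x ∈ lgqiCenter F A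
  rw [mem_lgqiCenter_iff]
  have hxA : (((x : 𝓞 F) : F) : AlgebraicClosure ℚ) ∈ A :=
    Fermat.Agent.S54.mem_valuationSubring_of_isIntegral A _ (Fermat.Agent.S14.plumbU_toZb F x).2
  have h1 := hin.sub_mem _ hxA
  have h2 : ((((σ.restrictNormal F) • x - x : 𝓞 F) : F) : AlgebraicClosure ℚ) =
      σ (((x : 𝓞 F) : F) : AlgebraicClosure ℚ) - (((x : 𝓞 F) : F) : AlgebraicClosure ℚ) := by
    have h3 : ((σ.restrictNormal F (x : F) : F) : AlgebraicClosure ℚ) =
        σ (((x : 𝓞 F) : F) : AlgebraicClosure ℚ) := AlgEquiv.restrictNormal_commutes σ F (x : F)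
    rw [← h3]
    rfl
  rw [h2]
  exact h1


/-- L-i: if all inertia groups above `ℓ` fix `F`, the inertia groups of `Gal(F/ℚ)` at the primes
above `ℓ` are trivial. -/
theorem lgqi_inertia_eq_bot_of_forall {ℓ : ℕ} (hℓ : ℓ.Prime)
    (h : ∀ A : ValuationSubring (AlgebraicClosure ℚ), A.LiesOverPrime ℓ →
      A.inertiaSubgroupIn ℚ ≤ F.fixingSubgroup)
    (P : Ideal (𝓞 F)) [P.IsPrime] (hP : P ≠ ⊥) (hℓP : ((ℓ : ℕ) : 𝓞 F) ∈ P) :
    Ideal.inertia (F ≃ₐ[ℚ] F) P = ⊥ := by
  rw [Subgroup.eq_bot_iff_forall]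
  intro σ hσ
  obtain ⟨ℓ', A, τ, hℓ', hA, hℓ'P, hτ, hτσ⟩ :=
    Fermat.Agent.S14.exists_inertia_lift F P hP σ hσ
  have hℓℓ : ℓ' = ℓ :=
    lgqi_prime_eq_of_mem P (Ideal.IsPrime.ne_top inferInstance) hℓ' hℓ hℓ'P hℓP
  subst hℓℓ
  have h1 := h A hA hτ
  rw [← hτσ, lgqi_restrictNormal_eq_one_iff]
  exact h1

/-- L-ii: if the inertia group of `Gal(F/ℚ)` at the center of `A` is trivial, the inertia group of
`A` fixes `F`. -/
theorem lgqi_inertia_le_of_eq_bot (A : ValuationSubring (AlgebraicClosure ℚ))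
    (h : Ideal.inertia (F ≃ₐ[ℚ] F) (lgqiCenter F A) = ⊥) :
    A.inertiaSubgroupIn ℚ ≤ F.fixingSubgroup := by
  intro σ hσ
  have h1 := lgqi_restrictNormal_mem_inertia F A σ hσ
  rw [h, Subgroup.mem_bot] at h1
  exact (lgqi_restrictNormal_eq_one_iff F σ).mp h1

theorem lgqi_fixingSubgroup_normal : F.fixingSubgroup.Normal := by
  have h : F.fixingSubgroup =
      (AlgEquiv.restrictNormalHom (F := ℚ) (K₁ := AlgebraicClosure ℚ) F).ker := by
    ext σ
    rw [MonoidHom.mem_ker, ← lgqi_restrictNormal_eq_one_iff]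
    rfl
  rw [h]
  exact MonoidHom.normal_ker _

end Global

/-! ### The local ramification index -/

section Local

variable (q : ℕ) [Fact q.Prime]

theorem lgqi_lfOrd_prime_padic : lfOrd q ℚ_[q] ((q : ℕ) : ℚ_[q]) = 1 := by
  have h := lfOrd_prime_mul_lfAbsInertiaDeg q ℚ_[q]
  rw [Module.finrank_self, Nat.cast_one] at h
  have h1 : ((lfAbsInertiaDeg q ℚ_[q] : ℕ) : ℤ) = 1 :=
    Int.eq_one_of_mul_eq_one_left (Int.natCast_nonneg _) h
  rw [h1, mul_one] at h
  exact h

/-- L-C: the global ramification index over `ℤ` of the place of an embedding is the local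
ramification index over `ℚ_q`. -/
theorem lgqi_ramificationIdx_eq {K : Type*} [Field K] [NumberField K] (i : K →+* PadicAlgCl q) :
    Ideal.ramificationIdx (lgPlace q i).asIdeal ℤ = lfRamIdx q ℚ_[q] (lgField q i) := by
  have hPprime : (lgPlace q i).asIdeal.IsPrime := (lgPlace q i).isPrime
  have hqprime : Prime (q : ℤ) := Nat.prime_iff_prime_int.mp Fact.out
  have hqmem : ((q : ℕ) : 𝓞 K) ∈ (lgPlace q i).asIdeal := natCast_mem_lgIdeal q i
  have hlies : (lgPlace q i).asIdeal.LiesOver (Ideal.span {(q : ℤ)}) := by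
    rw [Ideal.liesOver_span_iff hPprime.ne_top hqprime]
    simpa using hqmem
  have hp0 : Ideal.span {(q : ℤ)} ≠ ⊥ := by
    rw [Ne, Ideal.span_singleton_eq_bot]
    exact hqprime.ne_zero
  rw [← Ideal.ramificationIdx'_eq_ramificationIdx (Ideal.span {(q : ℤ)}) (lgPlace q i).asIdeal hp0]
  have hq0 : ((q : ℕ) : 𝓞 K) ≠ 0 := by exact_mod_cast (Fact.out : q.Prime).ne_zero
  -- the order of `q`
  have hord : lfOrd q (lgField q i) (lgEmb q i (((q : ℕ) : 𝓞 K) : K)) =
      lfRamIdx q ℚ_[q] (lgField q i) := by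
    have h1 := lfOrd_algebraMap q ℚ_[q] (lgField q i) ((q : ℕ) : ℚ_[q])
    rw [lgqi_lfOrd_prime_padic, mul_one] at h1
    rw [← h1]
    congr 1
    simp
  have hmap : Ideal.map (algebraMap ℤ (𝓞 K)) (Ideal.span {(q : ℤ)}) =
      Ideal.span {((q : ℕ) : 𝓞 K)} := by
    rw [Ideal.map_span, Set.image_singleton]
    simp
  apply Ideal.ramificationIdx'_spec
  · rw [hmap, Ideal.span_singleton_le_iff_mem]
    exact (lg_mem_pow_iff q i ((q : ℕ) : 𝓞 K) hq0 _).mpr (by rw [hord])
  · rw [hmap, Ideal.span_singleton_le_iff_mem]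
    intro h
    have h2 := (lg_mem_pow_iff q i ((q : ℕ) : 𝓞 K) hq0 _).mp h
    rw [hord] at h2
    push_cast at h2
    omega

end Local

section Final

local instance lgqi_isAlgebraic' : Algebra.IsAlgebraic ℚ (AlgebraicClosure ℚ) :=
  AlgebraicClosure.isAlgebraic ℚ
local instance lgqi_isAlgClosure' : IsAlgClosure ℚ (AlgebraicClosure ℚ) :=
  ⟨inferInstance, inferInstance⟩
local instance lgqi_normal' : Normal ℚ (AlgebraicClosure ℚ) :=
  IsAlgClosure.normal ℚ (AlgebraicClosure ℚ)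

variable (q : ℕ) [Fact q.Prime]

/-- Inertia at `padicPlace q` acts trivially on `F` iff `F_i/ℚ_q` is unramified. -/
theorem inertiaSubgroupIn_padicPlace_le_iff (F : IntermediateField ℚ (AlgebraicClosure ℚ))
    [NumberField F] [IsGalois ℚ F] :
    (padicPlace q).inertiaSubgroupIn ℚ ≤ F.fixingSubgroup ↔
      LfUnramified q ℚ_[q] (lgField q (lgEmbQbar q F)) := by
  have hq : q.Prime := Fact.out
  unfold LfUnramified
  rw [← lgqi_ramificationIdx_eq, ← lgqiCenter_padicPlace, ← lgqi_inertia_eq_bot_iff]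
  constructor
  · intro h
    have hN : F.fixingSubgroup.Normal := lgqi_fixingSubgroup_normal F
    exact lgqi_inertia_eq_bot_of_forall F hq
      (fun A hA => Fermat.Agent.S13.mink_inertia_le_of_conj q hq F.fixingSubgroup (padicPlace q) A
        (padicPlace_liesOverPrime q) hA h) _
      (lgqiCenter_ne_bot F _ hq (padicPlace_liesOverPrime q))
      (natCast_mem_lgqiCenter F _ (padicPlace_liesOverPrime q))
  · exact lgqi_inertia_le_of_eq_bot F (padicPlace q)

/-- The Prelude's `IsUnramifiedOutside` in classical terms. -/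
theorem isUnramifiedOutside_iff (S : Finset Nat.Primes)
    (F : IntermediateField ℚ (AlgebraicClosure ℚ)) [NumberField F] [IsGalois ℚ F] :
    F.IsUnramifiedOutside S ↔
      ∀ (l : Nat.Primes), l ∉ S → ∀ (v : HeightOneSpectrum (𝓞 F)),
        (((l : ℕ) : ℤ) : 𝓞 F) ∈ v.asIdeal → Ideal.ramificationIdx v.asIdeal ℤ = 1 := by
  constructor
  · intro hF l hl v hv
    have hvp : v.asIdeal.IsPrime := v.isPrime
    rw [← lgqi_inertia_eq_bot_iff]
    refine lgqi_inertia_eq_bot_of_forall F l.2 (hF.2 l hl) v.asIdeal v.ne_bot ?_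
    simpa using hv
  · intro h
    refine ⟨inferInstance, fun l hl A hA => ?_⟩
    apply lgqi_inertia_le_of_eq_bot
    rw [lgqi_inertia_eq_bot_iff]
    refine h l hl ⟨lgqiCenter F A, inferInstance, lgqiCenter_ne_bot F A l.2 hA⟩ ?_
    have := natCast_mem_lgqiCenter F A hA
    simpa using this

theorem isUnramifiedOutside_iff_local (S : Finset Nat.Primes)
    (F : IntermediateField ℚ (AlgebraicClosure ℚ)) [NumberField F] [IsGalois ℚ F] :
    F.IsUnramifiedOutside S ↔
      ∀ (l : Nat.Primes), l ∉ S →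
        haveI : Fact (l : ℕ).Prime := ⟨l.2⟩
        ∀ i : F →+* PadicAlgCl (l : ℕ), LfUnramified (l : ℕ) ℚ_[(l : ℕ)] (lgField (l : ℕ) i) := by
  rw [isUnramifiedOutside_iff]
  constructor
  · intro h l hl
    have : Fact (l : ℕ).Prime := ⟨l.2⟩
    intro i
    show lfRamIdx (l : ℕ) ℚ_[(l : ℕ)] (lgField (l : ℕ) i) = 1
    rw [← lgqi_ramificationIdx_eq]
    refine h l hl (lgPlace (l : ℕ) i) ?_
    have := natCast_mem_lgIdeal (l : ℕ) i
    rw [lgPlace_asIdeal]
    simpa using this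
  · intro h l hl v hv
    have : Fact (l : ℕ).Prime := ⟨l.2⟩
    obtain ⟨i, rfl⟩ := exists_lgEmb (l : ℕ) v (by simpa using hv)
    rw [lgqi_ramificationIdx_eq]
    exact h l hl i

end Final

end Fermat.Agent.S55
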