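/-
S55 / LG layer, leaf LG-W : weak approximation (exact statements of `ApproxSpec.lean`).
Route: approximate each `y k` by an element of `K` (`lg_dense`), clear denominators, and apply the
Chinese remainder theorem in `𝓞 K` to high powers of the pairwise distinct maximal ideals
`lgIdeal (q k) (i k)`.  Helper lemmas carry the prefix `lgw`.
-/
import Mathlib
import Fermat.Agent.S55.LG.Defs
import Fermat.Agent.S55.LG.Dense

set_option autoImplicit false
set_option linter.unusedSectionVars false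
set_option linter.unusedVariables false

noncomputable section

namespace Fermat.Agent.S55

open NumberField IsDedekindDomain TensorProduct
open scoped Pointwise

section LGWBall

variable (q : ℕ) [Fact q.Prime] {K : Type*} [Field K] [NumberField K] (i : K →+* PadicAlgCl q)

/-- The ideal `{x ∈ 𝓞 K | ‖i x‖ ≤ c}` (for `0 ≤ c`). -/
def lgwBall (c : ℝ) (hc : 0 ≤ c) : Ideal (𝓞 K) where
  carrier := {x | ‖i (x : K)‖ ≤ c}
  add_mem' := by
    intro a b ha hb
    change ‖i (algebraMap (𝓞 K) K (a + b))‖ ≤ c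
    rw [map_add, map_add]
    exact (PadicAlgCl.isNonarchimedean q _ _).trans (max_le ha hb)
  zero_mem' := by simpa using hc
  smul_mem' := by
    intro a x hx
    change ‖i (algebraMap (𝓞 K) K (a * x))‖ ≤ c
    rw [map_mul, map_mul, norm_mul]
    calc ‖i (a : K)‖ * ‖i (x : K)‖ ≤ 1 * c :=
          mul_le_mul (lg_norm_le_one q i a) hx (norm_nonneg _) zero_le_one
      _ = c := one_mul c

theorem mem_lgwBall_iff {c : ℝ} (hc : 0 ≤ c) (x : 𝓞 K) :
    x ∈ lgwBall q i c hc ↔ ‖i (x : K)‖ ≤ c := Iff.rfl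

theorem lgwBall_mul_le {a b : ℝ} (ha : 0 ≤ a) (hb : 0 ≤ b) :
    lgwBall q i a ha * lgwBall q i b hb ≤ lgwBall q i (a * b) (mul_nonneg ha hb) := by
  rw [Ideal.mul_le]
  intro x hx y hy
  rw [mem_lgwBall_iff] at hx hy ⊢
  change ‖i (algebraMap (𝓞 K) K (x * y))‖ ≤ a * b
  rw [map_mul, map_mul, norm_mul]
  exact mul_le_mul hx hy (norm_nonneg _) ha

theorem lgwBall_pow_le {c : ℝ} (hc : 0 ≤ c) (n : ℕ) :
    lgwBall q i c hc ^ n ≤ lgwBall q i (c ^ n) (pow_nonneg hc n) := by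
  induction n with
  | zero =>
    intro x _
    rw [mem_lgwBall_iff, pow_zero]
    exact lg_norm_le_one q i x
  | succ n ih =>
    intro x hx
    rw [pow_succ] at hx
    have h1 := lgwBall_mul_le q i (pow_nonneg hc n) hc (Ideal.mul_mono ih le_rfl hx)
    rw [mem_lgwBall_iff] at h1 ⊢
    rwa [pow_succ]

/-- The maximal ideal `lgIdeal q i` is contained in a ball of radius `c < 1`. -/
theorem lgw_exists_lgIdeal_le_ball :
    ∃ (c : ℝ) (hc : 0 ≤ c), c < 1 ∧ lgIdeal q i ≤ lgwBall q i c hc := by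
  classical
  obtain ⟨s, hs⟩ := (IsNoetherian.noetherian (lgIdeal q i) : (lgIdeal q i).FG)
  have hsub : ∀ x ∈ s, x ∈ lgIdeal q i := fun x hx => hs ▸ Submodule.subset_span hx
  have key : ∀ t : Finset (𝓞 K), (∀ x ∈ t, x ∈ lgIdeal q i) →
      ∃ c : ℝ, 0 ≤ c ∧ c < 1 ∧ ∀ x ∈ t, ‖i (x : K)‖ ≤ c := by
    intro t
    induction t using Finset.induction_on with
    | empty => exact fun _ => ⟨0, le_rfl, zero_lt_one, by simp⟩
    | insert a t _ ih =>
      intro h
      obtain ⟨c, hc0, hc1, hc⟩ := ih (fun x hx => h x (Finset.mem_insert_of_mem hx))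
      have ha : ‖i (a : K)‖ < 1 := (mem_lgIdeal_iff q i a).mp (h a (Finset.mem_insert_self a t))
      refine ⟨max c ‖i (a : K)‖, le_max_of_le_left hc0, max_lt hc1 ha, ?_⟩
      intro x hx
      rcases Finset.mem_insert.mp hx with rfl | hx
      · exact le_max_right _ _
      · exact (hc x hx).trans (le_max_left _ _)
  obtain ⟨c, hc0, hc1, hc⟩ := key s hsub
  refine ⟨c, hc0, hc1, ?_⟩
  rw [← hs, Ideal.span_le]
  intro x hx
  exact hc x hx

/-- Elements of `(lgIdeal q i) ^ n` are uniformly small. -/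
theorem lgw_exists_pow_bound :
    ∃ c : ℝ, 0 ≤ c ∧ c < 1 ∧ ∀ (n : ℕ) (x : 𝓞 K), x ∈ lgIdeal q i ^ n → ‖i (x : K)‖ ≤ c ^ n := by
  obtain ⟨c, hc0, hc1, hc⟩ := lgw_exists_lgIdeal_le_ball q i
  refine ⟨c, hc0, hc1, fun n x hx => ?_⟩
  exact lgwBall_pow_le q i hc0 n (Ideal.pow_right_mono hc n hx)

/-- For every `η > 0` a high power of `lgIdeal q i` consists of elements of norm `< η`. -/
theorem lgw_exists_pow_lt {η : ℝ} (hη : 0 < η) :
    ∃ N : ℕ, ∀ n, N ≤ n → ∀ x : 𝓞 K, x ∈ lgIdeal q i ^ n → ‖i (x : K)‖ < η := by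
  obtain ⟨c, hc0, hc1, hc⟩ := lgw_exists_pow_bound q i
  obtain ⟨N, hN⟩ := exists_pow_lt_of_lt_one hη hc1
  refine ⟨N, fun n hn x hx => ?_⟩
  calc ‖i (x : K)‖ ≤ c ^ n := hc n x hx
    _ ≤ c ^ N := pow_le_pow_of_le_one hc0 hc1.le hn
    _ < η := hN

end LGWBall

section LGW

variable {K : Type*} [Field K] [NumberField K]

/-- Global form of weak approximation: simultaneous approximation of elements of `K`. -/
theorem lgw_weak_approx_global {ι : Type*} [Fintype ι] (q : ι → ℕ) [∀ k, Fact (q k).Prime]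
    (i : ∀ k, K →+* PadicAlgCl (q k))
    (hne : ∀ k k', k ≠ k' → lgPlace (q k) (i k) ≠ lgPlace (q k') (i k'))
    (z : ι → K) {ε : ℝ} (hε : 0 < ε) :
    ∃ x : K, ∀ k, ‖i k (z k) - i k x‖ < ε := by
  classical
  -- clear denominators
  obtain ⟨b, hb⟩ := IsLocalization.exist_integer_multiples_of_finite (nonZeroDivisors (𝓞 K)) z
  choose a ha using hb
  have hb0 : ((b : 𝓞 K) : K) ≠ 0 := by
    have h := nonZeroDivisors.ne_zero b.2
    exact fun h0 => h (by exact_mod_cast h0)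
  have hδ : ∀ k, 0 < ‖i k ((b : 𝓞 K) : K)‖ := fun k =>
    norm_pos_iff.mpr ((map_ne_zero (i k)).mpr hb0)
  -- choose the exponent
  have hN : ∀ k, ∃ N : ℕ, ∀ n, N ≤ n → ∀ x : 𝓞 K, x ∈ lgIdeal (q k) (i k) ^ n →
      ‖i k (x : K)‖ < ε * ‖i k ((b : 𝓞 K) : K)‖ := fun k =>
    lgw_exists_pow_lt (q k) (i k) (mul_pos hε (hδ k))
  choose N hN using hN
  set n := Finset.univ.sup N with hn
  have hNn : ∀ k, N k ≤ n := fun k => Finset.le_sup (Finset.mem_univ k)
  -- CRT
  obtain ⟨w, hw⟩ := IsDedekindDomain.exists_forall_sub_mem_ideal (s := Finset.univ)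
    (fun k => lgIdeal (q k) (i k)) (fun _ => n)
    (fun k _ => Ideal.prime_of_isPrime (lgIdeal_ne_bot (q k) (i k)) (lgIdeal_isPrime (q k) (i k)))
    (fun k _ k' _ hkk' h => hne k k' hkk' (HeightOneSpectrum.ext h))
    (fun k => a k.1)
  refine ⟨(w : K) / ((b : 𝓞 K) : K), fun k => ?_⟩
  have h1 := hN k n (hNn k) _ (hw k (Finset.mem_univ k))
  have h2 : i k (z k) - i k ((w : K) / ((b : 𝓞 K) : K)) =
      - (i k (((w - a k : 𝓞 K)) : K)) / i k ((b : 𝓞 K) : K) := by
    have h3 : algebraMap (𝓞 K) K (a k) = ((b : 𝓞 K) : K) * z k := by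
      rw [ha k, Algebra.smul_def]
    have h4 : ((w - a k : 𝓞 K) : K) = (w : K) - ((b : 𝓞 K) : K) * z k := by
      rw [← h3]; simp
    rw [h4, map_div₀, map_sub, map_mul]
    field_simp [(map_ne_zero (i k)).mpr hb0]
    ring
  rw [h2, norm_div, norm_neg, div_lt_iff₀ (hδ k)]
  exact h1

/-- Weak approximation for finitely many pairwise distinct finite places (any residue
characteristics). -/
theorem lg_weak_approx {ι : Type*} [Fintype ι] (q : ι → ℕ) [∀ k, Fact (q k).Prime]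
    (i : ∀ k, K →+* PadicAlgCl (q k))
    (hne : ∀ k k', k ≠ k' → lgPlace (q k) (i k) ≠ lgPlace (q k') (i k'))
    (y : ∀ k, lgField (q k) (i k)) {ε : ℝ} (hε : 0 < ε) :
    ∃ x : K, ∀ k, ‖(y k : PadicAlgCl (q k)) - i k x‖ < ε := by
  have hz : ∀ k, ∃ z : K, ‖(y k : PadicAlgCl (q k)) - i k z‖ < ε := fun k =>
    lg_dense (q k) (i k) (y k) hε
  choose z hz using hz
  obtain ⟨x, hx⟩ := lgw_weak_approx_global q i hne z hε
  refine ⟨x, fun k => ?_⟩
  have h : (y k : PadicAlgCl (q k)) - i k x =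
      ((y k : PadicAlgCl (q k)) - i k (z k)) + (i k (z k) - i k x) := by ring
  rw [h]
  exact lgdense_norm_sub_le (q k) (hz k) (hx k)

/-- Multiplicative form: prescribe the `n`-th order behaviour at the places in question and
integrality conditions are NOT imposed elsewhere. -/
theorem lg_weak_approx_units {ι : Type*} [Fintype ι] (q : ι → ℕ) [∀ k, Fact (q k).Prime]
    (i : ∀ k, K →+* PadicAlgCl (q k))
    (hne : ∀ k k', k ≠ k' → lgPlace (q k) (i k) ≠ lgPlace (q k') (i k'))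
    (y : ∀ k, (lgField (q k) (i k))ˣ) {ε : ℝ} (hε : 0 < ε) :
    ∃ x : Kˣ, ∀ k, ‖((y k : lgField (q k) (i k)) : PadicAlgCl (q k))⁻¹ * i k (x : K) - 1‖ < ε := by
  classical
  rcases isEmpty_or_nonempty ι with hι | hι
  · exact ⟨1, fun k => isEmptyElim k⟩
  have hy0 : ∀ k, ((y k : lgField (q k) (i k)) : PadicAlgCl (q k)) ≠ 0 := fun k => by
    have h := (y k).ne_zero
    exact fun h0 => h (Subtype.ext h0)
  have hypos : ∀ k, 0 < ‖((y k : lgField (q k) (i k)) : PadicAlgCl (q k))‖ := fun k =>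
    norm_pos_iff.mpr (hy0 k)
  -- a positive lower bound for the norms of the `y k`
  obtain ⟨k₀, hk₀⟩ := Finite.exists_min
    (fun k => ‖((y k : lgField (q k) (i k)) : PadicAlgCl (q k))‖)
  set m := ‖((y k₀ : lgField (q k₀) (i k₀)) : PadicAlgCl (q k₀))‖ with hm
  have hmpos : 0 < m := hypos k₀
  have hε' : 0 < min ε 1 * m := mul_pos (lt_min hε one_pos) hmpos
  obtain ⟨x, hx⟩ := lg_weak_approx q i hne (fun k => (y k : lgField (q k) (i k))) hε'
  have hxk : ∀ k, ‖((y k : lgField (q k) (i k)) : PadicAlgCl (q k)) - i k x‖ <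
      min ε 1 * ‖((y k : lgField (q k) (i k)) : PadicAlgCl (q k))‖ := fun k =>
    lt_of_lt_of_le (hx k) (mul_le_mul_of_nonneg_left (hk₀ k) (le_min hε.le zero_le_one))
  have hx0 : x ≠ 0 := by
    rintro rfl
    obtain ⟨k⟩ := hι
    have h := hxk k
    rw [map_zero, sub_zero] at h
    have h1 : min ε 1 * ‖((y k : lgField (q k) (i k)) : PadicAlgCl (q k))‖ ≤
        1 * ‖((y k : lgField (q k) (i k)) : PadicAlgCl (q k))‖ :=
      mul_le_mul_of_nonneg_right (min_le_right _ _) (norm_nonneg _)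
    rw [one_mul] at h1
    exact lt_irrefl _ (lt_of_lt_of_le h h1)
  refine ⟨Units.mk0 x hx0, fun k => ?_⟩
  rw [Units.val_mk0]
  have h : ((y k : lgField (q k) (i k)) : PadicAlgCl (q k))⁻¹ * i k x - 1 =
      - (((y k : lgField (q k) (i k)) : PadicAlgCl (q k))⁻¹ *
        (((y k : lgField (q k) (i k)) : PadicAlgCl (q k)) - i k x)) := by
    field_simp [hy0 k]
    ring
  rw [h, norm_neg, norm_mul, norm_inv, inv_mul_lt_iff₀ (hypos k)]
  calc ‖((y k : lgField (q k) (i k)) : PadicAlgCl (q k)) - i k x‖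
      < min ε 1 * ‖((y k : lgField (q k) (i k)) : PadicAlgCl (q k))‖ := hxk k
    _ ≤ ε * ‖((y k : lgField (q k) (i k)) : PadicAlgCl (q k))‖ :=
        mul_le_mul_of_nonneg_right (min_le_left _ _) (norm_nonneg _)
    _ = ‖((y k : lgField (q k) (i k)) : PadicAlgCl (q k))‖ * ε := mul_comm _ _

end LGW

end Fermat.Agent.S55
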