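/-
S55 / LG layer: leaf LG-W is DONE, see `Fermat/Agent/S55/LG/Approx.lean` (helper17, sorry-free).
This file is a shim.
-/
import Fermat.Agent.S55.LG.Approx
import Fermat.Agent.S55.LG.PlaceSpec
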