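/-
S55 / LG layer: leaf LG-P is DONE, see `Fermat/Agent/S55/LG/QbarKrasner.lean` (helper1, Krasner half)
and `Fermat/Agent/S55/LG/QbarInertia.lean` (helper19, places + inertia half), both sorry-free.
This file is a shim.
-/
import Fermat.Agent.S55.LG.QbarKrasner
import Fermat.Agent.S55.LG.QbarInertia
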