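/-
S55 / LG layer, leaf LG-T : `K ⊗[ℚ] ℚ_q = ∏_{v ∣ q} K_v`, the relative Galois form, and
global norm / trace = product / sum of local norms / traces (exact statements of `TensorSpec.lean`).
Black boxes: `ExistsSpec` (`lgPlace_lgEmbOf`, `lgPlacesOver_finite`, `lg_sum_finrank`),
`DecompSpec` (`lg_exists_res`).  Helper lemmas carry the prefix `lgt`.
-/
import Mathlib
import Fermat.Agent.S55.LG.DecompSpec
import Fermat.Agent.S55.LG.Approx

set_option autoImplicit false
set_option linter.unusedSectionVars false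
set_option linter.unusedVariables false
set_option linter.style.haveILetI false

noncomputable section

namespace Fermat.Agent.S55

open NumberField IsDedekindDomain TensorProduct
open scoped Pointwise

section LGTAbs

variable (q : ℕ) [Fact q.Prime] {K : Type*} [Field K] [NumberField K]

/-- The diagonal image of `x : K` in `∏_v PadicAlgCl q`. -/
def lgtDiag (x : K) : LgPlacesOver q K → PadicAlgCl q := fun v => lgEmbOf q v x

/-- The `ℚ_q`-span of the diagonal image of `K`. -/
def lgtSpan : Submodule ℚ_[q] (LgPlacesOver q K → PadicAlgCl q) :=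
  Submodule.span ℚ_[q] (Set.range (fun k => lgtDiag q (Module.finBasis ℚ K k)))

/-- The product of the local fields inside `∏_v PadicAlgCl q`. -/
def lgtProd : Submodule ℚ_[q] (LgPlacesOver q K → PadicAlgCl q) :=
  Submodule.pi Set.univ (fun v => (lgField q (lgEmbOf q v)).toSubalgebra.toSubmodule)

theorem mem_lgtProd_iff (y : LgPlacesOver q K → PadicAlgCl q) :
    y ∈ lgtProd q (K := K) ↔ ∀ v, y v ∈ lgField q (lgEmbOf q v) := by
  simp [lgtProd, Submodule.mem_pi]

theorem lgtDiag_smul (c : ℚ) (x : K) :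
    lgtDiag q (c • x) = (c : ℚ_[q]) • lgtDiag q x := by
  ext v
  simp only [lgtDiag, Pi.smul_apply]
  rw [Algebra.smul_def, map_mul, Algebra.smul_def, eq_ratCast, lg_map_ratCast]

theorem lgtDiag_mem_span (x : K) : lgtDiag q x ∈ lgtSpan q (K := K) := by
  have h : lgtDiag q x = ∑ k, ((Module.finBasis ℚ K).repr x k : ℚ_[q]) •
      lgtDiag q (Module.finBasis ℚ K k) := by
    conv_lhs => rw [← (Module.finBasis ℚ K).sum_repr x]
    ext v
    simp only [lgtDiag, map_sum, Finset.sum_apply, Pi.smul_apply]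
    refine Finset.sum_congr rfl (fun k _ => ?_)
    have := congrFun (lgtDiag_smul q ((Module.finBasis ℚ K).repr x k) (Module.finBasis ℚ K k)) v
    simpa [lgtDiag] using this
  rw [h]
  exact Submodule.sum_mem _ (fun k _ => Submodule.smul_mem _ _ (Submodule.subset_span ⟨k, rfl⟩))

theorem lgtSpan_le_prod : lgtSpan q (K := K) ≤ lgtProd q := by
  rw [lgtSpan, Submodule.span_le]
  rintro _ ⟨k, rfl⟩
  rw [SetLike.mem_coe, mem_lgtProd_iff]
  intro v
  exact range_le_lgField q _ _

theorem lgtProd_le_span : lgtProd q (K := K) ≤ lgtSpan q := by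
  haveI : Fintype (LgPlacesOver q K) := Fintype.ofFinite _
  intro y hy
  rw [mem_lgtProd_iff] at hy
  haveI : FiniteDimensional ℚ_[q] (lgtSpan q (K := K)) :=
    FiniteDimensional.span_of_finite ℚ_[q] (Set.finite_range _)
  have hclosed : IsClosed (lgtSpan q (K := K) : Set (LgPlacesOver q K → PadicAlgCl q)) :=
    Submodule.closed_of_finiteDimensional _
  rw [← SetLike.mem_coe, ← hclosed.closure_eq, Metric.mem_closure_iff]
  intro ε hε
  have hne : ∀ v v' : LgPlacesOver q K, v ≠ v' →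
      lgPlace q (lgEmbOf q v) ≠ lgPlace q (lgEmbOf q v') := by
    intro v v' hvv' h
    rw [lgPlace_lgEmbOf, lgPlace_lgEmbOf] at h
    exact hvv' (Subtype.ext h)
  obtain ⟨x, hx⟩ := lg_weak_approx (fun _ : LgPlacesOver q K => q) (fun v => lgEmbOf q v) hne
    (fun v => ⟨y v, hy v⟩) hε
  refine ⟨lgtDiag q x, lgtDiag_mem_span q x, ?_⟩
  rw [dist_eq_norm, pi_norm_lt_iff hε]
  intro v
  exact hx v

/-- `∏_v K_v` as a submodule of `∏_v PadicAlgCl q`. -/
def lgtProdEquiv :
    (∀ v : LgPlacesOver q K, lgField q (lgEmbOf q v)) ≃ₗ[ℚ_[q]] lgtProd q (K := K) where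
  toFun y := ⟨fun v => (y v : PadicAlgCl q), (mem_lgtProd_iff q _).mpr (fun v => (y v).2)⟩
  map_add' y y' := rfl
  map_smul' c y := rfl
  invFun y := fun v => ⟨y.1 v, (mem_lgtProd_iff q _).mp y.2 v⟩
  left_inv y := rfl
  right_inv y := rfl

theorem lgt_finrank_span : Module.finrank ℚ_[q] (lgtSpan q (K := K)) = Module.finrank ℚ K := by
  haveI : Fintype (LgPlacesOver q K) := Fintype.ofFinite _
  rw [le_antisymm (lgtSpan_le_prod q) (lgtProd_le_span q), ← (lgtProdEquiv q (K := K)).finrank_eq,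
    Module.finrank_pi_fintype, lg_sum_finrank]

theorem lgt_linearIndependent :
    LinearIndependent ℚ_[q] (fun k => lgtDiag q (Module.finBasis ℚ K k)) := by
  rw [linearIndependent_iff_card_eq_finrank_span, Fintype.card_fin]
  exact (lgt_finrank_span q (K := K)).symm

/-- The canonical map `K ⊗[ℚ] ℚ_q → ∏_v K_v`. -/
def lgtTensorHom : (K ⊗[ℚ] ℚ_[q]) →ₐ[ℚ] (∀ v : LgPlacesOver q K, lgField q (lgEmbOf q v)) :=
  Algebra.TensorProduct.productMap
    (RingHom.pi fun v : LgPlacesOver q K => lgEmb q (lgEmbOf q v)).toRatAlgHom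
    (algebraMap ℚ_[q] (∀ v : LgPlacesOver q K, lgField q (lgEmbOf q v))).toRatAlgHom

theorem lgtTensorHom_tmul (x : K) (c : ℚ_[q]) (v : LgPlacesOver q K) :
    lgtTensorHom q (x ⊗ₜ[ℚ] c) v =
      algebraMap ℚ_[q] (lgField q (lgEmbOf q v)) c * lgEmb q (lgEmbOf q v) x := by
  rw [lgtTensorHom, Algebra.TensorProduct.productMap_apply_tmul, mul_comm]
  rfl

/-- The value of `lgtTensorHom` on `∑ b_k ⊗ c_k`. -/
theorem lgtTensorHom_sum (c : Fin (Module.finrank ℚ K) → ℚ_[q]) (v : LgPlacesOver q K) :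
    ((lgtTensorHom q (∑ k, Module.finBasis ℚ K k ⊗ₜ[ℚ] c k) v :
      lgField q (lgEmbOf q v)) : PadicAlgCl q) =
      (∑ k, c k • lgtDiag q (Module.finBasis ℚ K k)) v := by
  rw [map_sum, Finset.sum_apply, Finset.sum_apply]
  push_cast
  refine Finset.sum_congr rfl (fun k _ => ?_)
  rw [lgtTensorHom_tmul, Pi.smul_apply, Algebra.smul_def]
  rfl

theorem lgtTensorHom_bijective : Function.Bijective (lgtTensorHom q (K := K)) := by
  classical
  constructor
  · rw [injective_iff_map_eq_zero]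
    intro z hz
    obtain ⟨c, rfl⟩ := TensorProduct.eq_repr_basis_left (Module.finBasis ℚ K) z
    have hc : (c.sum fun k a => Module.finBasis ℚ K k ⊗ₜ[ℚ] a) =
        ∑ k, Module.finBasis ℚ K k ⊗ₜ[ℚ] c k := by
      rw [Finsupp.sum_fintype]
      intro k
      exact tmul_zero _ _
    rw [hc] at hz ⊢
    have h0 : ∑ k, c k • lgtDiag q (Module.finBasis ℚ K k) = 0 := by
      ext v
      rw [← lgtTensorHom_sum, hz]
      rfl
    have h1 := Fintype.linearIndependent_iff.mp (lgt_linearIndependent q (K := K)) c h0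
    refine Finset.sum_eq_zero (fun k _ => ?_)
    rw [h1 k, tmul_zero]
  · intro y
    have hy : (fun v => ((y v : lgField q (lgEmbOf q v)) : PadicAlgCl q)) ∈ lgtSpan q (K := K) :=
      lgtProd_le_span q ((mem_lgtProd_iff q _).mpr (fun v => (y v).2))
    rw [lgtSpan, Submodule.mem_span_range_iff_exists_fun] at hy
    obtain ⟨c, hc⟩ := hy
    refine ⟨∑ k, Module.finBasis ℚ K k ⊗ₜ[ℚ] c k, ?_⟩
    ext v
    rw [lgtTensorHom_sum, hc]

/-- Absolute form. -/
theorem lg_exists_tensorEquiv :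
    ∃ e : (K ⊗[ℚ] ℚ_[q]) ≃+* (∀ v : LgPlacesOver q K, lgField q (lgEmbOf q v)),
      ∀ (x : K) (c : ℚ_[q]) (v : LgPlacesOver q K),
        e (x ⊗ₜ[ℚ] c) v = algebraMap ℚ_[q] (lgField q (lgEmbOf q v)) c * lgEmb q (lgEmbOf q v) x :=
  ⟨RingEquiv.ofBijective (lgtTensorHom q (K := K)) (lgtTensorHom_bijective q),
    fun x c v => lgtTensorHom_tmul q x c v⟩

end LGTAbs

section LGTRel

variable (q : ℕ) [Fact q.Prime] {K : Type*} [Field K] [NumberField K]
  {L : Type*} [Field L] [NumberField L] [Algebra K L]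

attribute [local instance] lgAlgebra

/-- `L_j` as a `K`-algebra through `K_i` (NOT an instance). -/
abbrev lgtAlgebraRel (j : L →+* PadicAlgCl q) : Algebra K (lgField q j) :=
  ((algebraMap (lgField q (j.comp (algebraMap K L))) (lgField q j)).comp
    (algebraMap K (lgField q (j.comp (algebraMap K L))))).toAlgebra

attribute [local instance] lgtAlgebraRel

/-- The `K`-algebra homomorphisms `x ↦ j (g x)`. -/
def lgtPhi (j : L →+* PadicAlgCl q) (g : L ≃ₐ[K] L) : L →ₐ[K] lgField q j where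
  toRingHom := (lgEmb q j).comp (g : L →+* L)
  commutes' k := by
    change lgEmb q j (g (algebraMap K L k)) = _
    rw [g.commutes, lgEmb_algebraMap]
    rfl

@[simp] theorem lgtPhi_apply (j : L →+* PadicAlgCl q) (g : L ≃ₐ[K] L) (x : L) :
    lgtPhi q j g x = lgEmb q j (g x) := rfl

theorem lgtPhi_injective (j : L →+* PadicAlgCl q) : Function.Injective (lgtPhi (K := K) q j) := by
  intro g g' h
  ext x
  have := DFunLike.congr_fun h x
  exact lgEmb_injective q j this

/-- The constant functions `K_i → (G → L_j)`. -/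
def lgtConst (j : L →+* PadicAlgCl q) :
    lgField q (j.comp (algebraMap K L)) →ₐ[K] ((L ≃ₐ[K] L) → lgField q j) where
  toRingHom := algebraMap (lgField q (j.comp (algebraMap K L))) ((L ≃ₐ[K] L) → lgField q j)
  commutes' k := rfl

/-- The map `L ⊗[K] K_i → (Gal(L/K) → L_j)`, `x ⊗ c ↦ (g ↦ c * j (g x))`. -/
def lgtCoind (j : L →+* PadicAlgCl q) :
    (L ⊗[K] lgField q (j.comp (algebraMap K L))) →ₐ[K] ((L ≃ₐ[K] L) → lgField q j) :=
  Algebra.TensorProduct.productMap (AlgHom.pi (fun g => lgtPhi q j g)) (lgtConst q j)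

theorem lgtCoind_tmul (j : L →+* PadicAlgCl q) (x : L) (c : lgField q (j.comp (algebraMap K L)))
    (g : L ≃ₐ[K] L) :
    lgtCoind q j (x ⊗ₜ[K] c) g =
      algebraMap (lgField q (j.comp (algebraMap K L))) (lgField q j) c * lgEmb q j (g x) := by
  rw [lgtCoind, Algebra.TensorProduct.productMap_apply_tmul, mul_comm]
  rfl

variable [IsGalois K L]

/-- A `K`-basis of `L` indexed by the Galois group. -/
def lgtBasis : Module.Basis (L ≃ₐ[K] L) K L :=
  (Module.finBasis K L).reindex (Fintype.equivOfCardEq (by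
    rw [Fintype.card_fin, ← Nat.card_eq_fintype_card, IsGalois.card_aut_eq_finrank]))

/-- The matrix `(j (g b_k))_{g,k}`. -/
def lgtMatrix (j : L →+* PadicAlgCl q) : Matrix (L ≃ₐ[K] L) (L ≃ₐ[K] L) (lgField q j) :=
  Matrix.of (fun g k => lgEmb q j (g (lgtBasis (K := K) (L := L) k)))

open Classical in
theorem lgtMatrix_isUnit (j : L →+* PadicAlgCl q) : IsUnit (lgtMatrix (K := K) q j) := by
  classical
  rw [← Matrix.vecMul_injective_iff_isUnit]
  change Function.Injective (lgtMatrix (K := K) q j).vecMulLinear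
  rw [injective_iff_map_eq_zero]
  intro a ha
  change Matrix.vecMul a (lgtMatrix (K := K) q j) = 0 at ha
  have hli := (linearIndependent_algHom_toLinearMap K L (lgField q j)).comp
    (lgtPhi (K := K) q j) (lgtPhi_injective q j)
  have h0 : ∑ g, a g • (lgtPhi (K := K) q j g).toLinearMap = 0 := by
    apply (lgtBasis (K := K) (L := L)).ext
    intro k
    have := congrFun ha k
    simp only [Matrix.vecMul, dotProduct, lgtMatrix, Matrix.of_apply, Pi.zero_apply] at this
    rw [LinearMap.sum_apply]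
    simpa using this
  funext g
  exact Fintype.linearIndependent_iff.mp hli a h0 g


/-- The value of `lgtCoind` on `∑ b_k ⊗ c_k`. -/
theorem lgtCoind_sum (j : L →+* PadicAlgCl q)
    (c : (L ≃ₐ[K] L) → lgField q (j.comp (algebraMap K L))) :
    lgtCoind q j (∑ k, lgtBasis (K := K) (L := L) k ⊗ₜ[K] c k) =
      (lgtMatrix (K := K) q j).mulVec
        (fun k => algebraMap (lgField q (j.comp (algebraMap K L))) (lgField q j) (c k)) := by
  funext g
  rw [map_sum, Finset.sum_apply]
  simp only [Matrix.mulVec, dotProduct, lgtMatrix, Matrix.of_apply]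
  refine Finset.sum_congr rfl (fun k _ => ?_)
  rw [lgtCoind_tmul, mul_comm]

theorem lgt_exists_repr (j : L →+* PadicAlgCl q)
    (z : L ⊗[K] lgField q (j.comp (algebraMap K L))) :
    ∃ c : (L ≃ₐ[K] L) → lgField q (j.comp (algebraMap K L)),
      z = ∑ k, lgtBasis (K := K) (L := L) k ⊗ₜ[K] c k := by
  classical
  obtain ⟨c, rfl⟩ := TensorProduct.eq_repr_basis_left (lgtBasis (K := K) (L := L)) z
  refine ⟨c, ?_⟩
  rw [Finsupp.sum_fintype]
  intro k
  exact tmul_zero _ _

open Classical in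
theorem lgtCoind_injective (j : L →+* PadicAlgCl q) :
    Function.Injective (lgtCoind (K := K) q j) := by
  rw [injective_iff_map_eq_zero]
  intro z hz
  obtain ⟨c, rfl⟩ := lgt_exists_repr q j z
  rw [lgtCoind_sum] at hz
  have h1 := Matrix.mulVec_injective_iff_isUnit.mpr (lgtMatrix_isUnit (K := K) q j)
  have h2 : (fun k => algebraMap (lgField q (j.comp (algebraMap K L))) (lgField q j) (c k)) = 0 :=
    h1 (by rw [hz, Matrix.mulVec_zero])
  refine Finset.sum_eq_zero (fun k _ => ?_)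
  have h3 : algebraMap (lgField q (j.comp (algebraMap K L))) (lgField q j) (c k) = 0 :=
    congrFun h2 k
  rw [(map_eq_zero_iff _ (algebraMap (lgField q (j.comp (algebraMap K L)))
    (lgField q j)).injective).mp h3, tmul_zero]

/-- Elements of the range are equivariant. -/
theorem lgtCoind_equivariant (j : L →+* PadicAlgCl q)
    (z : L ⊗[K] lgField q (j.comp (algebraMap K L)))
    (σ : lgField q j ≃ₐ[lgField q (j.comp (algebraMap K L))] lgField q j)
    (d g : L ≃ₐ[K] L) (hd : ∀ x, lgEmb q j (d x) = σ (lgEmb q j x)) :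
    lgtCoind q j z (d * g) = σ (lgtCoind q j z g) := by
  induction z using TensorProduct.induction_on with
  | zero => simp
  | tmul x c =>
    rw [lgtCoind_tmul, lgtCoind_tmul, map_mul, σ.commutes, ← hd]
    rfl
  | add z₁ z₂ h₁ h₂ =>
    rw [map_add, Pi.add_apply, Pi.add_apply, h₁, h₂, map_add]

open Classical in
/-- Equivariant functions are in the range. -/
theorem lgtCoind_surjective (j : L →+* PadicAlgCl q) (f : (L ≃ₐ[K] L) → lgField q j)
    (hf : ∀ (σ : lgField q j ≃ₐ[lgField q (j.comp (algebraMap K L))] lgField q j)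
      (d g : L ≃ₐ[K] L), (∀ x, lgEmb q j (d x) = σ (lgEmb q j x)) → f (d * g) = σ (f g)) :
    ∃ z, lgtCoind (K := K) q j z = f := by
  obtain ⟨r, hr, -, -, -⟩ := lg_exists_res (K := K) q j
  have hM := lgtMatrix_isUnit (K := K) q j
  have hinj := Matrix.mulVec_injective_iff_isUnit.mpr hM
  obtain ⟨c', hc'⟩ := Matrix.mulVec_surjective_iff_isUnit.mpr hM f
  -- the coefficients are Galois invariant
  have hfix : ∀ (σ : lgField q j ≃ₐ[lgField q (j.comp (algebraMap K L))] lgField q j) k,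
      σ (c' k) = c' k := by
    intro σ
    have h1 : (lgtMatrix (K := K) q j).mulVec (fun k => σ (c' k)) = f := by
      funext g'
      obtain ⟨g, rfl⟩ : ∃ g, r σ * g = g' := ⟨(r σ)⁻¹ * g', by group⟩
      rw [hf σ (r σ) g (hr σ), ← hc']
      simp only [Matrix.mulVec, dotProduct, lgtMatrix, Matrix.of_apply, map_sum, map_mul]
      refine Finset.sum_congr rfl (fun k _ => ?_)
      rw [← hr]
      rfl
    have h2 := hinj (h1.trans hc'.symm)
    exact fun k => congrFun h2 k
  haveI : IsGalois (lgField q (j.comp (algebraMap K L))) (lgField q j) := lg_isGalois q j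
  have hmem : ∀ k, ∃ c : lgField q (j.comp (algebraMap K L)),
      algebraMap (lgField q (j.comp (algebraMap K L))) (lgField q j) c = c' k := by
    intro k
    exact (IsGalois.mem_range_algebraMap_iff_fixed (c' k)).mpr (fun σ => hfix σ k)
  choose c hc using hmem
  refine ⟨∑ k, lgtBasis (K := K) (L := L) k ⊗ₜ[K] c k, ?_⟩
  rw [lgtCoind_sum, ← hc']
  congr 1
  funext k
  exact hc k

/-- Relative Galois form (choice free): `L ⊗[K] K_i` is the algebra of `D_j`-equivariant functions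
`Gal(L/K) → L_j`, `x ⊗ c ↦ (g ↦ c • j (g x))`; `Gal(L/K)` acts by right translation. -/
theorem lg_exists_tensorCoind (j : L →+* PadicAlgCl q) :
    letI : Algebra K (lgField q (j.comp (algebraMap K L))) := lgAlgebra q (j.comp (algebraMap K L))
    ∃ Ψ : (L ⊗[K] lgField q (j.comp (algebraMap K L))) →+* ((L ≃ₐ[K] L) → lgField q j),
      (∀ (x : L) (c : lgField q (j.comp (algebraMap K L))) (g : L ≃ₐ[K] L),
        Ψ (x ⊗ₜ[K] c) g = algebraMap _ (lgField q j) c * lgEmb q j (g x)) ∧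
      Function.Injective Ψ ∧
      ∀ f : (L ≃ₐ[K] L) → lgField q j, f ∈ Ψ.range ↔
        ∀ (σ : lgField q j ≃ₐ[lgField q (j.comp (algebraMap K L))] lgField q j)
          (d g : L ≃ₐ[K] L), (∀ x, lgEmb q j (d x) = σ (lgEmb q j x)) → f (d * g) = σ (f g) := by
  refine ⟨(lgtCoind (K := K) q j).toRingHom, fun x c g => lgtCoind_tmul q j x c g,
    lgtCoind_injective q j, fun f => ⟨?_, fun hf => ?_⟩⟩
  · rintro ⟨z, rfl⟩ σ d g hd
    exact lgtCoind_equivariant q j z σ d g hd
  · obtain ⟨z, hz⟩ := lgtCoind_surjective q j f hf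
    exact ⟨z, hz⟩

end LGTRel

theorem lgt_bijective {G Γ : Type*} [Group G] [Group Γ] (r : Γ →* G)
    (hr : Function.Injective r) (T : Finset G)
    (hT : ∀ g : G, ∃! t, t ∈ T ∧ g * t⁻¹ ∈ r.range) :
    Function.Bijective (fun p : Γ × T => r p.1 * (p.2 : G)) := by
  constructor
  · rintro ⟨σ, t⟩ ⟨σ', t'⟩ h
    simp only at h
    obtain ⟨t₀, _, huniq⟩ := hT (r σ * (t : G))
    have h1 : (t : G) = t₀ := huniq t ⟨t.2, by simp⟩
    have h2 : (t' : G) = t₀ := huniq t' ⟨t'.2, by rw [h]; simp⟩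
    have htt : t = t' := Subtype.ext (h1.trans h2.symm)
    subst htt
    have : r σ = r σ' := mul_right_cancel h
    rw [hr this]
  · intro g
    obtain ⟨t, ⟨htT, σ, hσ⟩, _⟩ := hT g
    refine ⟨(σ, ⟨t, htT⟩), ?_⟩
    simp only
    rw [hσ]
    group

theorem lgt_prod_eq {G Γ M : Type*} [Group G] [Fintype G] [Group Γ] [Fintype Γ] [CommMonoid M]
    (r : Γ →* G) (hr : Function.Injective r) (T : Finset G)
    (hT : ∀ g : G, ∃! t, t ∈ T ∧ g * t⁻¹ ∈ r.range) (F : G → M) :
    ∏ g, F g = ∏ t ∈ T, ∏ σ : Γ, F (r σ * t) := by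
  rw [← Fintype.prod_bijective _ (lgt_bijective r hr T hT) (fun p => F (r p.1 * (p.2 : G))) F
    (fun _ => rfl), Fintype.prod_prod_type_right, ← Finset.prod_coe_sort T]

theorem lgt_sum_eq {G Γ M : Type*} [Group G] [Fintype G] [Group Γ] [Fintype Γ] [AddCommMonoid M]
    (r : Γ →* G) (hr : Function.Injective r) (T : Finset G)
    (hT : ∀ g : G, ∃! t, t ∈ T ∧ g * t⁻¹ ∈ r.range) (F : G → M) :
    ∑ g, F g = ∑ t ∈ T, ∑ σ : Γ, F (r σ * t) := by
  rw [← Fintype.sum_bijective _ (lgt_bijective r hr T hT) (fun p => F (r p.1 * (p.2 : G))) F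
    (fun _ => rfl), Fintype.sum_prod_type_right, ← Finset.sum_coe_sort T]

section LGTNorm

variable (q : ℕ) [Fact q.Prime] {K : Type*} [Field K] [NumberField K]
  {L : Type*} [Field L] [NumberField L] [Algebra K L]

/-- The image of an integer under an automorphism, as an integer. -/
def lgtInt (g : L ≃ₐ[K] L) (x : 𝓞 L) : 𝓞 L :=
  ⟨g x, map_isIntegral_int g.toAlgHom.toRingHom.toIntAlgHom x.2⟩

@[simp] theorem lgtInt_coe (g : L ≃ₐ[K] L) (x : 𝓞 L) : ((lgtInt g x : 𝓞 L) : L) = g (x : L) := rfl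

theorem lgt_comp_apply (j : L →+* PadicAlgCl q) (g : L ≃ₐ[K] L) (x : L) :
    (j.comp (g : L →+* L)) x = j (g x) := rfl

theorem lgt_mem_lgPlace_comp (j : L →+* PadicAlgCl q) (g : L ≃ₐ[K] L) (x : 𝓞 L) :
    x ∈ (lgPlace q (j.comp (g : L →+* L))).asIdeal ↔ lgtInt g x ∈ (lgPlace q j).asIdeal := by
  rw [lgPlace_asIdeal, lgPlace_asIdeal, mem_lgIdeal_iff, mem_lgIdeal_iff]
  rfl

theorem lgt_lgPlace_eq_of_le (j j' : L →+* PadicAlgCl q)
    (h : (lgPlace q j).asIdeal ≤ (lgPlace q j').asIdeal) : lgPlace q j = lgPlace q j' := by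
  apply HeightOneSpectrum.ext
  have hmax : (lgPlace q j).asIdeal.IsMaximal := (lgPlace q j).isMaximal
  exact hmax.eq_of_le (lgPlace q j').isPrime.ne_top h

/-- `j ∘ t` and `j ∘ g` induce the same place iff `g t⁻¹` stabilises the place of `j`. -/
theorem lgt_lgPlace_comp_eq_iff (j : L →+* PadicAlgCl q) (t g : L ≃ₐ[K] L) :
    lgPlace q (j.comp (t : L →+* L)) = lgPlace q (j.comp (g : L →+* L)) ↔
      ∀ x : 𝓞 L, x ∈ (lgPlace q j).asIdeal → lgtInt (g * t⁻¹) x ∈ (lgPlace q j).asIdeal := by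
  constructor
  · intro h x hx
    have h1 : lgtInt t⁻¹ x ∈ (lgPlace q (j.comp (t : L →+* L))).asIdeal := by
      rw [lgt_mem_lgPlace_comp]
      have : lgtInt t (lgtInt t⁻¹ x) = x := by
        apply Subtype.ext
        change t (t⁻¹ (x : L)) = x
        exact t.apply_symm_apply _
      rwa [this]
    rw [h, lgt_mem_lgPlace_comp] at h1
    exact h1
  · intro h
    apply lgt_lgPlace_eq_of_le
    intro y hy
    rw [lgt_mem_lgPlace_comp] at hy ⊢
    have h1 := h _ hy
    have : lgtInt (g * t⁻¹) (lgtInt t y) = lgtInt g y := by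
      apply Subtype.ext
      change g (t⁻¹ (t (y : L))) = g y
      congr 1
      exact t.symm_apply_apply _
    rwa [this] at h1

/-- Translation of the hypothesis on `T` into group theory. -/
theorem lgt_hT [IsGalois K L] (j : L →+* PadicAlgCl q) (T : Finset (L ≃ₐ[K] L))
    (hT : ∀ g : L ≃ₐ[K] L, ∃! t, t ∈ T ∧
      lgPlace q (j.comp (t : L →+* L)) = lgPlace q (j.comp (g : L →+* L)))
    (r : (lgField q j ≃ₐ[lgField q (j.comp (algebraMap K L))] lgField q j) →* (L ≃ₐ[K] L))
    (hr2 : ∀ g : L ≃ₐ[K] L, g ∈ r.range ↔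
        ∀ x : 𝓞 L, x ∈ (lgPlace q j).asIdeal →
          (⟨g x, map_isIntegral_int g.toAlgHom.toRingHom.toIntAlgHom x.2⟩ : 𝓞 L) ∈
            (lgPlace q j).asIdeal) :
    ∀ g : L ≃ₐ[K] L, ∃! t, t ∈ T ∧ g * t⁻¹ ∈ r.range := by
  intro g
  refine (existsUnique_congr (fun t => ?_)).mp (hT g)
  rw [lgt_lgPlace_comp_eq_iff, hr2]
  rfl

theorem lg_norm_eq_prod [IsGalois K L] (j : L →+* PadicAlgCl q) (T : Finset (L ≃ₐ[K] L))
    (hT : ∀ g : L ≃ₐ[K] L, ∃! t, t ∈ T ∧ lgPlace q (j.comp (t : L →+* L)) = lgPlace q (j.comp (g : L →+* L)))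
    (x : L) :
    lgEmb q (j.comp (algebraMap K L)) (Algebra.norm K x) =
      ∏ t ∈ T, Algebra.norm (lgField q (j.comp (algebraMap K L))) (lgEmb q j (t x)) := by
  obtain ⟨r, hr, hrinj, -, hr2⟩ := lg_exists_res (K := K) q j
  have hT' := lgt_hT q j T hT r hr2
  haveI : IsGalois (lgField q (j.comp (algebraMap K L))) (lgField q j) := lg_isGalois q j
  apply (algebraMap (lgField q (j.comp (algebraMap K L))) (lgField q j)).injective
  rw [← lgEmb_algebraMap, Algebra.norm_eq_prod_automorphisms, map_prod, map_prod,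
    lgt_prod_eq r hrinj T hT']
  refine Finset.prod_congr rfl (fun t _ => ?_)
  rw [Algebra.norm_eq_prod_automorphisms]
  refine Finset.prod_congr rfl (fun σ _ => ?_)
  rw [← hr]
  rfl

theorem lg_trace_eq_sum [IsGalois K L] (j : L →+* PadicAlgCl q) (T : Finset (L ≃ₐ[K] L))
    (hT : ∀ g : L ≃ₐ[K] L, ∃! t, t ∈ T ∧ lgPlace q (j.comp (t : L →+* L)) = lgPlace q (j.comp (g : L →+* L)))
    (x : L) :
    lgEmb q (j.comp (algebraMap K L)) (Algebra.trace K L x) =
      ∑ t ∈ T, Algebra.trace (lgField q (j.comp (algebraMap K L))) (lgField q j) (lgEmb q j (t x)) := by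
  obtain ⟨r, hr, hrinj, -, hr2⟩ := lg_exists_res (K := K) q j
  have hT' := lgt_hT q j T hT r hr2
  haveI : IsGalois (lgField q (j.comp (algebraMap K L))) (lgField q j) := lg_isGalois q j
  apply (algebraMap (lgField q (j.comp (algebraMap K L))) (lgField q j)).injective
  rw [← lgEmb_algebraMap, trace_eq_sum_automorphisms, map_sum, map_sum,
    lgt_sum_eq r hrinj T hT']
  refine Finset.sum_congr rfl (fun t _ => ?_)
  rw [trace_eq_sum_automorphisms]
  refine Finset.sum_congr rfl (fun σ _ => ?_)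
  rw [← hr]
  rfl

end LGTNorm

end Fermat.Agent.S55
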