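/-
S55 / LG layer: all leaf specs.
-/
import Fermat.Agent.S55.LG.DenseSpec
import Fermat.Agent.S55.LG.PlaceSpec
import Fermat.Agent.S55.LG.ExistsSpec
import Fermat.Agent.S55.LG.DecompSpec
import Fermat.Agent.S55.LG.TensorSpec
import Fermat.Agent.S55.LG.ApproxSpec
import Fermat.Agent.S55.LG.QbarSpec
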