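/-
S55 / LG layer, GLUE between the three level structures on the local Galois group
`Gal(ℚ̄_q/ℚ_q)`:
* (G1) `levelsAll.comap (localGaloisToGlobal q) = lbLevels q` (levels pulled back from `Gal(ℚ̄/ℚ)` =
  fixing subgroups of finite extensions of `ℚ_q`; Krasner), also for `primeLocalToGlobal`;
* (G2) the cyclotomic character restricted to the local group is a `μ_p`-representation in the
  sense of `IsMuRep` (helper22's LocalBridge).
Helper lemmas are prefixed `lgql_`.
-/
import Mathlib
import Fermat.Agent.S55.LG.QbarKrasner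
import Fermat.Agent.S55.LocalBridgeDefs
import Fermat.Agent.S55.Bridge.Levels
import Fermat.Agent.S55.Top.Ind
import Fermat.Agent.S14.PlumbAction

set_option autoImplicit false
set_option linter.unusedSectionVars false
set_option linter.style.haveILetI false

noncomputable section

namespace Fermat.Agent.S55

open ExtCitation

/-- Two level structures with the same levels are equal. -/
theorem lgql_levels_ext {G : Type*} [Group G] {𝓛 𝓛' : Levels G}
    (h : ∀ U, 𝓛.IsLevel U ↔ 𝓛'.IsLevel U) : 𝓛 = 𝓛' := by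
  cases 𝓛
  cases 𝓛'
  congr
  funext U
  exact propext (h U)

section G1

variable (q : ℕ) [Fact q.Prime]

/-- The levels of `Gal(ℚ̄_q/ℚ_q)` pulled back from `Gal(ℚ̄/ℚ)` are the fixing subgroups of the finite
extensions of `ℚ_q`. -/
theorem lg_isLevel_comap_iff (U : Subgroup (lbGal q)) :
    (levelsAll.comap (localGaloisToGlobal q)).IsLevel U ↔ (lbLevels q).IsLevel U := by
  constructor
  · rintro ⟨_, ⟨F, hF, rfl⟩, rfl⟩
    haveI : NumberField F := { to_charZero := inferInstance, to_finiteDimensional := hF }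
    refine ⟨lgField q (lgEmbQbar q F), inferInstance, ?_⟩
    ext τ
    rw [Subgroup.mem_comap, localGaloisToGlobal_mem_fixingSubgroup_iff,
      IntermediateField.mem_fixingSubgroup_iff]
  · rintro ⟨E, hE, rfl⟩
    obtain ⟨F, hF, rfl⟩ := lg_exists_numberField_eq q E
    refine ⟨F.fixingSubgroup, ⟨F, inferInstance, rfl⟩, ?_⟩
    ext τ
    rw [Subgroup.mem_comap, localGaloisToGlobal_mem_fixingSubgroup_iff,
      IntermediateField.mem_fixingSubgroup_iff]

/-- (G1) -/
theorem lg_levelsAll_comap_localGaloisToGlobal :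
    levelsAll.comap (localGaloisToGlobal q) = lbLevels q :=
  lgql_levels_ext (lg_isLevel_comap_iff q)

end G1

/-- (G1) for the Prelude's `primeLocalToGlobal`. -/
theorem lg_levelsAll_comap_primeLocalToGlobal (q : Nat.Primes) :
    haveI : Fact (q : ℕ).Prime := ⟨q.2⟩
    (levelsAll.comap (primeLocalToGlobal q) : Levels (primeLocalGaloisGroup q)) =
      lbLevels (q : ℕ) :=
  haveI : Fact (q : ℕ).Prime := ⟨q.2⟩
  lg_levelsAll_comap_localGaloisToGlobal (q : ℕ)

section G2

variable (q : ℕ) [Fact q.Prime] (p : ℕ) [Fact p.Prime]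

/-- (G2) The mod `p` cyclotomic character restricted to (a subgroup of) the local Galois group
acts on `μ_p = ⟨ζ⟩`, `ζ = padicEmbedding q ζ₀`, as an `IsMuRep`. -/
theorem lg_isMuRep_cycloChar (ζ₀ : AlgebraicClosure ℚ) (hζ₀ : ζ₀ ^ p = 1)
    (V : Subgroup (lbGal q)) :
    IsMuRep (padicEmbedding q ζ₀) V
      (((chiRep (cycloChar p)).comp (localGaloisToGlobal q)).comp V.subtype) := by
  intro σ x
  have hζp : (padicEmbedding q ζ₀) ^ p = 1 := by rw [← map_pow, hζ₀, map_one]
  have h1 : (σ : lbGal q) (padicEmbedding q ζ₀) =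
      padicEmbedding q ζ₀ ^ cycloExp p (localGaloisToGlobal q (σ : lbGal q)) := by
    rw [← padicEmbedding_localGaloisToGlobal,
      Fermat.Agent.S14.plumb_cycloExp_spec p (localGaloisToGlobal q (σ : lbGal q)) hζ₀, map_pow]
  have h2 : ((((chiRep (cycloChar p)).comp (localGaloisToGlobal q)).comp V.subtype) σ) x =
      ((cycloChar p (localGaloisToGlobal q (σ : lbGal q)) : (ZMod p)ˣ) : ZMod p) * x := by
    simp [chiRep_apply]
  rw [h2, map_pow, h1, ZMod.val_mul, ← pow_eq_pow_mod _ hζp, val_cycloChar, pow_mul]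

end G2

/-- (G1) for the local system of the frozen statement. -/
theorem lg_locSysS_lev (S : Finset Nat.Primes) (q : ↥S) :
    haveI : Fact ((q.1 : Nat.Primes) : ℕ).Prime := ⟨q.1.2⟩
    ((locSysS S).lev q : Levels (primeLocalGaloisGroup q.1)) = lbLevels ((q.1 : Nat.Primes) : ℕ) :=
  lg_levelsAll_comap_primeLocalToGlobal q.1

/-- (G2) for the Prelude's `primeLocalToGlobal`. -/
theorem lg_isMuRep_cycloChar_prime (q : Nat.Primes) (p : ℕ) [Fact p.Prime]
    (ζ₀ : AlgebraicClosure ℚ) (hζ₀ : ζ₀ ^ p = 1) :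
    haveI : Fact (q : ℕ).Prime := ⟨q.2⟩
    ∀ V : Subgroup (lbGal (q : ℕ)),
      IsMuRep (padicEmbedding (q : ℕ) ζ₀) V
        (((chiRep (cycloChar p)).comp (primeLocalToGlobal q)).comp V.subtype) :=
  haveI : Fact (q : ℕ).Prime := ⟨q.2⟩
  fun V => lg_isMuRep_cycloChar (q : ℕ) p ζ₀ hζ₀ V


end Fermat.Agent.S55
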