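/-
S55 / LG layer, GLUE for the assembly of `core_triv` (AS-GL): the arithmetic meaning of helper29's
Mackey local system `locSysMackey (locSysS S) H T` for `H = K'.fixingSubgroup`, `K' ⊆ ℚ̄` a number
field.  Nothing here mentions `locSysMackey` itself (only `mackeySub`, `mackeyHom`,
`IsDoubleCosetReps`), so the file is independent of the proof of `locSysMackey.cont`.

* `lgqmEmb q K' t : ↥K' →+* PadicAlgCl q`, `x ↦ padicEmbedding q (t⁻¹ x)`, the `t`-twisted embedding;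
* (GL-a) `lgqm_mackeySub_eq`: the Mackey subgroup `{γ | t r_q(γ) t⁻¹ ∈ H}` of the local Galois group
  is the fixing subgroup of the completion `lgField q (lgqmEmb q K' t)`;
* (GL-b) `lgqm_lgPlace_eq_iff(_locSysS)`: `t, t'` give the same place iff they lie in the same double
  coset; `lgqm_exists_lgPlace_eq`: every place above `q` occurs; `lgqm_place_injOn`,
  `lgqm_place_surj`: for double coset representatives `T`, `(q, t) ↦ lgPlace` is a bijection onto the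
  places of `K'` above `S`; `lgqm_exists_doubleCosetReps`: representatives exist;
* transport `lgqmH1Congr`, `lgqmH2Congr` of smooth cohomology along an equality of level structures,
  `lgqmInv q p ζ h𝓛 V ρ` = `lbInv` for a level structure propositionally equal to `lbLevels q`
  (`(locSysS S).lev q`, `lg_locSysS_lev`), `lgqmInv_mk`, `lgqmInv_injective`, `lgqmInv_surjective`;
* (GL-c) `lgqm_geRes_lbRes`: `sbRes (t r_q(σ) t⁻¹) = geRes (lbRes σ)`; `lgqm_geInv_eq_lgqmInv`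
  (general `V, r, ρ`), `lgqm_geInv_eq_locSysS` (cocycle form), `lgqm_geInv_eq_res` (class form,
  trivial coefficients): the invariant of the local restriction of `[c' ∘ sbRes]` at `w = (q, t)` is
  `p · geInv q (lgqmEmb q M t) (ζ^c')`; `lgqm_isMuRep_triv`.
Helper lemmas are prefixed `lgqm`.
-/
import Mathlib
import Fermat.Agent.S55.Asm.Spec
import Fermat.Agent.S55.LG.QbarLevels
import Fermat.Agent.S55.LG.Exists
import Fermat.Agent.S55.LG.Dense
import Fermat.Agent.S55.SB.Galois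
import Fermat.Agent.S55.LocalBridgeSpec
import Fermat.Agent.S55.Global.Recip.Defs

set_option autoImplicit false
set_option linter.unusedSectionVars false
set_option linter.style.haveILetI false

noncomputable section

namespace Fermat.Agent.S55

open NumberField ExtCitation

section GLa

variable (q : ℕ) [Fact q.Prime]

/-- The `t`-twisted `q`-adic embedding of a subfield of `ℚ̄`: `x ↦ padicEmbedding q (t⁻¹ x)`. -/
def lgqmEmb (K' : IntermediateField ℚ (AlgebraicClosure ℚ)) (t : GQ) : ↥K' →+* PadicAlgCl q :=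
  ((padicEmbedding q : AlgebraicClosure ℚ →ₐ[ℚ] PadicAlgCl q) : AlgebraicClosure ℚ →+* PadicAlgCl q).comp
    ((((t⁻¹ : GQ) : AlgebraicClosure ℚ ≃ₐ[ℚ] AlgebraicClosure ℚ) :
      AlgebraicClosure ℚ →+* AlgebraicClosure ℚ).comp (K'.val : ↥K' →+* AlgebraicClosure ℚ))

@[simp] theorem lgqmEmb_apply (K' : IntermediateField ℚ (AlgebraicClosure ℚ)) (t : GQ) (x : ↥K') :
    lgqmEmb q K' t x = padicEmbedding q ((t⁻¹ : GQ) (x : AlgebraicClosure ℚ)) := rfl

theorem lgqmEmb_one (K' : IntermediateField ℚ (AlgebraicClosure ℚ)) :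
    lgqmEmb q K' 1 = lgEmbQbar q K' := by
  ext x
  simp

/-- (GL-a), elementwise: `t r_q(τ) t⁻¹` fixes `K'` iff `τ` fixes the completion of `K'` at the
`t`-twisted embedding. -/
theorem lgqm_conj_mem_fixingSubgroup_iff (K' : IntermediateField ℚ (AlgebraicClosure ℚ))
    [NumberField K'] (t : GQ) (τ : lbGal q) :
    t * localGaloisToGlobal q τ * t⁻¹ ∈ K'.fixingSubgroup ↔
      τ ∈ (lgField q (lgqmEmb q K' t)).fixingSubgroup := by
  rw [IntermediateField.mem_fixingSubgroup_iff, IntermediateField.mem_fixingSubgroup_iff]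
  constructor
  · intro h y hy
    rw [lgField] at hy
    induction hy using IntermediateField.adjoin_induction with
    | mem y hy =>
      obtain ⟨x, rfl⟩ := hy
      have h1 := h (x : AlgebraicClosure ℚ) x.2
      rw [AlgEquiv.mul_apply, AlgEquiv.mul_apply] at h1
      have h2 : localGaloisToGlobal q τ ((t⁻¹ : GQ) (x : AlgebraicClosure ℚ)) =
          (t⁻¹ : GQ) (x : AlgebraicClosure ℚ) := by
        have := congrArg (t⁻¹ : GQ) h1
        rwa [← AlgEquiv.mul_apply, inv_mul_cancel, AlgEquiv.one_apply] at this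
      rw [lgqmEmb_apply, ← padicEmbedding_localGaloisToGlobal, h2]
    | algebraMap c => exact τ.commutes c
    | add x y _ _ hx hy => rw [map_add, hx, hy]
    | inv x _ hx => rw [map_inv₀, hx]
    | mul x y _ _ hx hy => rw [map_mul, hx, hy]
  · intro h x hx
    have h1 : localGaloisToGlobal q τ ((t⁻¹ : GQ) x) = (t⁻¹ : GQ) x := by
      apply lgq_padicEmbedding_injective q
      rw [padicEmbedding_localGaloisToGlobal]
      exact h _ (range_le_lgField q (lgqmEmb q K' t) ⟨x, hx⟩)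
    rw [AlgEquiv.mul_apply, AlgEquiv.mul_apply, h1, ← AlgEquiv.mul_apply, mul_inv_cancel,
      AlgEquiv.one_apply]

end GLa

/-! ## (GL-b) places of `K'` above `q` versus double cosets `H \ G_ℚ / r_q(Γ_q)` -/

section GLb

variable (q : ℕ) [Fact q.Prime]

local instance lgqm_isAlgebraicQbar : Algebra.IsAlgebraic ℚ (AlgebraicClosure ℚ) :=
  AlgebraicClosure.isAlgebraic ℚ
local instance lgqm_isAlgClosureQbar : IsAlgClosure ℚ (AlgebraicClosure ℚ) :=
  ⟨inferInstance, inferInstance⟩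
local instance lgqm_normalQbar : Normal ℚ (AlgebraicClosure ℚ) :=
  IsAlgClosure.normal ℚ (AlgebraicClosure ℚ)

/-- Every `q`-adic embedding of a number field `K' ⊆ ℚ̄` is a twisted embedding `lgqmEmb q K' t`. -/
theorem lgqm_exists_eq_lgqmEmb (K' : IntermediateField ℚ (AlgebraicClosure ℚ)) [NumberField K']
    (i : ↥K' →+* PadicAlgCl q) : ∃ t : GQ, lgqmEmb q K' t = i := by
  set i' : ↥K' →ₐ[ℚ] PadicAlgCl q := i.toRatAlgHom with hi'
  have hinj := lgq_padicEmbedding_injective q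
  set e := AlgEquiv.ofInjective (padicEmbedding q) hinj with he
  have hmem : ∀ x : ↥K', i' x ∈ (padicEmbedding q).range := by
    intro x
    have halg : IsAlgebraic ℚ (i' x) := (Algebra.IsAlgebraic.isAlgebraic x).algHom i'
    obtain ⟨b, hb⟩ := lgq_exists_of_isAlgebraic q (i' x) halg
    exact ⟨b, hb⟩
  set σ : ↥K' →ₐ[ℚ] AlgebraicClosure ℚ :=
    (e.symm : (padicEmbedding q).range →ₐ[ℚ] AlgebraicClosure ℚ).comp
      (i'.codRestrict (padicEmbedding q).range hmem) with hσ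
  have hσx : ∀ x : ↥K', padicEmbedding q (σ x) = i x := by
    intro x
    have h1 : padicEmbedding q (e.symm (i'.codRestrict (padicEmbedding q).range hmem x)) =
        ((e (e.symm (i'.codRestrict (padicEmbedding q).range hmem x)) :
          (padicEmbedding q).range) : PadicAlgCl q) :=
      (AlgEquiv.ofInjective_apply (padicEmbedding q) hinj _).symm
    rw [e.apply_symm_apply] at h1
    exact h1
  set g' : AlgebraicClosure ℚ →ₐ[ℚ] AlgebraicClosure ℚ := σ.liftNormal (AlgebraicClosure ℚ) with hg'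
  have hg'x : ∀ x : ↥K', g' (x : AlgebraicClosure ℚ) = σ x := fun x =>
    AlgHom.liftNormal_commutes σ (AlgebraicClosure ℚ) x
  set g : GQ := AlgEquiv.ofBijective g' (Algebra.IsAlgebraic.algHom_bijective g') with hg
  refine ⟨g⁻¹, ?_⟩
  ext x
  rw [lgqmEmb_apply, inv_inv, ← hσx x, ← hg'x x]
  rfl

/-- (GL-b1) Two twisted embeddings induce the same place iff `t, t'` are in the same double coset
`H t r_q(Γ_q)`. -/
theorem lgqm_lgPlace_eq_iff (K' : IntermediateField ℚ (AlgebraicClosure ℚ)) [NumberField K']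
    (t t' : GQ) :
    lgPlace q (lgqmEmb q K' t) = lgPlace q (lgqmEmb q K' t') ↔
      ∃ h ∈ K'.fixingSubgroup, ∃ γ : lbGal q, t' = h * t * localGaloisToGlobal q γ := by
  constructor
  · intro hpl
    obtain ⟨τ, hτ⟩ := (lgPlace_eq_iff q _ _).1 hpl
    have hx : ∀ x : ↥K', (t'⁻¹ : GQ) (x : AlgebraicClosure ℚ) =
        localGaloisToGlobal q τ ((t⁻¹ : GQ) (x : AlgebraicClosure ℚ)) := by
      intro x
      apply lgq_padicEmbedding_injective q
      rw [padicEmbedding_localGaloisToGlobal]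
      exact DFunLike.congr_fun hτ x
    refine ⟨t' * localGaloisToGlobal q τ * t⁻¹, ?_, τ⁻¹, ?_⟩
    · rw [IntermediateField.mem_fixingSubgroup_iff]
      intro x hx'
      rw [AlgEquiv.mul_apply, AlgEquiv.mul_apply, ← hx ⟨x, hx'⟩, ← AlgEquiv.mul_apply,
        mul_inv_cancel, AlgEquiv.one_apply]
    · rw [map_inv]
      group
  · rintro ⟨h, hh, γ, rfl⟩
    rw [IntermediateField.mem_fixingSubgroup_iff] at hh
    have : lgqmEmb q K' (h * t * localGaloisToGlobal q γ) =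
        ((γ⁻¹ : lbGal q) : PadicAlgCl q →+* PadicAlgCl q).comp (lgqmEmb q K' t) := by
      ext x
      have hinv : (h * t * localGaloisToGlobal q γ)⁻¹ =
          localGaloisToGlobal q γ⁻¹ * t⁻¹ * h⁻¹ := by
        rw [map_inv]
        group
      have hhx : (h⁻¹ : GQ) (x : AlgebraicClosure ℚ) = (x : AlgebraicClosure ℚ) := by
        have := hh (x : AlgebraicClosure ℚ) x.2
        conv_lhs => rw [← this]
        rw [← AlgEquiv.mul_apply, inv_mul_cancel, AlgEquiv.one_apply]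
      rw [lgqmEmb_apply, hinv, AlgEquiv.mul_apply, AlgEquiv.mul_apply, hhx,
        padicEmbedding_localGaloisToGlobal]
      rfl
    rw [this, lgPlace_comp_algEquiv]

/-- (GL-b2) Every place of `K'` above `q` is induced by a twisted embedding. -/
theorem lgqm_exists_lgPlace_eq (K' : IntermediateField ℚ (AlgebraicClosure ℚ)) [NumberField K']
    (w : IsDedekindDomain.HeightOneSpectrum (𝓞 K')) (hw : ((q : ℕ) : 𝓞 K') ∈ w.asIdeal) :
    ∃ t : GQ, lgPlace q (lgqmEmb q K' t) = w := by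
  obtain ⟨i, hi⟩ := exists_lgEmb q w hw
  obtain ⟨t, rfl⟩ := lgqm_exists_eq_lgqmEmb q K' i
  exact ⟨t, hi⟩

end GLb

/-! ## double coset representatives and places above `S` -/

section Reps

variable (S : Finset Nat.Primes) (K' : IntermediateField ℚ (AlgebraicClosure ℚ)) [NumberField K']

/-- (GL-b1) in the language of `locSysS S`. -/
theorem lgqm_lgPlace_eq_iff_locSysS (q : ↥S) (t t' : GQ) :
    haveI : Fact ((q.1 : Nat.Primes) : ℕ).Prime := ⟨q.1.2⟩
    lgPlace ((q.1 : Nat.Primes) : ℕ) (lgqmEmb ((q.1 : Nat.Primes) : ℕ) K' t) =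
        lgPlace ((q.1 : Nat.Primes) : ℕ) (lgqmEmb ((q.1 : Nat.Primes) : ℕ) K' t') ↔
      ∃ h ∈ K'.fixingSubgroup, ∃ γ : primeLocalGaloisGroup q.1, t' = h * t * (locSysS S).r q γ := by
  haveI : Fact ((q.1 : Nat.Primes) : ℕ).Prime := ⟨q.1.2⟩
  exact lgqm_lgPlace_eq_iff ((q.1 : Nat.Primes) : ℕ) K' t t'

variable {S K'}

/-- Distinct representatives induce distinct places. -/
theorem lgqm_place_injOn {T : ↥S → Finset GQ}
    (hT : IsDoubleCosetReps (locSysS S) K'.fixingSubgroup T) (q : ↥S) {t t' : GQ}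
    (ht : t ∈ T q) (ht' : t' ∈ T q) :
    haveI : Fact ((q.1 : Nat.Primes) : ℕ).Prime := ⟨q.1.2⟩
    lgPlace ((q.1 : Nat.Primes) : ℕ) (lgqmEmb ((q.1 : Nat.Primes) : ℕ) K' t) =
        lgPlace ((q.1 : Nat.Primes) : ℕ) (lgqmEmb ((q.1 : Nat.Primes) : ℕ) K' t') → t = t' := by
  haveI : Fact ((q.1 : Nat.Primes) : ℕ).Prime := ⟨q.1.2⟩
  intro h
  obtain ⟨h₀, hh₀, γ, hγ⟩ := (lgqm_lgPlace_eq_iff_locSysS S K' q t t').1 h
  obtain ⟨s, -, hs⟩ := hT q t'
  have h1 : t = s := hs t ⟨ht, h₀, hh₀, γ, hγ⟩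
  have h2 : t' = s := hs t' ⟨ht', 1, one_mem _, 1, by rw [map_one, one_mul, mul_one]⟩
  rw [h1, h2]

/-- Every place of `K'` above `q ∈ S` is induced by a representative. -/
theorem lgqm_place_surj {T : ↥S → Finset GQ}
    (hT : IsDoubleCosetReps (locSysS S) K'.fixingSubgroup T) (q : ↥S)
    (w : IsDedekindDomain.HeightOneSpectrum (𝓞 K'))
    (hw : ((((q.1 : Nat.Primes) : ℕ) : ℕ) : 𝓞 K') ∈ w.asIdeal) :
    haveI : Fact ((q.1 : Nat.Primes) : ℕ).Prime := ⟨q.1.2⟩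
    ∃ t ∈ T q, lgPlace ((q.1 : Nat.Primes) : ℕ) (lgqmEmb ((q.1 : Nat.Primes) : ℕ) K' t) = w := by
  haveI : Fact ((q.1 : Nat.Primes) : ℕ).Prime := ⟨q.1.2⟩
  obtain ⟨g, hg⟩ := lgqm_exists_lgPlace_eq ((q.1 : Nat.Primes) : ℕ) K' w hw
  obtain ⟨t, ⟨ht, h₀, hh₀, γ, hγ⟩, -⟩ := hT q g
  refine ⟨t, ht, ?_⟩
  rw [← hg]
  exact (lgqm_lgPlace_eq_iff_locSysS S K' q t g).2 ⟨h₀, hh₀, γ, hγ⟩

variable (S K')

/-- Double coset representatives exist (one for each place of `K'` above `q`). -/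
theorem lgqm_exists_doubleCosetReps :
    ∃ T : ↥S → Finset GQ, IsDoubleCosetReps (locSysS S) K'.fixingSubgroup T := by
  classical
  -- a representative for each place
  have hrep : ∀ (q : ↥S),
      haveI : Fact ((q.1 : Nat.Primes) : ℕ).Prime := ⟨q.1.2⟩
      ∀ w : LgPlacesOver ((q.1 : Nat.Primes) : ℕ) ↥K', ∃ t : GQ,
        lgPlace ((q.1 : Nat.Primes) : ℕ) (lgqmEmb ((q.1 : Nat.Primes) : ℕ) K' t) = w.1 := by
    intro q
    haveI : Fact ((q.1 : Nat.Primes) : ℕ).Prime := ⟨q.1.2⟩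
    intro w
    exact lgqm_exists_lgPlace_eq ((q.1 : Nat.Primes) : ℕ) K' w.1 w.2
  choose tw htw using hrep
  refine ⟨fun q =>
    haveI : Fact ((q.1 : Nat.Primes) : ℕ).Prime := ⟨q.1.2⟩
    (Set.finite_range (tw q)).toFinset, ?_⟩
  intro q g
  haveI : Fact ((q.1 : Nat.Primes) : ℕ).Prime := ⟨q.1.2⟩
  set wg : LgPlacesOver ((q.1 : Nat.Primes) : ℕ) ↥K' :=
    lgPlaceOver ((q.1 : Nat.Primes) : ℕ) (lgqmEmb ((q.1 : Nat.Primes) : ℕ) K' g) with hwg
  refine ⟨tw q wg, ⟨(Set.Finite.mem_toFinset _).2 ⟨wg, rfl⟩, ?_⟩, ?_⟩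
  · exact (lgqm_lgPlace_eq_iff_locSysS S K' q (tw q wg) g).1 (htw q wg)
  · rintro s ⟨hs, hdc⟩
    obtain ⟨w, rfl⟩ := (Set.Finite.mem_toFinset _).1 hs
    have h1 := (lgqm_lgPlace_eq_iff_locSysS S K' q (tw q w) g).2 hdc
    rw [htw q w] at h1
    have h2 : w = wg := Subtype.ext h1
    rw [h2]

end Reps

/-- (GL-a) The Mackey subgroup of the local Galois group at `q ∈ S` attached to
`H = K'.fixingSubgroup` and `t` is the (open) subgroup fixing the completion of `K'` at the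
`t`-twisted embedding. -/
theorem lgqm_mackeySub_eq (S : Finset Nat.Primes) (q : ↥S)
    (K' : IntermediateField ℚ (AlgebraicClosure ℚ)) [NumberField K'] (t : GQ) :
    haveI : Fact ((q.1 : Nat.Primes) : ℕ).Prime := ⟨q.1.2⟩
    (mackeySub ((locSysS S).r q) K'.fixingSubgroup t : Subgroup (primeLocalGaloisGroup q.1)) =
      (lgField ((q.1 : Nat.Primes) : ℕ) (lgqmEmb ((q.1 : Nat.Primes) : ℕ) K' t)).fixingSubgroup := by
  haveI : Fact ((q.1 : Nat.Primes) : ℕ).Prime := ⟨q.1.2⟩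
  ext τ
  rw [mem_mackeySub]
  exact lgqm_conj_mem_fixingSubgroup_iff ((q.1 : Nat.Primes) : ℕ) K' t τ

/-! ## transport of smooth cohomology along an equality of level structures -/

section Transport

variable {k : Type*} [CommRing k] {G : Type*} [Group G] {V : Type*} [AddCommGroup V] [Module k V]

/-- `H¹` for two equal level structures. -/
def lgqmH1Congr {𝓛 𝓛' : Levels G} (h : 𝓛 = 𝓛') (ρ : Representation k G V) :
    smH1 𝓛 ρ ≃ₗ[k] smH1 𝓛' ρ :=
  h ▸ LinearEquiv.refl k _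

theorem lgqmH1Congr_mk {𝓛 𝓛' : Levels G} (h : 𝓛 = 𝓛') (ρ : Representation k G V)
    (z : G → V) (hz : z ∈ smZ1 𝓛 ρ) :
    lgqmH1Congr h ρ (smH1π 𝓛 ρ ⟨z, hz⟩) = smH1π 𝓛' ρ ⟨z, h ▸ hz⟩ := by
  subst h
  rfl

/-- `H²` for two equal level structures. -/
def lgqmH2Congr {𝓛 𝓛' : Levels G} (h : 𝓛 = 𝓛') (ρ : Representation k G V) :
    smH2 𝓛 ρ ≃ₗ[k] smH2 𝓛' ρ :=
  h ▸ LinearEquiv.refl k _

theorem lgqmH2Congr_mk {𝓛 𝓛' : Levels G} (h : 𝓛 = 𝓛') (ρ : Representation k G V)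
    (z : G × G → V) (hz : z ∈ smZ2 𝓛 ρ) :
    lgqmH2Congr h ρ (smH2π 𝓛 ρ ⟨z, hz⟩) = smH2π 𝓛' ρ ⟨z, h ▸ hz⟩ := by
  subst h
  rfl

end Transport

/-! ## (GL-c) restriction to the local group at `w = (q, t)` = localisation `geLocLG` -/

section LbInvMk

variable {q : ℕ} [Fact q.Prime] {p : ℕ} [Fact p.Prime] {ζ : PadicAlgCl q}

/-- `lbInv_mk` for a subgroup `V` which is only propositionally equal to `E.fixingSubgroup` and a
cochain `z` which is only propositionally of the form `c' ∘ lbRes`. -/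
theorem lgqm_lbInv_mk (hζ : IsPrimitiveRoot ζ p)
    {E M : IntermediateField ℚ_[q] (PadicAlgCl q)} (h : E ≤ M)
    [FiniteDimensional ℚ_[q] E] [FiniteDimensional ℚ_[q] M]
    (hg : letI := lbAlgebra h; IsGalois ↥E ↥M)
    (ζM : (↥M)ˣ) (hζM : ((ζM : ↥M) : PadicAlgCl q) = ζ)
    (V : Subgroup (lbGal q)) (hV : V = E.fixingSubgroup)
    (ρ : Representation (ZMod p) ↥V (ZMod p)) (hρ : IsMuRep ζ V ρ)
    (c' : (letI := lbAlgebra h; (↥M ≃ₐ[↥E] ↥M) × (↥M ≃ₐ[↥E] ↥M)) → ZMod p)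
    (z : ↥V × ↥V → ZMod p)
    (hz : ∀ s : ↥V × ↥V, z s =
      c' (lbRes h hg.to_normal ⟨(s.1 : lbGal q), hV ▸ s.1.2⟩,
        lbRes h hg.to_normal ⟨(s.2 : lbGal q), hV ▸ s.2.2⟩))
    (hc : z ∈ smZ2 ((lbLevels q).sub V) ρ) :
    letI := lbAlgebra h
    haveI := lb_isScalarTower_bot h
    localInv q ↥E ↥M (lbMulCochain ζM c') =
      (((((lbInv q p ζ V ρ (smH2π ((lbLevels q).sub V) ρ ⟨z, hc⟩)).val : ℕ) : ℚ) / (p : ℚ) : ℚ)) := by
  subst hV
  have hz' : z = fun s : ↥E.fixingSubgroup × ↥E.fixingSubgroup =>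
      c' (lbRes h hg.to_normal s.1, lbRes h hg.to_normal s.2) := funext hz
  subst hz'
  exact lbInv_mk hζ h hg ζM hζM ρ hρ c' hc

/-- The invariant on `H²` of an open subgroup `V` of the local Galois group, for a level structure
`𝓛` which is (propositionally) `lbLevels q`, e.g. `(locSysS S).lev q` (`lg_locSysS_lev`). -/
def lgqmInv (q : ℕ) [Fact q.Prime] (p : ℕ) [Fact p.Prime] (ζ : PadicAlgCl q)
    {𝓛 : Levels (lbGal q)} (h𝓛 : 𝓛 = lbLevels q) (V : Subgroup (lbGal q))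
    (ρ : Representation (ZMod p) ↥V (ZMod p)) : smH2 (𝓛.sub V) ρ →ₗ[ZMod p] ZMod p :=
  (lbInv q p ζ V ρ).comp
    (lgqmH2Congr (congrArg (fun 𝓛' : Levels (lbGal q) => 𝓛'.sub V) h𝓛) ρ).toLinearMap

theorem lgqmInv_mk {𝓛 : Levels (lbGal q)} (h𝓛 : 𝓛 = lbLevels q) (V : Subgroup (lbGal q))
    (ρ : Representation (ZMod p) ↥V (ZMod p)) (z : ↥V × ↥V → ZMod p) (hz : z ∈ smZ2 (𝓛.sub V) ρ) :
    lgqmInv q p ζ h𝓛 V ρ (smH2π (𝓛.sub V) ρ ⟨z, hz⟩) =
      lbInv q p ζ V ρ (smH2π ((lbLevels q).sub V) ρ ⟨z, h𝓛 ▸ hz⟩) := by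
  subst h𝓛
  rfl

theorem lgqmInv_injective (hζ : IsPrimitiveRoot ζ p) {𝓛 : Levels (lbGal q)} (h𝓛 : 𝓛 = lbLevels q)
    (V : Subgroup (lbGal q)) (hV : 𝓛.IsOpen V) (ρ : Representation (ZMod p) ↥V (ZMod p))
    (hρ : IsMuRep ζ V ρ) : Function.Injective (lgqmInv q p ζ h𝓛 V ρ) := by
  subst h𝓛
  exact lbInv_injective hζ V hV ρ hρ

theorem lgqmInv_surjective (hζ : IsPrimitiveRoot ζ p) {𝓛 : Levels (lbGal q)} (h𝓛 : 𝓛 = lbLevels q)
    (V : Subgroup (lbGal q)) (hV : 𝓛.IsOpen V) (ρ : Representation (ZMod p) ↥V (ZMod p))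
    (hρ : IsMuRep ζ V ρ) : Function.Surjective (lgqmInv q p ζ h𝓛 V ρ) := by
  subst h𝓛
  exact lbInv_surjective hζ V hV ρ hρ

end LbInvMk

section GLc

variable (q : ℕ) [Fact q.Prime] {K' M : IntermediateField ℚ (AlgebraicClosure ℚ)}
  [NumberField K'] [NumberField M]

/-- The twisted embedding of `M ⊇ K'` restricts to the twisted embedding of `K'`. -/
theorem lgqmEmb_comp (h : K' ≤ M) (t : GQ) :
    letI := sbAlgebra h
    (lgqmEmb q M t).comp (algebraMap ↥K' ↥M) = lgqmEmb q K' t := rfl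

theorem lgqm_lgPlace_comp (h : K' ≤ M) (t : GQ) :
    letI := sbAlgebra h
    lgPlace q ((lgqmEmb q M t).comp (algebraMap ↥K' ↥M)) = lgPlace q (lgqmEmb q K' t) := rfl

/-- (GL-a) for the base field of the completion of `M/K'` at the `t`-twisted embedding. -/
theorem lgqm_conj_mem_fixingSubgroup_iff' (h : K' ≤ M) (t : GQ) (τ : lbGal q) :
    letI := sbAlgebra h
    t * localGaloisToGlobal q τ * t⁻¹ ∈ K'.fixingSubgroup ↔
      τ ∈ (lgField q ((lgqmEmb q M t).comp (algebraMap ↥K' ↥M))).fixingSubgroup :=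
  lgqm_conj_mem_fixingSubgroup_iff q K' t τ

/-- The completion of a Galois layer `M/K'` at the `t`-twisted embedding is Galois. -/
theorem lgqm_isGalois (h : K' ≤ M) (hg : letI := sbAlgebra h; IsGalois ↥K' ↥M) (t : GQ) :
    letI := sbAlgebra h
    letI := lbAlgebra (lgField_comp_le (K := ↥K') q (lgqmEmb q M t))
    IsGalois (lgField q ((lgqmEmb q M t).comp (algebraMap ↥K' ↥M))) (lgField q (lgqmEmb q M t)) := by
  letI := sbAlgebra h
  haveI := hg
  exact lg_isGalois q (lgqmEmb q M t)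

/-- (GL-c), group level: the global restriction `sbRes` of the conjugate `t r_q(σ) t⁻¹` is the
`geRes`-restriction (along the completion at the `t`-twisted embedding) of the local restriction
`lbRes σ`. -/
theorem lgqm_geRes_lbRes (h : K' ≤ M) (hg : letI := sbAlgebra h; IsGalois ↥K' ↥M) (t : GQ)
    (σ : lbGal q) (hσ : t * localGaloisToGlobal q σ * t⁻¹ ∈ K'.fixingSubgroup) :
    letI := sbAlgebra h
    geRes (K := ↥K') (lgEmb q (lgqmEmb q M t))
        (lbRes (lgField_comp_le (K := ↥K') q (lgqmEmb q M t)) (lgqm_isGalois q h hg t).to_normal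
          ⟨σ, (lgqm_conj_mem_fixingSubgroup_iff' q h t σ).1 hσ⟩) =
      sbRes h hg.to_normal ⟨t * localGaloisToGlobal q σ * t⁻¹, hσ⟩ := by
  letI := sbAlgebra h
  apply geRes_eq_of_spec
  intro x
  apply Subtype.ext
  rw [lgEmb_coe, lbRes_apply, lgEmb_coe, lgqmEmb_apply, lgqmEmb_apply, sbRes_apply]
  show padicEmbedding q ((t⁻¹ : GQ) ((t * localGaloisToGlobal q σ * t⁻¹ : GQ)
    (x : AlgebraicClosure ℚ))) = _
  rw [← padicEmbedding_localGaloisToGlobal, AlgEquiv.mul_apply, AlgEquiv.mul_apply,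
    ← AlgEquiv.mul_apply (t⁻¹ : GQ) t, inv_mul_cancel, AlgEquiv.one_apply]

/-- (GL-c), MAIN: for a finite Galois layer `M/K'` in `ℚ̄`, `t ∈ G_ℚ`, a subgroup `V` of the local
Galois group with a hom `r : V → H = K'.fixingSubgroup`, `r σ = t r_q(σ) t⁻¹` (i.e. `V = mackeySub`,
`r = mackeyHom`), and a `ZMod p`-valued cochain `c'` of `Gal(M/K')`: the smooth local class of
`c' ∘ sbRes ∘ r` has invariant `p ·` the invariant `geInv` at the `t`-twisted embedding of the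
multiplicative cocycle `ζ^c'`. -/
theorem lgqm_geInv_eq_lgqmInv (p : ℕ) [Fact p.Prime] (h : K' ≤ M)
    (hg : letI := sbAlgebra h; IsGalois ↥K' ↥M) (t : GQ)
    (ζM : (↥M)ˣ) (hζM : IsPrimitiveRoot ((ζM : ↥M) : AlgebraicClosure ℚ) p)
    {𝓛 : Levels (lbGal q)} (h𝓛 : 𝓛 = lbLevels q)
    (V : Subgroup (lbGal q)) (r : ↥V →* ↥K'.fixingSubgroup)
    (hV : ∀ σ : lbGal q, σ ∈ V ↔ t * localGaloisToGlobal q σ * t⁻¹ ∈ K'.fixingSubgroup)
    (hr : ∀ σ : ↥V, ((r σ : ↥K'.fixingSubgroup) : GQ) =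
      t * localGaloisToGlobal q (σ : lbGal q) * t⁻¹)
    (ρ : Representation (ZMod p) ↥V (ZMod p))
    (hρ : IsMuRep (padicEmbedding q ((t⁻¹ : GQ) ((ζM : ↥M) : AlgebraicClosure ℚ))) V ρ)
    (c' : (letI := sbAlgebra h; (↥M ≃ₐ[↥K'] ↥M) × (↥M ≃ₐ[↥K'] ↥M)) → ZMod p)
    (hc : (fun s : ↥V × ↥V => c' (sbRes h hg.to_normal (r s.1), sbRes h hg.to_normal (r s.2))) ∈
      smZ2 (𝓛.sub V) ρ) :
    letI := sbAlgebra h
    geInv q (lgqmEmb q M t) (sbMul₂ ζM c') =
      (((((lgqmInv q p (padicEmbedding q ((t⁻¹ : GQ) ((ζM : ↥M) : AlgebraicClosure ℚ))) h𝓛 V ρ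
        (smH2π (𝓛.sub V) ρ ⟨_, hc⟩)).val : ℕ) : ℚ) / (p : ℚ) : ℚ)) := by
  letI := sbAlgebra h
  haveI := hg
  have hgw := lgqm_isGalois q h hg t
  have hVE : V = (lgField q ((lgqmEmb q M t).comp (algebraMap ↥K' ↥M))).fixingSubgroup := by
    ext σ
    rw [hV σ, lgqm_conj_mem_fixingSubgroup_iff' q h t σ]
  have hζw : IsPrimitiveRoot (padicEmbedding q ((t⁻¹ : GQ) ((ζM : ↥M) : AlgebraicClosure ℚ))) p := by
    have h1 : IsPrimitiveRoot ((t⁻¹ : GQ) ((ζM : ↥M) : AlgebraicClosure ℚ)) p :=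
      hζM.map_of_injective (t⁻¹ : GQ).injective
    exact h1.map_of_injective (lgq_padicEmbedding_injective q)
  rw [lgqmInv_mk]
  have key := lgqm_lbInv_mk hζw (lgField_comp_le (K := ↥K') q (lgqmEmb q M t)) hgw
    (Units.map (lgEmb q (lgqmEmb q M t) : ↥M →* lgField q (lgqmEmb q M t)) ζM) rfl V hVE ρ hρ
    (fun s => c' (geRes (K := ↥K') (lgEmb q (lgqmEmb q M t)) s.1,
      geRes (K := ↥K') (lgEmb q (lgqmEmb q M t)) s.2))
    (fun s : ↥V × ↥V => c' (sbRes h hg.to_normal (r s.1), sbRes h hg.to_normal (r s.2)))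
    (fun s => by
      have h1 : ∀ σ : ↥V, sbRes h hg.to_normal (r σ) =
          geRes (K := ↥K') (lgEmb q (lgqmEmb q M t))
            (lbRes (lgField_comp_le (K := ↥K') q (lgqmEmb q M t)) hgw.to_normal
              ⟨(σ : lbGal q), hVE ▸ σ.2⟩) := by
        intro σ
        have h2 := lgqm_geRes_lbRes q h hg t (σ : lbGal q) ((hV _).1 σ.2)
        rw [h2]
        congr 1
        exact Subtype.ext (hr σ)
      rw [h1 s.1, h1 s.2])
    (h𝓛 ▸ hc)
  rw [← key]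
  unfold geInv
  congr 1
  funext s
  show Units.map _ (ζM ^ _) = _
  rw [map_pow]
  rfl

end GLc

/-! ## (GL-c) in the language of `locSysS S`, `mackeySub`, `mackeyHom` -/

section GLcS

variable (S : Finset Nat.Primes) (q : ↥S) (p : ℕ) [Fact p.Prime]
  {K' M : IntermediateField ℚ (AlgebraicClosure ℚ)} [NumberField K'] [NumberField M]

/-- The root of unity `ζ_w = padicEmbedding q (t⁻¹ ζ₀)`, `ζ₀ ∈ K'`, is fixed by the local group at
`w = (q, t)`: the pulled back trivial representation is a `μ_p`-representation. -/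
theorem lgqm_isMuRep_triv (t : GQ) (ζ₀ : AlgebraicClosure ℚ) (hζ₀ : ζ₀ ∈ K') :
    haveI : Fact ((q.1 : Nat.Primes) : ℕ).Prime := ⟨q.1.2⟩
    IsMuRep (p := p) (padicEmbedding ((q.1 : Nat.Primes) : ℕ) ((t⁻¹ : GQ) ζ₀))
      (mackeySub ((locSysS S).r q) K'.fixingSubgroup t : Subgroup (primeLocalGaloisGroup q.1))
      (((trivRep (k := ZMod p) K'.fixingSubgroup).comp
        (mackeyHom ((locSysS S).r q) K'.fixingSubgroup t) :
          Representation (ZMod p) ↥(mackeySub ((locSysS S).r q) K'.fixingSubgroup t) (ZMod p))) := by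
  haveI : Fact ((q.1 : Nat.Primes) : ℕ).Prime := ⟨q.1.2⟩
  intro σ x
  show (σ : lbGal ((q.1 : Nat.Primes) : ℕ))
      (padicEmbedding ((q.1 : Nat.Primes) : ℕ) ((t⁻¹ : GQ) ζ₀) ^ x.val) =
    padicEmbedding ((q.1 : Nat.Primes) : ℕ) ((t⁻¹ : GQ) ζ₀) ^ x.val
  rw [map_pow]
  congr 1
  have h2 : (σ : lbGal ((q.1 : Nat.Primes) : ℕ)) ∈
      (lgField ((q.1 : Nat.Primes) : ℕ)
        (lgqmEmb ((q.1 : Nat.Primes) : ℕ) K' t)).fixingSubgroup :=
    (lgqm_conj_mem_fixingSubgroup_iff ((q.1 : Nat.Primes) : ℕ) K' t _).1 σ.2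
  rw [IntermediateField.mem_fixingSubgroup_iff] at h2
  exact h2 _ (range_le_lgField _ (lgqmEmb ((q.1 : Nat.Primes) : ℕ) K' t) ⟨ζ₀, hζ₀⟩)

/-- (GL-c) for `locSysS S`: cocycle form. -/
theorem lgqm_geInv_eq_locSysS (h : K' ≤ M) (hg : letI := sbAlgebra h; IsGalois ↥K' ↥M) (t : GQ)
    (ζM : (↥M)ˣ) (hζM : IsPrimitiveRoot ((ζM : ↥M) : AlgebraicClosure ℚ) p)
    (ρ : Representation (ZMod p)
      ↥(mackeySub ((locSysS S).r q) K'.fixingSubgroup t : Subgroup (primeLocalGaloisGroup q.1)) (ZMod p))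
    (hρ : haveI : Fact ((q.1 : Nat.Primes) : ℕ).Prime := ⟨q.1.2⟩
      IsMuRep (padicEmbedding ((q.1 : Nat.Primes) : ℕ)
        ((t⁻¹ : GQ) ((ζM : ↥M) : AlgebraicClosure ℚ)))
        (mackeySub ((locSysS S).r q) K'.fixingSubgroup t : Subgroup (primeLocalGaloisGroup q.1)) ρ)
    (c' : (letI := sbAlgebra h; (↥M ≃ₐ[↥K'] ↥M) × (↥M ≃ₐ[↥K'] ↥M)) → ZMod p)
    (hc : (fun s : ↥(mackeySub ((locSysS S).r q) K'.fixingSubgroup t) ×
          ↥(mackeySub ((locSysS S).r q) K'.fixingSubgroup t) =>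
        c' (sbRes h hg.to_normal (mackeyHom ((locSysS S).r q) K'.fixingSubgroup t s.1),
          sbRes h hg.to_normal (mackeyHom ((locSysS S).r q) K'.fixingSubgroup t s.2))) ∈
      smZ2 (((locSysS S).lev q).sub (mackeySub ((locSysS S).r q) K'.fixingSubgroup t)) ρ) :
    haveI : Fact ((q.1 : Nat.Primes) : ℕ).Prime := ⟨q.1.2⟩
    letI := sbAlgebra h
    geInv ((q.1 : Nat.Primes) : ℕ) (lgqmEmb ((q.1 : Nat.Primes) : ℕ) M t) (sbMul₂ ζM c') =
      (((((lgqmInv ((q.1 : Nat.Primes) : ℕ) p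
          (padicEmbedding ((q.1 : Nat.Primes) : ℕ) ((t⁻¹ : GQ) ((ζM : ↥M) : AlgebraicClosure ℚ)))
          (lg_locSysS_lev S q)
          (mackeySub ((locSysS S).r q) K'.fixingSubgroup t : Subgroup (primeLocalGaloisGroup q.1)) ρ
        (smH2π (((locSysS S).lev q).sub (mackeySub ((locSysS S).r q) K'.fixingSubgroup t)) ρ
          ⟨_, hc⟩)).val : ℕ) : ℚ) / (p : ℚ) : ℚ)) := by
  haveI : Fact ((q.1 : Nat.Primes) : ℕ).Prime := ⟨q.1.2⟩
  exact lgqm_geInv_eq_lgqmInv ((q.1 : Nat.Primes) : ℕ) p h hg t ζM hζM (lg_locSysS_lev S q)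
    (mackeySub ((locSysS S).r q) K'.fixingSubgroup t : Subgroup (primeLocalGaloisGroup q.1))
    (mackeyHom ((locSysS S).r q) K'.fixingSubgroup t) (fun σ => Iff.rfl) (fun σ => rfl) ρ hρ c' hc

/-- (GL-c) for `locSysS S`: CLASS FORM for trivial coefficients, the shape needed for the
realisation field `c2` of `CritTriv`: the local invariant at `w = (q, t)` of the restriction of the
smooth global class of `c' ∘ sbRes` is `p · geInv` of `ζ^c'` at the `t`-twisted embedding. -/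
theorem lgqm_geInv_eq_res (h : K' ≤ M) (hg : letI := sbAlgebra h; IsGalois ↥K' ↥M) (t : GQ)
    (ζM : (↥M)ˣ) (hζM : IsPrimitiveRoot ((ζM : ↥M) : AlgebraicClosure ℚ) p)
    (hζK : ((ζM : ↥M) : AlgebraicClosure ℚ) ∈ K')
    (c' : (letI := sbAlgebra h; (↥M ≃ₐ[↥K'] ↥M) × (↥M ≃ₐ[↥K'] ↥M)) → ZMod p)
    (hcg : (fun s : ↥K'.fixingSubgroup × ↥K'.fixingSubgroup =>
        c' (sbRes h hg.to_normal s.1, sbRes h hg.to_normal s.2)) ∈
      smZ2 ((levelsS S).sub K'.fixingSubgroup) (trivRep (k := ZMod p) K'.fixingSubgroup))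
    (hcont : (((locSysS S).lev q).sub (mackeySub ((locSysS S).r q) K'.fixingSubgroup t)).Continuous
      ((levelsS S).sub K'.fixingSubgroup) (mackeyHom ((locSysS S).r q) K'.fixingSubgroup t)) :
    haveI : Fact ((q.1 : Nat.Primes) : ℕ).Prime := ⟨q.1.2⟩
    letI := sbAlgebra h
    geInv ((q.1 : Nat.Primes) : ℕ) (lgqmEmb ((q.1 : Nat.Primes) : ℕ) M t) (sbMul₂ ζM c') =
      (((((lgqmInv ((q.1 : Nat.Primes) : ℕ) p
          (padicEmbedding ((q.1 : Nat.Primes) : ℕ) ((t⁻¹ : GQ) ((ζM : ↥M) : AlgebraicClosure ℚ)))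
          (lg_locSysS_lev S q)
          (mackeySub ((locSysS S).r q) K'.fixingSubgroup t : Subgroup (primeLocalGaloisGroup q.1))
          (((trivRep (k := ZMod p) K'.fixingSubgroup).comp
            (mackeyHom ((locSysS S).r q) K'.fixingSubgroup t) :
              Representation (ZMod p) ↥(mackeySub ((locSysS S).r q) K'.fixingSubgroup t) (ZMod p)))
        (smH2res (trivRep (k := ZMod p) K'.fixingSubgroup) hcont
          (smH2π ((levelsS S).sub K'.fixingSubgroup) (trivRep (k := ZMod p) K'.fixingSubgroup)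
            ⟨_, hcg⟩))).val : ℕ) : ℚ) / (p : ℚ) : ℚ)) := by
  haveI : Fact ((q.1 : Nat.Primes) : ℕ).Prime := ⟨q.1.2⟩
  exact lgqm_geInv_eq_locSysS S q p h hg t ζM hζM _ (lgqm_isMuRep_triv S q p t _ hζK) c'
    (smZ2res (trivRep (k := ZMod p) K'.fixingSubgroup) hcont ⟨_, hcg⟩).2

end GLcS

end Fermat.Agent.S55
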